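import Fermat.Agent.S16.UB.CI2Core

/-!
# P-EIS (S16), case file C2A: `ℓ = 2`, `p ≡ 1 mod 4` (`b = 2`)

There is no `2`-integral `H ∈ M₂(Γ₀(p))` with `a₀ = 1` and `H ≡ 1 mod 4`: by (I2) and the
Frobenius congruence `X² ≡ X(q²) mod 2` such an `H` is `≡ 1 mod 8`, and then (I2) for `H` and
`U_p H` gives `240 (p + 1) p³ ∈ 64 ℤ_(2)`, which is false.
-/

set_option autoImplicit false

open PowerSeries UpperHalfPlane ModularForm ModularFormClass MatrixGroups CongruenceSubgroup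

namespace Fermat.Agent.S16

theorem expB_two_of_mod (p : ℕ) (hp : p % 4 = 1) : expB p 2 = 2 := by
  unfold expB
  have hg12 : Nat.gcd (p - 1) 12 ∣ 12 := Nat.gcd_dvd_right _ _
  have h4g : 4 ∣ Nat.gcd (p - 1) 12 := Nat.dvd_gcd (by omega) (by norm_num)
  have hgle : Nat.gcd (p - 1) 12 ≤ 12 := Nat.le_of_dvd (by norm_num) hg12
  generalize Nat.gcd (p - 1) 12 = g at hg12 h4g hgle
  have hcases : g = 4 ∨ g = 12 := by
    interval_cases g <;> simp_all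
  have h1 : padicValNat 2 (24 / g) = 1 := by
    rcases hcases with rfl | rfl
    · have : (24 / 4 : ℕ) = 2 ^ 1 * 3 := by norm_num
      rw [this, padicValNat.mul (by norm_num) (by norm_num), padicValNat.prime_pow,
        padicValNat.eq_zero_of_not_dvd (by norm_num)]
    · have : (24 / 12 : ℕ) = 2 ^ 1 := by norm_num
      rw [this, padicValNat.prime_pow]
  rw [h1]

theorem not_sixtyfour_dvd (p : ℕ) (hp : p % 4 = 1) :
    ¬ ((2 : ℕ) : ℤ) ^ (3 + 3) ∣ 240 * ((p : ℤ) + 1) * (p : ℤ) ^ 3 := by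
  have e : (240 * ((p : ℤ) + 1) * (p : ℤ) ^ 3) = ((16 * (15 * (p + 1) * p ^ 3) : ℕ) : ℤ) := by
    push_cast; ring
  have e64 : ((2 : ℕ) : ℤ) ^ (3 + 3) = ((16 * 4 : ℕ) : ℤ) := by norm_num
  rw [e, e64, Int.natCast_dvd_natCast]
  intro h
  have h4 : 4 ∣ 15 * (p + 1) * p ^ 3 := Nat.dvd_of_mul_dvd_mul_left (by norm_num) h
  rw [Nat.dvd_iff_mod_eq_zero] at h4
  have h3 : p ^ 3 % 4 = 1 := by rw [Nat.pow_mod, hp]
  have h2 : (p + 1) % 4 = 2 := by omega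
  rw [Nat.mul_mod, Nat.mul_mod 15, h2, h3] at h4
  norm_num at h4

/-- **C2A**: `NoH p 2` for `p ≡ 1 mod 4`. -/
theorem noH_c2a (p : ℕ) [Fact p.Prime] (hp : p % 4 = 1) (hE : IfaceExp p) (h0 : IfaceT0 p)
    (hI : IfaceI2 p) (hL : IfaceLV1) : NoH p 2 := by
  rintro ⟨H, hH0, hHk⟩
  obtain ⟨hUU, hI1, hI2⟩ := CI2.ci2_setup p hE h0 hI hL H
  have hb : expB p 2 = 2 := expB_two_of_mod p hp
  have hA2 : ∀ n : ℕ, 1 ≤ n → coeff n (qExpansion 1 H) ∈ CI2.Jl 2 2 := by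
    intro n hn
    obtain ⟨m, s, hs, h⟩ := hHk n hn
    rw [h, hb]
    exact ⟨(m : ℂ) / (s : ℂ), ⟨m, s, hs, rfl⟩, by push_cast; ring⟩
  have hA3 := CI2.c2a_step p hp (qExpansion 1 H) hH0 hA2 hUU hI1
  exact CI2.ci2_final (ℓ := 2) 3 p (qExpansion 1 H) hH0 hA3 hUU hI1 hI2 (not_sixtyfour_dvd p hp)

end Fermat.Agent.S16
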