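import Mathlib
import Fermat.Agent.S16.Iface

/-!
# P-EIS (S16), upper bound: common tools for the NORM case files (C7, C5, C3B, C2B)

* `CK_PSR R`: the subring of `PowerSeries ℂ` of power series with coefficients in `R`;
* formal operators `UpPS`, `expandPS` on such series;
* `CK_exists_x`: a form `H` as in `NoH` has `q`-expansion `1 + ℓ^b x` with `x ∈ R⟦q⟧`;
* `CK_pair`: the form pair `(A, -p⁻¹ U_p A)` of a weight-two form;
* `CK_contra`: the final contradiction from the norm argument.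
-/

set_option autoImplicit false

open UpperHalfPlane ModularForm ModularFormClass MatrixGroups CongruenceSubgroup

namespace Fermat.Agent.S16

noncomputable section

/-! ## Power series with coefficients in `R` -/

/-- The subring of power series over `ℂ` all of whose coefficients lie in `R`. -/
def CK_PSR (R : Subring ℂ) : Subring (PowerSeries ℂ) := (PowerSeries.map R.subtype).range

theorem CK_mem_PSR_iff {R : Subring ℂ} {F : PowerSeries ℂ} : F ∈ CK_PSR R ↔ InR R F := by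
  constructor
  · rintro ⟨G, rfl⟩ n
    simp
  · intro h
    refine ⟨PowerSeries.mk fun n => ⟨PowerSeries.coeff n F, h n⟩, ?_⟩
    ext n
    simp

theorem CK_C_mem {R : Subring ℂ} {c : ℂ} (hc : c ∈ R) : PowerSeries.C c ∈ CK_PSR R :=
  ⟨PowerSeries.C (⟨c, hc⟩ : R), by simp⟩

theorem CK_intCoeff_mem (R : Subring ℂ) (F : PowerSeries ℂ)
    (hF : ∀ n, ∃ a : ℤ, PowerSeries.coeff n F = (a : ℂ)) : F ∈ CK_PSR R := by
  rw [CK_mem_PSR_iff]
  intro n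
  obtain ⟨a, ha⟩ := hF n
  rw [ha]
  exact intCast_mem R a

theorem CK_SJ_mem (R : Subring ℂ) (j : ℕ) : SJ j ∈ CK_PSR R :=
  CK_intCoeff_mem R _ (fun n => ⟨(sigmaJ j n : ℤ), by simp [SJ]⟩)

theorem CK_expandPS_eq (p : ℕ) (hp : p ≠ 0) (F : PowerSeries ℂ) :
    expandPS p F = PowerSeries.expand p hp F := by
  ext n
  rw [PowerSeries.coeff_expand, expandPS, PowerSeries.coeff_mk]

theorem CK_expandPS_mem {R : Subring ℂ} (p : ℕ) {F : PowerSeries ℂ} (hF : F ∈ CK_PSR R) :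
    expandPS p F ∈ CK_PSR R := by
  rw [CK_mem_PSR_iff] at hF ⊢
  intro n
  rw [expandPS, PowerSeries.coeff_mk]
  split_ifs
  · exact hF _
  · exact R.zero_mem

theorem CK_UpPS_mem {R : Subring ℂ} (p : ℕ) {F : PowerSeries ℂ} (hF : F ∈ CK_PSR R) :
    UpPS p F ∈ CK_PSR R := by
  rw [CK_mem_PSR_iff] at hF ⊢
  intro n
  rw [UpPS, PowerSeries.coeff_mk]
  exact hF _

theorem CK_UpPS_add (p : ℕ) (F G : PowerSeries ℂ) : UpPS p (F + G) = UpPS p F + UpPS p G := by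
  ext n
  simp [UpPS]

theorem CK_UpPS_C_mul (p : ℕ) (c : ℂ) (F : PowerSeries ℂ) :
    UpPS p (PowerSeries.C c * F) = PowerSeries.C c * UpPS p F := by
  ext n
  simp [UpPS]

theorem CK_UpPS_one (p : ℕ) (hp : p ≠ 0) : UpPS p 1 = 1 := by
  ext n
  simp only [UpPS, PowerSeries.coeff_mk, PowerSeries.coeff_one]
  simp [hp]

theorem CK_coeff_zero_UpPS (p : ℕ) (F : PowerSeries ℂ) :
    PowerSeries.coeff 0 (UpPS p F) = PowerSeries.coeff 0 F := by
  simp [UpPS]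

/-- `F ≡ G mod I` as soon as `F - G = ℓ * K` with `K ∈ R⟦q⟧` and `ℓ ∈ I`. -/
theorem CK_modI_of_eq {R : Subring ℂ} {I : Ideal R} {ℓ : ℕ} (hℓ : ((ℓ : ℕ) : R) ∈ I)
    {F G K : PowerSeries ℂ} (hK : K ∈ CK_PSR R) (h : F = G + PowerSeries.C (ℓ : ℂ) * K) :
    ModI R I F G := by
  intro n
  rw [CK_mem_PSR_iff] at hK
  refine ⟨((ℓ : ℕ) : R) * ⟨PowerSeries.coeff n K, hK n⟩, I.mul_mem_right _ hℓ, ?_⟩
  rw [h, map_add, add_sub_cancel_left, PowerSeries.coeff_C_mul]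
  push_cast
  rfl

/-! ## The data of a counterexample `H` -/

/-- The `q`-expansion of a form `H` as in `NoH` is `1 + ℓ^b x` with `x ∈ R⟦q⟧`, `x(0) = 0`. -/
theorem CK_exists_x {ℓ : ℕ} (R : Subring ℂ) (hRinv : ∀ s : ℕ, ¬ ℓ ∣ s → ((s : ℂ)⁻¹) ∈ R)
    (hℓ0 : ℓ ≠ 0) (b : ℕ) (A : PowerSeries ℂ) (h0 : PowerSeries.coeff 0 A = 1)
    (hk : ∀ k : ℕ, 1 ≤ k → ∃ (m : ℤ) (s : ℕ), ¬ ℓ ∣ s ∧
      PowerSeries.coeff k A = (ℓ : ℂ) ^ b * (m : ℂ) / (s : ℂ)) :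
    ∃ x : PowerSeries ℂ, x ∈ CK_PSR R ∧ PowerSeries.coeff 0 x = 0 ∧
      A = 1 + PowerSeries.C ((ℓ : ℂ) ^ b) * x := by
  classical
  have hℓb : ((ℓ : ℂ) ^ b) ≠ 0 := pow_ne_zero _ (by exact_mod_cast hℓ0)
  refine ⟨PowerSeries.mk fun k => if k = 0 then 0 else PowerSeries.coeff k A / (ℓ : ℂ) ^ b,
    ?_, by simp, ?_⟩
  · rw [CK_mem_PSR_iff]
    intro k
    rw [PowerSeries.coeff_mk]
    split_ifs with hk0
    · exact R.zero_mem
    · obtain ⟨m, s, hs, hms⟩ := hk k (Nat.one_le_iff_ne_zero.mpr hk0)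
      rw [hms]
      have : (ℓ : ℂ) ^ b * (m : ℂ) / (s : ℂ) / (ℓ : ℂ) ^ b = (m : ℂ) * (s : ℂ)⁻¹ := by
        field_simp
      rw [this]
      exact R.mul_mem (intCast_mem R m) (hRinv s hs)
  · ext k
    rw [map_add, PowerSeries.coeff_C_mul, PowerSeries.coeff_mk, PowerSeries.coeff_one]
    split_ifs with hk0
    · rw [hk0, h0]; simp
    · field_simp
      ring

/-- The form pair of a weight-two form: `(A, -p⁻¹ U_p A)`, together with the pair of `U_p A`. -/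
theorem CK_pair {p : ℕ} (hE : IfaceExp p) (h0 : IfaceT0 p) (H : ModularForm (Gamma0 p) 2) :
    FormPair p 2 (qExpansion 1 H) ((-(p : ℂ)⁻¹) • UpPS p (qExpansion 1 H)) := by
  obtain ⟨B, hB⟩ := hE 2 H
  have hFP : FormPair p 2 (qExpansion 1 H) B := ⟨H, rfl, hB⟩
  obtain ⟨hBeq, -⟩ := h0 _ _ hFP
  rwa [hBeq] at hFP

/-- Level-one forms give form pairs. -/
theorem CK_levelOne {p : ℕ} (hA : IfaceAlg p) (w : ℤ) (f : ModularForm 𝒮ℒ w) :
    FormPair p w (qExpansion 1 f) (expandPS p (qExpansion 1 f)) :=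
  hA.2.2.2 w _ ⟨f, rfl⟩

/-! ## The final contradiction -/

/-- The norm argument, packaged for the case files: a form pair `(AΦ, BΦ)` of weight
`0 ≤ w ≤ 8` with `AΦ ≡ s`, `BΦ ≡ s(t^p)` modulo `ℓ R⟦q⟧`, where `s ∈ R⟦q⟧` has `s(0) = 0`
and some coefficient of `s` is a unit of `R`, cannot exist. -/
theorem CK_contra {p ℓ : ℕ} (hp3 : 3 ≤ p) (hN : IfaceNormArg p)
    (R : Subring ℂ) (I : Ideal R) (hI : I.IsPrime) (hζ : zetaP p ∈ R) (hℓ : ((ℓ : ℕ) : R) ∈ I)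
    (w : ℤ) (hw0 : 0 ≤ w) (hw8 : w ≤ 8) (AΦ BΦ s KA KB : PowerSeries ℂ)
    (hFP : FormPair p w AΦ BΦ) (hs : s ∈ CK_PSR R) (hs0 : PowerSeries.coeff 0 s = 0)
    (hunit : ∃ n : ℕ, ∃ v ∈ R, PowerSeries.coeff n s * v = 1)
    (hKA : KA ∈ CK_PSR R) (hKB : KB ∈ CK_PSR R)
    (hAΦ : AΦ = s + PowerSeries.C (ℓ : ℂ) * KA)
    (hBΦ : BΦ = expandPS p s + PowerSeries.C (ℓ : ℂ) * KB) : False := by
  have hℓmem : PowerSeries.C (ℓ : ℂ) ∈ CK_PSR R := CK_C_mem (natCast_mem R ℓ)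
  have hAin : InR R AΦ := by
    rw [← CK_mem_PSR_iff, hAΦ]
    exact (CK_PSR R).add_mem hs ((CK_PSR R).mul_mem hℓmem hKA)
  have hBin : InR R BΦ := by
    rw [← CK_mem_PSR_iff, hBΦ]
    exact (CK_PSR R).add_mem (CK_expandPS_mem p hs) ((CK_PSR R).mul_mem hℓmem hKB)
  have hsin : InR R s := CK_mem_PSR_iff.mp hs
  have key := hN hp3 R I hI hζ w AΦ BΦ s hw0 hw8 hFP hAin hBin hsin
    ⟨0, I.zero_mem, by rw [hs0]; simp⟩ (CK_modI_of_eq hℓ hKB hBΦ)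
  obtain ⟨n, v, hv, hnv⟩ := hunit
  -- in both cases the coefficient `s_n` lies in `I`
  have hsn : ∃ r : R, r ∈ I ∧ PowerSeries.coeff n s = (r : ℂ) := by
    rcases key with h | h
    · obtain ⟨r, hr, hrn⟩ := h n
      rw [map_zero, sub_zero, hAΦ, map_add, PowerSeries.coeff_C_mul] at hrn
      rw [CK_mem_PSR_iff] at hKA
      refine ⟨r - ((ℓ : ℕ) : R) * ⟨PowerSeries.coeff n KA, hKA n⟩,
        I.sub_mem hr (I.mul_mem_right _ hℓ), ?_⟩
      push_cast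
      rw [← hrn]
      ring
    · obtain ⟨r, hr, hrn⟩ := h n
      rw [map_zero, sub_zero] at hrn
      exact ⟨r, hr, hrn⟩
  obtain ⟨r, hr, hrn⟩ := hsn
  apply hI.ne_top
  rw [Ideal.eq_top_iff_one]
  have : (1 : R) = r * ⟨v, hv⟩ := by
    apply Subtype.ext
    push_cast
    rw [← hrn, hnv]
  rw [this]
  exact I.mul_mem_right _ hr

end

end Fermat.Agent.S16
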