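import Mathlib
import Fermat.Agent.S16.Iface
import Fermat.Agent.S16.UB.CaseKit

/-!
# P-EIS (S16), upper bound: case file C2B (`ℓ = 2`, `p ≡ 3 mod 4`, `b = 3`)

There is no `2`-integral `H ∈ M₂(Γ₀(p))` with `a₀ = 1` and `H ≡ 1 mod 8`.  Norm argument for
`Φ = Θ(H) / 256`, `Θ(X) = 27 X⁴ - 18 E₄ X² - 8 E₆ X - E₄²` (weight `8`): with `X = 1 + 4u`,
`Θ(X)/256 = (S₃ + S₃²) + 2 (…) + u (1 + 3u)³`, and `u (1 + 3u)³ ≡ 0 mod 2` at both cusps.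
-/

set_option autoImplicit false

open UpperHalfPlane ModularForm ModularFormClass MatrixGroups CongruenceSubgroup

namespace Fermat.Agent.S16

noncomputable section

theorem C2B_expB (p : ℕ) (hp4 : p % 4 = 3) : expB p 2 = 3 := by
  have h12 : padicValNat 2 12 = 2 := by
    have : (12 : ℕ) = 2 ^ 2 * 3 := by norm_num
    rw [this, padicValNat.mul (by norm_num) (by norm_num), padicValNat.prime_pow]
    simp [padicValNat.eq_zero_of_not_dvd]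
  have h4 : padicValNat 2 4 = 2 := by
    have : (4 : ℕ) = 2 ^ 2 := by norm_num
    rw [this, padicValNat.prime_pow]
  have hg : Nat.gcd (p - 1) 12 = Nat.gcd ((p - 1) % 12) 12 := by
    rw [Nat.gcd_comm (p - 1) 12, Nat.gcd_rec 12 (p - 1)]
  have hmod : (p - 1) % 12 = 2 ∨ (p - 1) % 12 = 6 ∨ (p - 1) % 12 = 10 := by omega
  unfold expB
  rw [hg]
  rcases hmod with h | h | h <;> rw [h]
  · rw [show Nat.gcd 2 12 = 2 by decide, show 24 / 2 = 12 by norm_num, h12]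
  · rw [show Nat.gcd 6 12 = 6 by decide, show 24 / 6 = 4 by norm_num, h4]
  · rw [show Nat.gcd 10 12 = 2 by decide, show 24 / 2 = 12 by norm_num, h12]

/-- `σ₅(k) ≡ σ₃(k) mod 8`. -/
theorem C2B_sigma_dvd (k : ℕ) : (8 : ℤ) ∣ (sigmaJ 5 k : ℤ) - (sigmaJ 3 k : ℤ) := by
  have hd : ∀ d : ℕ, (8 : ℤ) ∣ (d : ℤ) ^ 5 - (d : ℤ) ^ 3 := by
    intro d
    have h : ∀ r : ZMod 8, r ^ 5 - r ^ 3 = 0 := by decide
    have h2 : (((d : ℤ) ^ 5 - (d : ℤ) ^ 3 : ℤ) : ZMod 8) = 0 := by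
      push_cast
      exact h (d : ZMod 8)
    exact (ZMod.intCast_zmod_eq_zero_iff_dvd _ 8).mp h2
  unfold sigmaJ
  push_cast
  rw [← Finset.sum_sub_distrib]
  exact Finset.dvd_sum (fun d _ => hd d)

/-- The integral power series `T = (S₅ - S₃) / 8`. -/
def C2B_T : PowerSeries ℂ :=
  PowerSeries.mk fun k => ((((sigmaJ 5 k : ℤ) - (sigmaJ 3 k : ℤ)) / 8 : ℤ) : ℂ)

theorem C2B_S5 : SJ 5 = SJ 3 + 8 * C2B_T := by
  ext k
  have h8 : (8 : PowerSeries ℂ) = PowerSeries.C (8 : ℂ) := (map_ofNat PowerSeries.C 8).symm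
  rw [map_add, h8, PowerSeries.coeff_C_mul]
  simp only [SJ, C2B_T, PowerSeries.coeff_mk]
  obtain ⟨c, hc⟩ := C2B_sigma_dvd k
  rw [hc, Int.mul_ediv_cancel_left c (by norm_num)]
  have : ((sigmaJ 5 k : ℤ) : ℂ) = ((sigmaJ 3 k : ℤ) : ℂ) + ((8 * c : ℤ) : ℂ) := by
    rw [← hc]; push_cast; ring
  push_cast at this
  rw [this]

theorem C2B_T_mem (R : Subring ℂ) : C2B_T ∈ CK_PSR R :=
  CK_intCoeff_mem R _ (fun k => ⟨((sigmaJ 5 k : ℤ) - (sigmaJ 3 k : ℤ)) / 8, by simp [C2B_T]⟩)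

/-- The polynomial identity behind the case `ℓ = 2`. -/
theorem C2B_theta_identity (X u e4 e6 S3 S5 T : PowerSeries ℂ) (hX : X = 1 + 4 * u)
    (h4 : e4 = 1 + 240 * S3) (h6 : e6 = 1 - 504 * S5) (h5 : S5 = S3 + 8 * T) :
    (1 / 256 : ℂ) • ((27 : ℂ) • (X * X * (X * X)) + (-18 : ℂ) • (e4 * (X * X)) +
        (-8 : ℂ) • (e6 * X) + (-1 : ℂ) • (e4 * e4)) =
      (S3 + S3 ^ 2) + 2 * (63 * T - 2 * S3 - 113 * S3 ^ 2 + u * (-36 * S3 + 252 * T)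
        - 135 * u ^ 2 * S3) + u * (1 + 3 * u) ^ 3 := by
  have hc : PowerSeries.C (1 / 256 : ℂ) * 256 = 1 := by
    have : (256 : PowerSeries ℂ) = PowerSeries.C (256 : ℂ) := (map_ofNat PowerSeries.C 256).symm
    rw [this, ← map_mul]
    norm_num
  simp only [PowerSeries.smul_eq_C_mul, map_neg, map_ofNat, map_one]
  subst hX h4 h6 h5
  linear_combination ((S3 + S3 ^ 2) + 2 * (63 * T - 2 * S3 - 113 * S3 ^ 2 +
    u * (-36 * S3 + 252 * T) - 135 * u ^ 2 * S3) + u * (1 + 3 * u) ^ 3) * hc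

theorem C2B_coeff_one_s : PowerSeries.coeff 1 (SJ 3 + SJ 3 ^ 2) = 1 := by
  have h0 : PowerSeries.coeff 0 (SJ 3) = 0 := by simp [SJ, sigmaJ]
  have h1 : PowerSeries.coeff 1 (SJ 3) = 1 := by simp [SJ, sigmaJ]
  rw [map_add, h1, pow_two, PowerSeries.coeff_mul]
  simp [Finset.Nat.antidiagonal_succ, h0]

theorem C2B_coeff_zero_s : PowerSeries.coeff 0 (SJ 3 + SJ 3 ^ 2) = 0 := by
  have h0 : PowerSeries.coeff 0 (SJ 3) = 0 := by simp [SJ, sigmaJ]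
  rw [map_add, h0, pow_two, PowerSeries.coeff_mul]
  simp [h0]

theorem C2B_KA_mem (S : Subring (PowerSeries ℂ)) (T S3 x : PowerSeries ℂ) (hT : T ∈ S)
    (hS3 : S3 ∈ S) (hx : x ∈ S) :
    63 * T - 2 * S3 - 113 * S3 ^ 2 + (2 * x) * (-36 * S3 + 252 * T)
      - 135 * (2 * x) ^ 2 * S3 + x * (1 + 3 * (2 * x)) ^ 3 ∈ S := by
  have hn : ∀ n : ℕ, (n : PowerSeries ℂ) ∈ S := fun n => natCast_mem _ n
  have h63 := hn 63
  have h2 := hn 2
  have h3 := hn 3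
  have h113 := hn 113
  have h36 := hn 36
  have h252 := hn 252
  have h135 := hn 135
  push_cast at *
  aesop

theorem C2B_KB_mem (S : Subring (PowerSeries ℂ)) (T S3 y c e : PowerSeries ℂ) (hT : T ∈ S)
    (hS3 : S3 ∈ S) (hy : y ∈ S) (hc : c ∈ S) (he : e ∈ S) :
    63 * T - 2 * S3 - 113 * S3 ^ 2 + (c + 2 * y) * (-36 * S3 + 252 * T)
      - 135 * (c + 2 * y) ^ 2 * S3 + e +
      y * (1 + 18 * c + 18 * y + 81 * c ^ 2 + 162 * c * y + 108 * y ^ 2 + 108 * c ^ 3 +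
        324 * c ^ 2 * y + 432 * c * y ^ 2 + 216 * y ^ 3) ∈ S := by
  have hn : ∀ n : ℕ, (n : PowerSeries ℂ) ∈ S := fun n => natCast_mem _ n
  have h63 := hn 63
  have h2 := hn 2
  have h113 := hn 113
  have h36 := hn 36
  have h252 := hn 252
  have h135 := hn 135
  have h18 := hn 18
  have h81 := hn 81
  have h162 := hn 162
  have h108 := hn 108
  have h324 := hn 324
  have h432 := hn 432
  have h216 := hn 216
  push_cast at *
  aesop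

/-- **Case C2B**. -/
theorem noH_c2b (p : ℕ) [Fact p.Prime] (hp : 5 ≤ p) (hp4 : p % 4 = 3)
    (hE : IfaceExp p) (h0 : IfaceT0 p) (hA : IfaceAlg p) (hR : IfaceRing p 2)
    (hN : IfaceNormArg p) (hL : IfaceLV1) : NoH p 2 := by
  rintro ⟨H, hH0, hHk⟩
  rw [C2B_expB p hp4] at hHk
  obtain ⟨R, I, hI, hζ, hRinv, h2I⟩ := hR
  have hp0 : p ≠ 0 := by omega
  have hpC : (p : ℂ) ≠ 0 := by exact_mod_cast hp0
  obtain ⟨hE4, hE6, -, -⟩ := hL
  -- the expansion of `H`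
  obtain ⟨x, hx, hx0, hAx⟩ := CK_exists_x (ℓ := 2) R hRinv (by norm_num) 3
    (qExpansion 1 H) hH0 (by exact_mod_cast hHk)
  set A := qExpansion 1 H with hAdef
  have h8 : PowerSeries.C (((2 : ℕ) : ℂ) ^ 3) = (8 : PowerSeries ℂ) := by
    have : (((2 : ℕ) : ℂ) ^ 3) = 8 := by norm_num
    rw [this, map_ofNat]
  rw [h8] at hAx
  set x' := UpPS p x with hx'def
  have hx' : x' ∈ CK_PSR R := CK_UpPS_mem p hx
  have hUA : UpPS p A = 1 + 8 * x' := by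
    have h8' : (8 : PowerSeries ℂ) = PowerSeries.C (8 : ℂ) := (map_ofNat PowerSeries.C 8).symm
    rw [hAx, CK_UpPS_add, CK_UpPS_one p hp0, h8', CK_UpPS_C_mul]
  -- form pairs
  have hH : FormPair p 2 A ((-(p : ℂ)⁻¹) • UpPS p A) := CK_pair hE h0 H
  set B := (-(p : ℂ)⁻¹) • UpPS p A with hBdef
  have hF4 := CK_levelOne hA 4 E₄
  have hF6 := CK_levelOne hA 6 E₆
  obtain ⟨hmul, hadd, hsmul, -⟩ := hA
  have hH2 := hmul 2 2 _ _ _ _ hH hH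
  have hH4 := hmul _ _ _ _ _ _ hH2 hH2
  have hE4H2 := hmul _ _ _ _ _ _ hF4 hH2
  have hE6H := hmul _ _ _ _ _ _ hF6 hH
  have hE4E4 := hmul _ _ _ _ _ _ hF4 hF4
  rw [show ((2 : ℤ) + 2) + (2 + 2) = 8 by norm_num] at hH4
  rw [show (4 : ℤ) + (2 + 2) = 8 by norm_num] at hE4H2
  rw [show (6 : ℤ) + 2 = 8 by norm_num] at hE6H
  rw [show (4 : ℤ) + 4 = 8 by norm_num] at hE4E4
  have hΦ := hsmul 8 (1 / 256 : ℂ) _ _ (hadd 8 _ _ _ _ (hadd 8 _ _ _ _ (hadd 8 _ _ _ _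
    (hsmul 8 (27 : ℂ) _ _ hH4) (hsmul 8 (-18 : ℂ) _ _ hE4H2)) (hsmul 8 (-8 : ℂ) _ _ hE6H))
    (hsmul 8 (-1 : ℂ) _ _ hE4E4))
  -- the two expansions in normal form
  have hexp : ∀ F : PowerSeries ℂ, expandPS p F = PowerSeries.expand p hp0 F :=
    CK_expandPS_eq p hp0
  have hE4' : qExpansion 1 E₄ = 1 + 240 * SJ 3 := by
    rw [hE4, PowerSeries.smul_eq_C_mul, map_ofNat]
  have hE6' : qExpansion 1 E₆ = 1 - 504 * SJ 5 := by
    rw [hE6, PowerSeries.smul_eq_C_mul, map_ofNat]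
  have he4 : expandPS p (qExpansion 1 E₄) = 1 + 240 * expandPS p (SJ 3) := by
    rw [hE4', hexp, hexp, map_add, map_one, map_mul, map_ofNat]
  have he6 : expandPS p (qExpansion 1 E₆) = 1 - 504 * expandPS p (SJ 5) := by
    rw [hE6', hexp, hexp, map_sub, map_one, map_mul, map_ofNat]
  have he5 : expandPS p (SJ 5) = expandPS p (SJ 3) + 8 * expandPS p C2B_T := by
    rw [C2B_S5, hexp, hexp, hexp, map_add, map_mul, map_ofNat]
  -- at infinity: `u = 2 x`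
  have hAΦ := C2B_theta_identity A (2 * x) (qExpansion 1 E₄) (qExpansion 1 E₆) (SJ 3) (SJ 5)
    C2B_T (by rw [hAx]; ring) hE4' hE6' C2B_S5
  -- at the cusp `0`: `u = c₀ + 2 y`
  obtain ⟨k', hk'⟩ : ∃ k' : ℕ, p + 1 = 4 * (k' + 1) := ⟨(p + 1) / 4 - 1, by omega⟩
  have hk'C : (p : ℂ) + 1 = 4 * ((k' : ℂ) + 1) := by exact_mod_cast hk'
  obtain ⟨j, hj⟩ := Nat.even_mul_succ_self k'
  have hjC : (k' : ℂ) * ((k' : ℂ) + 1) = (j : ℂ) + (j : ℂ) := by exact_mod_cast hj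
  set c₀ : ℂ := (-(p : ℂ)⁻¹ - 1) / 4 with hc₀
  set y := PowerSeries.C (-(p : ℂ)⁻¹) * x' with hy
  have hpinv : (p : ℂ)⁻¹ ∈ R := hRinv p (by omega)
  have hyR : y ∈ CK_PSR R := (CK_PSR R).mul_mem (CK_C_mem (R.neg_mem hpinv)) hx'
  have hc₀eq : c₀ = -((k' : ℂ) + 1) * (p : ℂ)⁻¹ := by
    rw [hc₀]
    field_simp
    linear_combination -hk'C
  have hc₀R : c₀ ∈ R := by
    rw [hc₀eq]
    exact R.mul_mem (R.neg_mem (R.add_mem (natCast_mem R k') R.one_mem)) hpinv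
  set e : ℂ := -((j : ℂ) * (k' : ℂ) ^ 2 * ((p : ℂ)⁻¹) ^ 4) with he
  have heR : e ∈ R :=
    R.neg_mem (R.mul_mem (R.mul_mem (natCast_mem R j) (pow_mem (natCast_mem R k') 2))
      (pow_mem hpinv 4))
  have hce : c₀ * (1 + 3 * c₀) ^ 3 = 2 * e := by
    have h13 : 1 + 3 * c₀ = (k' : ℂ) * (p : ℂ)⁻¹ := by
      rw [hc₀eq]
      field_simp
      linear_combination hk'C
    rw [h13, hc₀eq, he]
    linear_combination (-(k' : ℂ) ^ 2 * ((p : ℂ)⁻¹) ^ 4) * hjC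
  have hBu : B = 1 + 4 * (PowerSeries.C c₀ + 2 * y) := by
    have hC : PowerSeries.C (-(p : ℂ)⁻¹) = 1 + 4 * PowerSeries.C c₀ := by
      have : (-(p : ℂ)⁻¹) = 1 + 4 * c₀ := by rw [hc₀]; ring
      rw [this, map_add, map_one, map_mul, map_ofNat]
    rw [hBdef, hUA, PowerSeries.smul_eq_C_mul, hy]
    linear_combination hC
  have hBΦ := C2B_theta_identity B (PowerSeries.C c₀ + 2 * y) (expandPS p (qExpansion 1 E₄))
    (expandPS p (qExpansion 1 E₆)) (expandPS p (SJ 3)) (expandPS p (SJ 5))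
    (expandPS p C2B_T) hBu he4 he6 he5
  have hCce : PowerSeries.C c₀ * (1 + 3 * PowerSeries.C c₀) ^ 3 = 2 * PowerSeries.C e := by
    have : PowerSeries.C (c₀ * (1 + 3 * c₀) ^ 3) = PowerSeries.C (2 * e) := by rw [hce]
    rw [map_mul, map_pow, map_add, map_one, map_mul, map_ofNat, map_mul, map_ofNat] at this
    exact this
  have hs_exp : expandPS p (SJ 3 + SJ 3 ^ 2) = expandPS p (SJ 3) + expandPS p (SJ 3) ^ 2 := by
    rw [hexp, hexp, map_add, map_pow]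
  have h2C : PowerSeries.C ((2 : ℕ) : ℂ) = (2 : PowerSeries ℂ) := by
    rw [Nat.cast_ofNat, map_ofNat]
  have hS3 := CK_SJ_mem R 3
  have hT := C2B_T_mem R
  -- the contradiction
  refine CK_contra (ℓ := 2) (by omega) hN R I hI hζ h2I 8 (by norm_num) le_rfl _ _
    (SJ 3 + SJ 3 ^ 2)
    (63 * C2B_T - 2 * SJ 3 - 113 * SJ 3 ^ 2 + (2 * x) * (-36 * SJ 3 + 252 * C2B_T)
      - 135 * (2 * x) ^ 2 * SJ 3 + x * (1 + 3 * (2 * x)) ^ 3)
    (63 * expandPS p C2B_T - 2 * expandPS p (SJ 3) - 113 * expandPS p (SJ 3) ^ 2 +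
      (PowerSeries.C c₀ + 2 * y) * (-36 * expandPS p (SJ 3) + 252 * expandPS p C2B_T)
      - 135 * (PowerSeries.C c₀ + 2 * y) ^ 2 * expandPS p (SJ 3) + PowerSeries.C e +
      y * (1 + 18 * PowerSeries.C c₀ + 18 * y + 81 * PowerSeries.C c₀ ^ 2 +
        162 * PowerSeries.C c₀ * y + 108 * y ^ 2 + 108 * PowerSeries.C c₀ ^ 3 +
        324 * PowerSeries.C c₀ ^ 2 * y + 432 * PowerSeries.C c₀ * y ^ 2 + 216 * y ^ 3))
    hΦ ((CK_PSR R).add_mem hS3 (pow_mem hS3 2)) C2B_coeff_zero_s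
    ⟨1, 1, R.one_mem, by rw [C2B_coeff_one_s]; norm_num⟩ ?_ ?_ ?_ ?_
  · exact C2B_KA_mem _ _ _ _ hT hS3 hx
  · exact C2B_KB_mem _ _ _ _ _ _ (CK_expandPS_mem p hT) (CK_expandPS_mem p hS3) hyR
      (CK_C_mem hc₀R) (CK_C_mem heR)
  · rw [hAΦ, h2C]
    ring
  · rw [hBΦ, h2C, hs_exp]
    linear_combination hCce
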