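import Mathlib
import Fermat.Agent.S16.Iface
import Fermat.Agent.S16.LevelOneSturm

/-!
# P-EIS (S16), upper bound: the coefficient ring (FP-RING) and the norm argument (FP-NORMARG)

* `ifaceRing : IfaceRing p ℓ`: the ring `R = {x : ∃ s prime to ℓ, s x is an algebraic integer}`
  with a maximal ideal containing `ℓ`.
* `ifaceNormArg : IfaceNorm p → IfaceNormArg p`: if `(A, B)` is a form pair of weight
  `0 ≤ w ≤ 8` with coefficients in `R` and `B ≡ s(t^p) mod I` with `s(0) ∈ I`, then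
  `A ≡ 0` or `s ≡ 0` modulo `I`.
-/

set_option autoImplicit false

open UpperHalfPlane ModularForm ModularFormClass MatrixGroups CongruenceSubgroup

namespace Fermat.Agent.S16

noncomputable section

/-! ## FP-RING -/

/-- The subring of `ℂ` of the numbers `x` such that `s x` is an algebraic integer for some
natural number `s` prime to `ℓ`. -/
def NAR_ring (ℓ : ℕ) (hℓ : ℓ.Prime) : Subring ℂ where
  carrier := {x | ∃ s : ℕ, ¬ ℓ ∣ s ∧ IsIntegral ℤ ((s : ℂ) * x)}
  zero_mem' := ⟨1, hℓ.one_lt.ne' ∘ Nat.dvd_one.mp, by simpa using isIntegral_zero⟩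
  one_mem' := ⟨1, hℓ.one_lt.ne' ∘ Nat.dvd_one.mp, by simpa using isIntegral_one⟩
  add_mem' := by
    rintro x y ⟨s, hs, hx⟩ ⟨t, ht, hy⟩
    refine ⟨s * t, fun h => (hℓ.dvd_mul.mp h).elim hs ht, ?_⟩
    have h1 : IsIntegral ℤ ((t : ℂ) * ((s : ℂ) * x)) := (isIntegral_natCast t).mul hx
    have h2 : IsIntegral ℤ ((s : ℂ) * ((t : ℂ) * y)) := (isIntegral_natCast s).mul hy
    have := h1.add h2
    have heq : ((s * t : ℕ) : ℂ) * (x + y) =
        (t : ℂ) * ((s : ℂ) * x) + (s : ℂ) * ((t : ℂ) * y) := by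
      push_cast
      ring
    rw [heq]
    exact this
  mul_mem' := by
    rintro x y ⟨s, hs, hx⟩ ⟨t, ht, hy⟩
    refine ⟨s * t, fun h => (hℓ.dvd_mul.mp h).elim hs ht, ?_⟩
    have := hx.mul hy
    have heq : ((s * t : ℕ) : ℂ) * (x * y) = ((s : ℂ) * x) * ((t : ℂ) * y) := by
      push_cast
      ring
    rw [heq]
    exact this
  neg_mem' := by
    rintro x ⟨s, hs, hx⟩
    refine ⟨s, hs, ?_⟩
    have := hx.neg
    rw [mul_neg]
    exact this

theorem NAR_mem_ring {ℓ : ℕ} {hℓ : ℓ.Prime} {x : ℂ} :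
    x ∈ NAR_ring ℓ hℓ ↔ ∃ s : ℕ, ¬ ℓ ∣ s ∧ IsIntegral ℤ ((s : ℂ) * x) := Iff.rfl

theorem NAR_isIntegral_mem {ℓ : ℕ} (hℓ : ℓ.Prime) {x : ℂ} (hx : IsIntegral ℤ x) :
    x ∈ NAR_ring ℓ hℓ :=
  ⟨1, hℓ.one_lt.ne' ∘ Nat.dvd_one.mp, by simpa using hx⟩

theorem NAR_zetaP_pow (p : ℕ) (hp : p ≠ 0) : zetaP p ^ p = 1 := by
  have hp' : (p : ℂ) ≠ 0 := by exact_mod_cast hp
  rw [zetaP, ← Complex.exp_nat_mul, mul_div_cancel₀ _ hp']
  exact Complex.exp_two_pi_mul_I

theorem NAR_zetaP_mem (p ℓ : ℕ) (hp : p ≠ 0) (hℓ : ℓ.Prime) : zetaP p ∈ NAR_ring ℓ hℓ := by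
  apply NAR_isIntegral_mem
  exact IsIntegral.of_pow (Nat.pos_of_ne_zero hp) (by rw [NAR_zetaP_pow p hp]; exact isIntegral_one)

theorem NAR_inv_mem (ℓ : ℕ) (hℓ : ℓ.Prime) (s : ℕ) (hs : ¬ ℓ ∣ s) :
    ((s : ℂ)⁻¹) ∈ NAR_ring ℓ hℓ := by
  refine ⟨s, hs, ?_⟩
  have hs0 : (s : ℂ) ≠ 0 := by
    have : s ≠ 0 := fun h => hs (h ▸ dvd_zero ℓ)
    exact_mod_cast this
  rw [mul_inv_cancel₀ hs0]
  exact isIntegral_one

/-- `ℓ` is not invertible in the ring `NAR_ring ℓ`. -/
theorem NAR_not_unit (ℓ : ℕ) (hℓ : ℓ.Prime) (x : ℂ) (hx : x ∈ NAR_ring ℓ hℓ) :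
    (ℓ : ℂ) * x ≠ 1 := by
  intro h
  obtain ⟨s, hs, hint⟩ := hx
  have hℓ0 : (ℓ : ℂ) ≠ 0 := by exact_mod_cast hℓ.ne_zero
  have hxeq : x = (ℓ : ℂ)⁻¹ := eq_inv_of_mul_eq_one_right h
  have hq : (s : ℂ) * x = algebraMap ℚ ℂ ((s : ℚ) / (ℓ : ℚ)) := by
    rw [hxeq]
    simp [div_eq_mul_inv]
  rw [hq] at hint
  have hint' : IsIntegral ℤ ((s : ℚ) / (ℓ : ℚ)) :=
    (isIntegral_algebraMap_iff (algebraMap ℚ ℂ).injective).mp hint
  obtain ⟨m, hm⟩ := IsIntegrallyClosed.isIntegral_iff.mp hint'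
  have hℓq : (ℓ : ℚ) ≠ 0 := by exact_mod_cast hℓ.ne_zero
  have : (s : ℚ) = (ℓ : ℚ) * (m : ℚ) := by
    have hm' : (m : ℚ) = (s : ℚ) / (ℓ : ℚ) := by simpa using hm
    rw [hm']
    field_simp
  have h2 : (s : ℤ) = (ℓ : ℤ) * m := by exact_mod_cast this
  exact hs (Int.natCast_dvd_natCast.mp ⟨m, h2⟩)

/-- **FP-RING**. -/
theorem ifaceRing (p ℓ : ℕ) [Fact p.Prime] [Fact ℓ.Prime] : IfaceRing p ℓ := by
  have hℓ : ℓ.Prime := Fact.out
  have hp : p.Prime := Fact.out
  let R := NAR_ring ℓ hℓ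
  have hne : Ideal.span {((ℓ : ℕ) : R)} ≠ ⊤ := by
    intro htop
    rw [Ideal.span_singleton_eq_top] at htop
    obtain ⟨u, hu⟩ := htop.exists_right_inv
    have := congrArg (Subtype.val) hu
    simp only [Subring.coe_mul, Subring.coe_natCast, Subring.coe_one] at this
    exact NAR_not_unit ℓ hℓ u.1 u.2 this
  obtain ⟨M, hM, hle⟩ := Ideal.exists_le_maximal _ hne
  refine ⟨R, M, hM.isPrime, NAR_zetaP_mem p ℓ hp.ne_zero hℓ, NAR_inv_mem ℓ hℓ, ?_⟩
  exact hle (Ideal.subset_span (Set.mem_singleton _))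

/-! ## FP-NORMARG -/

/-- Lift a power series over `ℂ` with coefficients in `R` to a power series over `R`. -/
def NAR_lift (R : Subring ℂ) (A : PowerSeries ℂ) (hA : InR R A) : PowerSeries R :=
  PowerSeries.mk fun n => ⟨PowerSeries.coeff n A, hA n⟩

@[simp] theorem NAR_coeff_lift (R : Subring ℂ) (A : PowerSeries ℂ) (hA : InR R A) (n : ℕ) :
    ((PowerSeries.coeff n (NAR_lift R A hA) : R) : ℂ) = PowerSeries.coeff n A := by
  simp [NAR_lift]

theorem NAR_map_lift (R : Subring ℂ) (A : PowerSeries ℂ) (hA : InR R A) :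
    PowerSeries.map R.subtype (NAR_lift R A hA) = A := by
  ext n
  simp [NAR_lift]

/-- The image of the ideal `I` in `ℂ`, as an additive subgroup. -/
def NAR_IC (R : Subring ℂ) (I : Ideal R) : AddSubgroup ℂ where
  carrier := {x | ∃ r : R, r ∈ I ∧ x = (r : ℂ)}
  zero_mem' := ⟨0, I.zero_mem, by simp⟩
  add_mem' := by
    rintro x y ⟨r, hr, rfl⟩ ⟨t, ht, rfl⟩
    exact ⟨r + t, I.add_mem hr ht, by simp⟩
  neg_mem' := by
    rintro x ⟨r, hr, rfl⟩
    exact ⟨-r, I.neg_mem hr, by simp⟩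

theorem NAR_mem_IC {R : Subring ℂ} {I : Ideal R} {x : ℂ} :
    x ∈ NAR_IC R I ↔ ∃ r : R, r ∈ I ∧ x = (r : ℂ) := Iff.rfl

theorem NAR_coeff_rescale_expand {S : Type*} [CommRing S] (p : ℕ) (hp : p ≠ 0) (a : S)
    (ha : a ^ p = 1) (F : PowerSeries S) :
    PowerSeries.rescale a (PowerSeries.expand p hp F) = PowerSeries.expand p hp F := by
  ext n
  rw [PowerSeries.coeff_rescale, PowerSeries.coeff_expand]
  split_ifs with h
  · obtain ⟨m, rfl⟩ := h
    rw [pow_mul, ha, one_pow, one_mul]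
  · rw [mul_zero]

theorem NAR_map_rescale {S T : Type*} [CommRing S] [CommRing T] (φ : S →+* T) (a : S)
    (F : PowerSeries S) :
    PowerSeries.map φ (PowerSeries.rescale a F) =
      PowerSeries.rescale (φ a) (PowerSeries.map φ F) := by
  ext n
  simp [PowerSeries.coeff_rescale]

/-- **FP-NORMARG**. -/
theorem ifaceNormArg (p : ℕ) [Fact p.Prime] (hN : IfaceNorm p) : IfaceNormArg p := by
  intro hp3 R I hI hζ w A B s hw0 hw8 hFP hA hB hs hs0 hBs
  classical
  have hp0 : p ≠ 0 := by omega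
  obtain ⟨N, ⟨f, hf⟩, hNeq⟩ := hN w A B hFP
  -- lifts to `R`
  set A' := NAR_lift R A hA with hA'
  set B' := NAR_lift R B hB with hB'
  set s' := NAR_lift R s hs with hs'
  let ζ' : R := ⟨zetaP p, hζ⟩
  have hζp : ζ' ^ p = 1 := by
    apply Subtype.ext
    simp only [ζ', Subring.coe_pow, Subring.coe_one]
    exact NAR_zetaP_pow p hp0
  let RHS' : PowerSeries R :=
    PowerSeries.expand p hp0 A' * ∏ j ∈ Finset.range p, PowerSeries.rescale (ζ' ^ j) B'
  have hexpA : PowerSeries.map R.subtype (PowerSeries.expand p hp0 A') = expandPS p A := by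
    ext n
    simp only [PowerSeries.coeff_map, PowerSeries.coeff_expand, expandPS, PowerSeries.coeff_mk]
    split_ifs <;> simp [A']
  have hRHS : PowerSeries.map R.subtype RHS' = expandPS p N := by
    rw [hNeq]
    simp only [RHS', map_mul, map_prod, hexpA]
    congr 1
    refine Finset.prod_congr rfl (fun j _ => ?_)
    rw [NAR_map_rescale, NAR_map_lift]
    simp [ζ']
  have hNcoeff : ∀ n : ℕ, ((PowerSeries.coeff (p * n) RHS' : R) : ℂ) = PowerSeries.coeff n N := by
    intro n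
    have := congrArg (PowerSeries.coeff (p * n)) hRHS
    rw [PowerSeries.coeff_map] at this
    simp only [Subring.subtype_apply] at this
    rw [this, expandPS, PowerSeries.coeff_mk, if_pos (dvd_mul_right p n),
      Nat.mul_div_cancel_left n (Nat.pos_of_ne_zero hp0)]
  -- reduction modulo `I`
  let π : PowerSeries R →+* PowerSeries (R ⧸ I) := PowerSeries.map (Ideal.Quotient.mk I)
  have hπB : π B' = PowerSeries.expand p hp0 (π s') := by
    ext n
    obtain ⟨r, hr, hrn⟩ := hBs n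
    simp only [π, PowerSeries.coeff_map, PowerSeries.coeff_expand]
    have h1 : PowerSeries.coeff n B' -
        (if p ∣ n then PowerSeries.coeff (n / p) s' else 0) = r := by
      apply Subtype.ext
      rw [← hrn]
      simp only [expandPS, PowerSeries.coeff_mk]
      push_cast
      split_ifs <;> simp [B', s']
    have h2 : Ideal.Quotient.mk I (PowerSeries.coeff n B' -
        (if p ∣ n then PowerSeries.coeff (n / p) s' else 0)) = 0 := by
      rw [h1]; exact Ideal.Quotient.eq_zero_iff_mem.mpr hr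
    rw [map_sub, sub_eq_zero] at h2
    rw [h2]
    split_ifs <;> simp
  have hπRHS : π RHS' = PowerSeries.expand p hp0 (π A' * (π s') ^ p) := by
    simp only [RHS', map_mul, map_prod, map_pow]
    have h1 : π (PowerSeries.expand p hp0 A') = PowerSeries.expand p hp0 (π A') :=
      PowerSeries.map_expand p hp0 _ _
    have h2 : ∀ j ∈ Finset.range p, π (PowerSeries.rescale (ζ' ^ j) B') =
        PowerSeries.expand p hp0 (π s') := by
      intro j _
      show PowerSeries.map (Ideal.Quotient.mk I) (PowerSeries.rescale (ζ' ^ j) B') = _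
      rw [NAR_map_rescale]
      show PowerSeries.rescale _ (π B') = _
      rw [hπB]
      apply NAR_coeff_rescale_expand
      rw [← map_pow, ← pow_mul, mul_comm, pow_mul, hζp, one_pow, map_one]
    rw [h1, Finset.prod_congr rfl h2, Finset.prod_const, Finset.card_range]
  have hπN : ∀ n : ℕ, Ideal.Quotient.mk I (PowerSeries.coeff (p * n) RHS') =
      PowerSeries.coeff n (π A' * (π s') ^ p) := by
    intro n
    have := congrArg (PowerSeries.coeff (p * n)) hπRHS
    rw [PowerSeries.coeff_expand_mul] at this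
    rw [← this]
    simp [π]
  -- the constant term of `s` lies in `I`
  have hs0' : PowerSeries.constantCoeff (π s') = 0 := by
    obtain ⟨r, hr, hr0⟩ := hs0
    rw [← PowerSeries.coeff_zero_eq_constantCoeff_apply]
    simp only [π, PowerSeries.coeff_map]
    have : PowerSeries.coeff 0 s' = r := by
      apply Subtype.ext
      rw [← hr0]
      exact NAR_coeff_lift R s hs 0
    rw [this]
    exact Ideal.Quotient.eq_zero_iff_mem.mpr hr
  have hlowcoeff : ∀ n : ℕ, n < p → PowerSeries.coeff n (π A' * (π s') ^ p) = 0 := by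
    intro n hn
    obtain ⟨t, ht⟩ := PowerSeries.X_dvd_iff.mpr hs0'
    rw [ht, mul_pow, ← mul_assoc, mul_comm (π A'), mul_assoc, PowerSeries.coeff_X_pow_mul',
      if_neg (by omega)]
  -- Sturm bound
  have hlow : ∀ n : ℕ, 12 * (n : ℤ) ≤ w * ((p : ℤ) + 1) →
      PowerSeries.coeff n (qExpansion 1 f) ∈ NAR_IC R I := by
    intro n hn
    have hnp : n < p := by
      have h1 : w * ((p : ℤ) + 1) ≤ 8 * ((p : ℤ) + 1) :=
        mul_le_mul_of_nonneg_right hw8 (by positivity)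
      have h2 : (3 : ℤ) ≤ p := by exact_mod_cast hp3
      have : (n : ℤ) < p := by linarith
      exact_mod_cast this
    rw [hf]
    refine ⟨PowerSeries.coeff (p * n) RHS', ?_, (hNcoeff n).symm⟩
    rw [← Ideal.Quotient.eq_zero_iff_mem, hπN n]
    exact hlowcoeff n hnp
  have hall := levelOne_coeff_mem_of_low (NAR_IC R I) _ f hlow
  have hzero : π A' * (π s') ^ p = 0 := by
    ext n
    rw [← hπN n, map_zero, Ideal.Quotient.eq_zero_iff_mem]
    obtain ⟨r, hr, hrn⟩ := hall n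
    rw [hf, ← hNcoeff n] at hrn
    have : PowerSeries.coeff (p * n) RHS' = r := Subtype.ext hrn
    rw [this]
    exact hr
  have : IsDomain (R ⧸ I) := Ideal.Quotient.isDomain I
  have hfin : ∀ (C : PowerSeries ℂ) (hC : InR R C), π (NAR_lift R C hC) = 0 → ModI R I C 0 := by
    intro C hC h0 n
    refine ⟨PowerSeries.coeff n (NAR_lift R C hC), ?_, by simp⟩
    have := congrArg (PowerSeries.coeff n) h0
    simp only [π, PowerSeries.coeff_map, map_zero] at this
    exact Ideal.Quotient.eq_zero_iff_mem.mp this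
  rcases mul_eq_zero.mp hzero with h | h
  · exact Or.inl (hfin A hA h)
  · exact Or.inr (hfin s hs (pow_eq_zero_iff hp0 |>.mp h))

end

end Fermat.Agent.S16
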