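/-
P-EIS (S16), upper bound, case file C3A (helper64): `ℓ = 3`, `p ≡ 1 mod 3`.
No `3`-integral `H ∈ M₂(Γ₀(p))` with `a₀ = 1` is congruent to `1` modulo `3`:
the quadratic trace identity (I2) for `H` and for `U_p H` gives
`80 (p + 1) p ^ 3 ∈ 3 R`, which is impossible.
-/
import Mathlib
import Fermat.Agent.S16.Iface
import Fermat.Agent.S16.UB.NormArg

set_option autoImplicit false

open UpperHalfPlane ModularForm ModularFormClass MatrixGroups CongruenceSubgroup

namespace Fermat.Agent.S16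

noncomputable section

/-- Coefficients of a product of power series with coefficients in `R` lie in `R`. -/
theorem C3A_inR_mul (R : Subring ℂ) {A B : PowerSeries ℂ} (hA : InR R A) (hB : InR R B) :
    InR R (A * B) := by
  intro n
  rw [PowerSeries.coeff_mul]
  exact Subring.sum_mem R fun ij _ ↦ R.mul_mem (hA _) (hB _)

theorem C3A_inR_pow (R : Subring ℂ) {A : PowerSeries ℂ} (hA : InR R A) (n : ℕ) :
    InR R (A ^ n) := by
  induction n with
  | zero =>
    intro k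
    rw [pow_zero, PowerSeries.coeff_one]
    split_ifs
    · exact R.one_mem
    · exact R.zero_mem
  | succ n ih => rw [pow_succ]; exact C3A_inR_mul R ih hA

theorem C3A_inR_UpPS (R : Subring ℂ) (p : ℕ) {A : PowerSeries ℂ} (hA : InR R A) :
    InR R (UpPS p A) := by
  intro n
  rw [UpPS, PowerSeries.coeff_mk]
  exact hA _

theorem C3A_coeff_UpPS (p : ℕ) (A : PowerSeries ℂ) (n : ℕ) :
    PowerSeries.coeff n (UpPS p A) = PowerSeries.coeff (p * n) A := by
  rw [UpPS, PowerSeries.coeff_mk]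

/-- `U_p (1 + c x) = 1 + c U_p x`. -/
theorem C3A_UpPS_one_add (p : ℕ) (hp : p ≠ 0) (c : ℂ) (x : PowerSeries ℂ) :
    UpPS p (1 + c • x) = 1 + c • UpPS p x := by
  ext n
  simp only [C3A_coeff_UpPS, map_add, PowerSeries.coeff_one, PowerSeries.coeff_smul,
    mul_eq_zero, hp, false_or]

/-- The coefficient of `(1 + c x)^2`. -/
theorem C3A_coeff_sq (c : ℂ) (x : PowerSeries ℂ) (n : ℕ) (hn : n ≠ 0) :
    PowerSeries.coeff n ((1 + c • x) ^ 2) =
      2 * c * PowerSeries.coeff n x + c ^ 2 * PowerSeries.coeff n (x ^ 2) := by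
  have h : (1 + c • x) ^ 2 = 1 + (2 * c) • x + (c ^ 2) • x ^ 2 := by
    simp only [PowerSeries.smul_eq_C_mul, map_mul, map_pow, map_ofNat]
    ring
  rw [h]
  simp only [map_add, PowerSeries.coeff_one, PowerSeries.coeff_smul, if_neg hn, zero_add,
    smul_eq_mul]

/-- **C3A**: the case `ℓ = 3`, `p ≡ 1 mod 3`. -/
theorem noH_c3a (p : ℕ) [Fact p.Prime] (hp : p % 3 = 1) (hE : IfaceExp p) (h0 : IfaceT0 p)
    (hI : IfaceI2 p) (hL : IfaceLV1) : NoH p 3 := by
  have hpp : p.Prime := Fact.out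
  have hp0 : p ≠ 0 := hpp.ne_zero
  have hpC : (p : ℂ) ≠ 0 := by exact_mod_cast hp0
  have h3 : Nat.Prime 3 := Nat.prime_three
  set R := NAR_ring 3 h3 with hR
  rintro ⟨H, hH0, hHk⟩
  set A := qExpansion 1 H with hA
  -- the series `x = (A - 1) / 3`
  let x : PowerSeries ℂ := PowerSeries.mk fun k ↦ if k = 0 then 0 else PowerSeries.coeff k A / 3
  have hxR : InR R x := by
    intro k
    simp only [x, PowerSeries.coeff_mk]
    split_ifs with hk
    · exact R.zero_mem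
    · obtain ⟨m, s, hs, hms⟩ := hHk k (Nat.one_le_iff_ne_zero.2 hk)
      rw [hms]
      have hb : expB p 3 = (expB p 3 - 1) + 1 := by
        unfold expB; omega
      have e1 : ((3 : ℕ) : ℂ) ^ expB p 3 * (m : ℂ) / (s : ℂ) / 3 =
          ((3 : ℂ) ^ (expB p 3 - 1) * (m : ℂ)) * (s : ℂ)⁻¹ := by
        rw [hb, pow_succ]
        simp only [Nat.add_sub_cancel, Nat.cast_ofNat]
        field_simp
      rw [e1]
      refine R.mul_mem (R.mul_mem (R.pow_mem ?_ _) ?_) (NAR_inv_mem 3 h3 s hs)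
      · exact NAR_isIntegral_mem h3 (by exact_mod_cast (isIntegral_natCast 3 : IsIntegral ℤ ((3 : ℕ) : ℂ)))
      · exact NAR_isIntegral_mem h3 (isIntegral_intCast m)
  have hAx : A = 1 + (3 : ℂ) • x := by
    ext k
    simp only [x, map_add, PowerSeries.coeff_one, PowerSeries.coeff_smul, PowerSeries.coeff_mk,
      smul_eq_mul]
    split_ifs with hk
    · rw [hk, hH0]; ring
    · field_simp
      ring
  -- the second form `H'` with expansion `U_p A`
  obtain ⟨B, hB⟩ := hE 2 H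
  have hpair : FormPair p 2 A B := ⟨H, rfl, hB⟩
  obtain ⟨-, hpair'⟩ := h0 A B hpair
  obtain ⟨hBA, -⟩ := h0 _ _ hpair'
  have hUU : UpPS p (UpPS p A) = A := by
    have h1 : (-(p : ℂ)⁻¹) • A = (-(p : ℂ)⁻¹) • UpPS p (UpPS p A) := hBA
    have hne : (-(p : ℂ)⁻¹) ≠ 0 := neg_ne_zero.2 (inv_ne_zero hpC)
    exact (smul_right_injective _ hne h1).symm
  obtain ⟨H', hH', -⟩ := hpair'
  set x' := UpPS p x with hx'
  have hx'R : InR R x' := C3A_inR_UpPS R p hxR
  have hA'x : UpPS p A = 1 + (3 : ℂ) • x' := by rw [hAx, C3A_UpPS_one_add p hp0]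
  -- the two quadratic identities
  have hE4 := hL.1
  have I1 := hI H
  have I2 := hI H'
  rw [hH', hUU] at I2
  have hc0 : PowerSeries.coeff 0 (UpPS p A) = 1 := by
    rw [C3A_coeff_UpPS, mul_zero, hH0]
  rw [hc0] at I2
  rw [← hA, hH0] at I1
  -- coefficients
  have hp1 : 1 ≠ 0 := one_ne_zero
  have hpp0 : p * p ≠ 0 := mul_ne_zero hp0 hp0
  have c1 := congrArg (PowerSeries.coeff p) I1
  have c2 := congrArg (PowerSeries.coeff 1) I2
  simp only [map_add, PowerSeries.coeff_smul, C3A_coeff_UpPS, smul_eq_mul, hE4,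
    PowerSeries.coeff_one, if_neg hp0, if_neg hp1, mul_one, one_pow, zero_add] at c1 c2
  rw [hA'x, C3A_coeff_sq _ _ _ hpp0] at c1
  rw [hA'x, C3A_coeff_sq _ _ _ hp1] at c2
  rw [hAx, C3A_coeff_sq _ _ _ hp0] at c1 c2
  -- `x'_{p²} = x_p` and `x'_1 = x_p`
  have hxpp : PowerSeries.coeff (p * p) x' = PowerSeries.coeff p x := by
    have h1 := congrArg (PowerSeries.coeff p) hUU
    rw [C3A_coeff_UpPS, hA'x, hAx] at h1
    simp only [map_add, PowerSeries.coeff_one, PowerSeries.coeff_smul, smul_eq_mul, if_neg hp0,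
      if_neg hpp0, zero_add] at h1
    have h3' : (3 : ℂ) ≠ 0 := by norm_num
    exact mul_left_cancel₀ h3' h1
  have hx1 : PowerSeries.coeff 1 x' = PowerSeries.coeff p x := by
    rw [hx', C3A_coeff_UpPS, mul_one]
  rw [hxpp] at c1
  rw [hx1] at c2
  -- the elements of `R`
  set Y1 := PowerSeries.coeff p (x ^ 2) with hY1
  set Y2 := PowerSeries.coeff (p * p) (x' ^ 2) with hY2
  set Y3 := PowerSeries.coeff 1 (x' ^ 2) with hY3
  have hY1R : Y1 ∈ R := C3A_inR_pow R hxR 2 _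
  have hY2R : Y2 ∈ R := C3A_inR_pow R hx'R 2 _
  have hY3R : Y3 ∈ R := C3A_inR_pow R hx'R 2 _
  have hs1 : PowerSeries.coeff p (SJ 3) = ((1 + p ^ 3 : ℕ) : ℂ) := by
    simp only [SJ, PowerSeries.coeff_mk, sigmaJ]
    rw [Nat.Prime.sum_divisors hpp]
    push_cast
    ring
  have hs2 : PowerSeries.coeff 1 (SJ 3) = 1 := by
    simp [SJ, sigmaJ]
  rw [hs1] at c1
  rw [hs2] at c2
  -- the contradiction
  have hpR : (p : ℂ) ∈ R :=
    NAR_isIntegral_mem h3 (isIntegral_natCast p)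
  set r := (p : ℂ) * (Y1 - Y3) + (Y2 - Y1) with hr
  have hrR : r ∈ R := R.add_mem (R.mul_mem hpR (R.sub_mem hY1R hY3R)) (R.sub_mem hY2R hY1R)
  have key : ((80 * (p + 1) * p ^ 3 : ℕ) : ℂ) = 3 * r := by
    push_cast at c1 c2 ⊢
    rw [hr]
    linear_combination (-1 / 3 : ℂ) * c1 + (1 / 3 : ℂ) * c2
  have hmod : (80 * (p + 1) * p ^ 3) % 3 = 1 := by
    simp [Nat.mul_mod, Nat.add_mod, Nat.pow_mod, hp]
  have hdiv := Nat.div_add_mod (80 * (p + 1) * p ^ 3) 3
  rw [hmod] at hdiv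
  set M := (80 * (p + 1) * p ^ 3) / 3 with hM
  have hMR : ((M : ℕ) : ℂ) ∈ R :=
    NAR_isIntegral_mem h3 (isIntegral_natCast M)
  have hfin : ((3 : ℕ) : ℂ) * (r - M) = 1 := by
    have h1 : ((3 * M + 1 : ℕ) : ℂ) = 3 * r := by rw [hdiv]; exact key
    push_cast at h1 ⊢
    linear_combination -h1
  exact NAR_not_unit 3 h3 (r - M) (R.sub_mem hrR hMR) hfin

end

end Fermat.Agent.S16
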