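import Fermat.Agent.S16.PSCalc

/-!
# P-EIS (S16), case file C3B (helper16): `NoH p 3` for `p ≡ 2 mod 3`

Here `b = expB p 3 = 2`, so the `q`-expansion of `H` is `A = 1 + 9 x` with `x ∈ R⟦q⟧`, `x_0 = 0`.
The form `Φ = (p² H² - E₄) / 3` of weight `4` has the expansions

* at `∞`: `A_Φ = (p² - 1)/3 + 6 p² x + 27 p² x² - 80 S₃`,
* at `0`: `B_Φ = 6 x' + 27 x'² - 80 S₃(t^p)`, `x' = U_p x`,

so `B_Φ ≡ (-80 S₃)(t^p)` modulo `3`, and the norm argument gives `A_Φ ≡ 0` or `-80 S₃ ≡ 0`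
modulo `I`; both are false at `q¹` (`3 ∤ 80`).
-/

set_option autoImplicit false

open UpperHalfPlane ModularForm ModularFormClass MatrixGroups CongruenceSubgroup

namespace Fermat.Agent.S16

noncomputable section

/-- `2 ≤ expB p 3` when `3 ∤ p - 1`. -/
theorem c3b_two_le_expB (p : ℕ) (h : ¬ 3 ∣ p - 1) : 2 ≤ expB p 3 := by
  unfold expB
  have hg : Nat.gcd (p - 1) 12 ∣ 12 := Nat.gcd_dvd_right _ _
  have hg3 : ¬ 3 ∣ Nat.gcd (p - 1) 12 := fun h3 => h (h3.trans (Nat.gcd_dvd_left _ _))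
  have hg24 : Nat.gcd (p - 1) 12 ∣ 24 := hg.trans (by norm_num)
  have h24 : Nat.gcd (p - 1) 12 * (24 / Nat.gcd (p - 1) 12) = 24 := Nat.mul_div_cancel' hg24
  have hdiv : 3 ∣ 24 / Nat.gcd (p - 1) 12 := by
    have : 3 ∣ Nat.gcd (p - 1) 12 * (24 / Nat.gcd (p - 1) 12) := by rw [h24]; norm_num
    rcases (Nat.Prime.dvd_mul Nat.prime_three).1 this with h1 | h1
    · exact absurd h1 hg3
    · exact h1
  have hne : 24 / Nat.gcd (p - 1) 12 ≠ 0 := by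
    intro h0
    rw [h0, mul_zero] at h24
    exact absurd h24 (by norm_num)
  have : Fact (Nat.Prime 3) := ⟨Nat.prime_three⟩
  have := one_le_padicValNat_of_dvd hne hdiv
  omega

/-- the coefficients `a_k`, `k ≥ 1`, of an `H` as in `NoH p 3` lie in `9 R` (if `3 ∤ p - 1`). -/
theorem c3b_coeff_div_mem {p : ℕ} (h : ¬ 3 ∣ p - 1) {R : Subring ℂ}
    (hinv : ∀ s : ℕ, ¬ 3 ∣ s → ((s : ℂ)⁻¹) ∈ R) {a : ℂ}
    (ha : ∃ (m : ℤ) (s : ℕ), ¬ 3 ∣ s ∧ a = ((3 : ℕ) : ℂ) ^ expB p 3 * (m : ℂ) / (s : ℂ)) :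
    a / 9 ∈ R := by
  obtain ⟨m, s, hs, rfl⟩ := ha
  obtain ⟨c, hc⟩ := Nat.exists_eq_add_of_le (c3b_two_le_expB p h)
  have e : ((3 : ℕ) : ℂ) ^ expB p 3 * (m : ℂ) / (s : ℂ) / 9 =
      ((3 : ℕ) : ℂ) ^ c * (m : ℂ) * (s : ℂ)⁻¹ := by
    rw [hc, pow_add]
    push_cast
    field_simp
    ring
  rw [e]
  exact R.mul_mem (R.mul_mem (R.pow_mem (natCast_mem R 3) c) (intCast_mem R m)) (hinv s hs)

/-- **C3B**: `NoH p 3` for `p ≡ 2 mod 3`. -/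
theorem noH_c3b (p : ℕ) [Fact p.Prime] (hp : 5 ≤ p) (hp3 : p % 3 = 2)
    (hE : IfaceExp p) (h0 : IfaceT0 p) (hA : IfaceAlg p) (hR : IfaceRing p 3)
    (hN : IfaceNormArg p) (hL : IfaceLV1) : NoH p 3 := by
  rintro ⟨H, hH0, hHk⟩
  obtain ⟨R, I, hI, hζ, hinv, hℓI⟩ := hR
  obtain ⟨hE4, -, -, -⟩ := hL
  obtain ⟨B, hB⟩ := hE 2 H
  have hpair : FormPair p 2 (qExpansion 1 H) B := ⟨H, rfl, hB⟩
  obtain ⟨hBeq, -⟩ := h0 _ B hpair
  obtain ⟨hmul, hadd, hsmul, hlev⟩ := hA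
  have hp0' : p ≠ 0 := by omega
  have hppos : 0 < p := by omega
  have hp0 : (p : ℂ) ≠ 0 := by exact_mod_cast hp0'
  have hp1 : ¬ 3 ∣ p - 1 := by omega
  -- notation
  generalize hAdef : qExpansion 1 (H : ℍ → ℂ) = A at hH0 hHk hpair hBeq
  -- the series `x = (A - 1) / 9`
  set x : PowerSeries ℂ :=
    PowerSeries.mk fun k => if k = 0 then 0 else PowerSeries.coeff k A / 9 with hx
  have hxR : InR R x := by
    intro k
    simp only [hx, PowerSeries.coeff_mk]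
    split_ifs with hk
    · exact R.zero_mem
    · exact c3b_coeff_div_mem hp1 hinv (hHk k (Nat.one_le_iff_ne_zero.2 hk))
  have hAx : A = 1 + (9 : ℂ) • x := by
    ext k
    simp only [hx, map_add, PowerSeries.coeff_one, PowerSeries.coeff_smul, PowerSeries.coeff_mk,
      smul_eq_mul]
    split_ifs with hk
    · rw [hk, hH0]; ring
    · field_simp
      ring
  set x' : PowerSeries ℂ := UpPS p x with hx'
  have hx'R : InR R x' := hxR.UpPS p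
  have hA'x : UpPS p A = 1 + (9 : ℂ) • x' := by
    rw [hAx, UpPS_add, UpPS_one p hppos, UpPS_smul]
  -- `p² = 3 M + 1`
  obtain ⟨M, hM⟩ : ∃ M : ℕ, p ^ 2 = 3 * M + 1 := by
    refine ⟨p ^ 2 / 3, ?_⟩
    have h1 : p ^ 2 % 3 = 1 := by
      rw [Nat.pow_mod, hp3]
    omega
  have hMC : (p : ℂ) ^ 2 = 3 * (M : ℂ) + 1 := by exact_mod_cast hM
  -- the form pair of `Φ = (p² H² - E₄) / 3`
  have h1 : FormPair p 4 (A * A) (B * B) := hmul 2 2 A B A B hpair hpair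
  have h2 : FormPair p 4 (((p : ℂ) ^ 2) • (A * A)) (((p : ℂ) ^ 2) • (B * B)) :=
    hsmul 4 _ _ _ h1
  have h3 : FormPair p 4 (qExpansion 1 E₄) (expandPS p (qExpansion 1 E₄)) :=
    hlev 4 _ ⟨E₄, rfl⟩
  have h4 : FormPair p 4 ((-1 : ℂ) • qExpansion 1 E₄)
      ((-1 : ℂ) • expandPS p (qExpansion 1 E₄)) := hsmul 4 _ _ _ h3
  have h5 := hadd 4 _ _ _ _ h2 h4
  have h6 := hsmul 4 ((3 : ℂ)⁻¹) _ _ h5
  -- the expansion at `∞`
  have eA : (3 : ℂ)⁻¹ • (((p : ℂ) ^ 2) • (A * A) + (-1 : ℂ) • qExpansion 1 E₄) =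
      PowerSeries.C (M : ℂ) + (3 : ℂ) • ((2 * (p : ℂ) ^ 2) • x + (9 * (p : ℂ) ^ 2) • (x * x)) +
        (-80 : ℂ) • SJ 3 := by
    rw [inv_smul_eq_iff₀ (by norm_num : (3 : ℂ) ≠ 0), hE4, hAx, hMC]
    simp only [PowerSeries.smul_eq_C_mul, map_add, map_mul, map_neg, map_one, map_ofNat]
    ring
  -- the expansion at `0`
  have hBB : ((p : ℂ) ^ 2) • (B * B) = UpPS p A * UpPS p A := by
    rw [hBeq, smul_mul_smul_comm, smul_smul]
    have : (p : ℂ) ^ 2 * (-(p : ℂ)⁻¹ * -(p : ℂ)⁻¹) = 1 := by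
      field_simp
    rw [this, one_smul]
  have eB : (3 : ℂ)⁻¹ • (((p : ℂ) ^ 2) • (B * B) + (-1 : ℂ) • expandPS p (qExpansion 1 E₄)) =
      (3 : ℂ) • ((2 : ℂ) • x' + (9 : ℂ) • (x' * x')) + expandPS p ((-80 : ℂ) • SJ 3) := by
    rw [inv_smul_eq_iff₀ (by norm_num : (3 : ℂ) ≠ 0), hBB, hA'x, hE4, expandPS_add,
      expandPS_one p hp0', expandPS_smul, expandPS_smul]
    simp only [PowerSeries.smul_eq_C_mul, map_neg, map_one, map_ofNat]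
    ring
  rw [eA, eB] at h6
  -- membership facts
  have h3I : MemI R I (3 : ℂ) :=
    ⟨((3 : ℕ) : R), hℓI, by rw [Subring.coe_natCast, Nat.cast_ofNat]⟩
  have hpR : (p : ℂ) ^ 2 ∈ R := R.pow_mem (natCast_mem R p) 2
  have h2R : (2 : ℂ) ∈ R := by exact_mod_cast natCast_mem R 2
  have h9R : (9 : ℂ) ∈ R := by exact_mod_cast natCast_mem R 9
  have h80R : (-80 : ℂ) ∈ R := by exact_mod_cast intCast_mem R (-80)
  have hYA : InR R ((2 * (p : ℂ) ^ 2) • x + (9 * (p : ℂ) ^ 2) • (x * x)) :=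
    (InR.smul (R.mul_mem h2R hpR) hxR).add (InR.smul (R.mul_mem h9R hpR) (hxR.mul hxR))
  have hYB : InR R ((2 : ℂ) • x' + (9 : ℂ) • (x' * x')) :=
    (InR.smul h2R hx'R).add (InR.smul h9R (hx'R.mul hx'R))
  have hsR : InR R ((-80 : ℂ) • SJ 3) := InR.smul h80R (inR_SJ R 3)
  have hAΦR : InR R (PowerSeries.C (M : ℂ) +
      (3 : ℂ) • ((2 * (p : ℂ) ^ 2) • x + (9 * (p : ℂ) ^ 2) • (x * x)) + (-80 : ℂ) • SJ 3) :=
    ((InR.C (natCast_mem R M)).add (InR.smul h3I.mem hYA)).add hsR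
  have hBΦR : InR R ((3 : ℂ) • ((2 : ℂ) • x' + (9 : ℂ) • (x' * x')) +
      expandPS p ((-80 : ℂ) • SJ 3)) :=
    (InR.smul h3I.mem hYB).add (hsR.expandPS p)
  have hs1 : PowerSeries.coeff 1 ((-80 : ℂ) • SJ 3) = ((-80 : ℤ) : ℂ) := by
    simp [SJ, sigmaJ]
  have hs0 : ∃ r : R, r ∈ I ∧ PowerSeries.coeff 0 ((-80 : ℂ) • SJ 3) = (r : ℂ) := by
    refine ⟨0, I.zero_mem, ?_⟩
    simp [SJ, sigmaJ]
  have hmod : ModI R I ((3 : ℂ) • ((2 : ℂ) • x' + (9 : ℂ) • (x' * x')) +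
      expandPS p ((-80 : ℂ) • SJ 3)) (expandPS p ((-80 : ℂ) • SJ 3)) := by
    have := (ModI.smul_of_memI h3I hYB).add (ModI.refl (R := R) (I := I)
      (expandPS p ((-80 : ℂ) • SJ 3)))
    rwa [zero_add] at this
  have h80 : ¬ MemI R I (((-80 : ℤ)) : ℂ) := by
    rw [memI_intCast_iff hI Nat.prime_three hℓI]
    norm_num
  rcases hN (by omega) R I hI hζ 4 _ _ _ (by norm_num) (by norm_num) h6 hAΦR hBΦR hsR hs0 hmod
    with hcase | hcase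
  · -- `A_Φ ≡ 0`
    rw [modI_zero_iff] at hcase
    have hc1 := hcase 1
    have hY1 : MemI R I (PowerSeries.coeff 1
        ((3 : ℂ) • ((2 * (p : ℂ) ^ 2) • x + (9 * (p : ℂ) ^ 2) • (x * x)))) := by
      rw [PowerSeries.coeff_smul]
      exact MemI.mul_right h3I (hYA 1)
    have hC1 : PowerSeries.coeff 1 (PowerSeries.C (M : ℂ)) = 0 := by
      rw [PowerSeries.coeff_C, if_neg one_ne_zero]
    rw [map_add, map_add, hC1, zero_add, hs1] at hc1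
    have := hc1.sub hY1
    rw [add_sub_cancel_left] at this
    exact h80 this
  · -- `-80 S₃ ≡ 0`
    rw [modI_zero_iff] at hcase
    have hc1 := hcase 1
    rw [hs1] at hc1
    exact h80 hc1

end

end Fermat.Agent.S16
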