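import Fermat.Agent.S16.PSCalc

/-!
# P-EIS (S16), case file C5: `NoH p 5`

There is no `5`-integral `H ∈ M₂(Γ₀(p))` with `a₀ = 1` and `H ≡ 1 mod 5` (`5 ≤ p`, including
`p = 5`).  Norm argument for `Φ = p³ H³ + E₆` (weight `6`): its expansion at the cusp `0` is
`-A'(t)³ + E₆(t^p) ≡ (-504 S₅)(t^p)` modulo `5`, where `A' = U_p A`.
-/

set_option autoImplicit false

open UpperHalfPlane ModularForm ModularFormClass MatrixGroups CongruenceSubgroup PowerSeries

namespace Fermat.Agent.S16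

noncomputable section

/-- `504` is a unit modulo a prime ideal containing `5`. -/
theorem c5_not_memI_504 {R : Subring ℂ} {I : Ideal R} (hI : I.IsPrime)
    (h5 : ((5 : ℕ) : R) ∈ I) : ¬ MemI R I (-504 : ℂ) := by
  intro h
  have h' : MemI R I (((-504 : ℤ) : ℂ)) := by
    convert h using 1
    push_cast
    ring
  have := (memI_intCast_iff hI (by norm_num : (5 : ℕ).Prime) h5 (-504)).mp h'
  norm_num at this

/-- integers lie in every subring of `ℂ` -/
theorem c5_natCast_mem (R : Subring ℂ) (n : ℕ) : (n : ℂ) ∈ R := natCast_mem R n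

theorem c5_intCast_mem (R : Subring ℂ) (n : ℤ) : (n : ℂ) ∈ R := intCast_mem R n

/-- **Case file C5**: `NoH p 5` for every prime `p ≥ 5`. -/
theorem noH_c5 (p : ℕ) [Fact p.Prime] (hp : 5 ≤ p) (hE : IfaceExp p) (h0 : IfaceT0 p)
    (hA : IfaceAlg p) (hR : IfaceRing p 5) (hN : IfaceNormArg p) (hL : IfaceLV1) : NoH p 5 := by
  rintro ⟨H, hH0, hHk⟩
  obtain ⟨R, I, hI, hζ, hinv, h5I⟩ := hR
  obtain ⟨hmul, hadd, hsmul, hlev⟩ := hA
  have hp0 : p ≠ 0 := by omega
  have hppos : 0 < p := by omega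
  have hpC : (p : ℂ) ≠ 0 := by exact_mod_cast hp0
  have h5mem : MemI R I (5 : ℂ) :=
    ⟨((5 : ℕ) : R), h5I, by rw [Subring.coe_natCast]; norm_num⟩
  set A : PowerSeries ℂ := qExpansion 1 H with hAdef
  -- the coefficients of `A`
  have hAk : ∀ k : ℕ, 1 ≤ k → MemI R I (coeff k A) := by
    intro k hk
    obtain ⟨m, s, hs, hms⟩ := hHk k hk
    rw [hms]
    have hsinv : ((s : ℂ)⁻¹) ∈ R := hinv s hs
    have e : ((5 : ℕ) : ℂ) ^ expB p 5 * (m : ℂ) / (s : ℂ) =
        (5 : ℂ) * ((5 : ℂ) ^ padicValNat 5 (24 / Nat.gcd (p - 1) 12) * (m : ℂ) * (s : ℂ)⁻¹) := by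
      rw [expB, pow_add, pow_one]
      push_cast
      ring
    rw [e]
    refine MemI.mul_right h5mem ?_
    exact R.mul_mem (R.mul_mem (R.pow_mem (by exact_mod_cast c5_natCast_mem R 5) _)
      (c5_intCast_mem R m)) hsinv
  have hAone : ModI R I A 1 := by
    rw [modI_iff]
    intro n
    rcases Nat.eq_zero_or_pos n with rfl | hn
    · rw [hH0, PowerSeries.coeff_one, if_pos rfl, sub_self]
      exact MemI.zero
    · rw [PowerSeries.coeff_one, if_neg (by omega), sub_zero]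
      exact hAk n hn
  have hAR : InR R A := by
    intro n
    rcases Nat.eq_zero_or_pos n with rfl | hn
    · rw [hH0]; exact R.one_mem
    · exact (hAk n hn).mem
  -- `A' = U_p A`
  set A' : PowerSeries ℂ := UpPS p A with hA'def
  have hA'R : InR R A' := hAR.UpPS p
  have hA'one : ModI R I A' 1 := by
    have := hAone.UpPS p
    rwa [UpPS_one p hppos] at this
  -- the form pair of `H`
  obtain ⟨B, hB⟩ := hE 2 H
  have hAB : FormPair p 2 A B := ⟨H, rfl, hB⟩
  obtain ⟨hBeq, -⟩ := h0 A B hAB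
  -- the level-one form `E₆`
  obtain ⟨-, hE6, -, -⟩ := hL
  have hE6pair : FormPair p 6 (qExpansion 1 E₆) (expandPS p (qExpansion 1 E₆)) :=
    hlev 6 _ ⟨E₆, rfl⟩
  -- the cube of `H`
  have hA2 : FormPair p (2 + 2) (A * A) (B * B) := hmul 2 2 A B A B hAB hAB
  have hA3 : FormPair p (2 + 2 + 2) (A * A * A) (B * B * B) :=
    hmul (2 + 2) 2 (A * A) (B * B) A B hA2 hAB
  have h6 : ((2 : ℤ) + 2 + 2) = 6 := by norm_num
  rw [h6] at hA3
  have hΦ : FormPair p 6 (((p : ℂ) ^ 3) • (A * A * A) + qExpansion 1 E₆)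
      (((p : ℂ) ^ 3) • (B * B * B) + expandPS p (qExpansion 1 E₆)) :=
    hadd 6 _ _ _ _ (hsmul 6 ((p : ℂ) ^ 3) _ _ hA3) hE6pair
  -- the expansion at the cusp `0`
  have hB3 : ((p : ℂ) ^ 3) • (B * B * B) = -(A' * A' * A') := by
    rw [hBeq]
    ext n
    simp only [PowerSeries.coeff_smul, smul_mul_assoc, mul_smul_comm, smul_eq_mul, map_neg]
    field_simp
    rfl
  rw [hB3, hE6] at hΦ
  -- the series `s`
  set s : PowerSeries ℂ := (-504 : ℂ) • SJ 5 with hsdef
  have hsR : InR R s := InR.smul (by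
    have := c5_intCast_mem R (-504)
    push_cast at this
    exact this) (inR_SJ R 5)
  have h504R : (504 : ℂ) ∈ R := by
    have := c5_natCast_mem R 504
    push_cast at this
    exact this
  have hE6R : InR R (1 - (504 : ℂ) • SJ 5) := InR.one.sub (InR.smul h504R (inR_SJ R 5))
  have hp3R : ((p : ℂ) ^ 3) ∈ R := R.pow_mem (c5_natCast_mem R p) 3
  have hAΦR : InR R (((p : ℂ) ^ 3) • (A * A * A) + (1 - (504 : ℂ) • SJ 5)) :=
    (InR.smul hp3R ((hAR.mul hAR).mul hAR)).add hE6R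
  have hBΦR : InR R (-(A' * A' * A') + expandPS p (1 - (504 : ℂ) • SJ 5)) :=
    (((hA'R.mul hA'R).mul hA'R).neg).add (hE6R.expandPS p)
  have hs0 : ∃ r : R, r ∈ I ∧ coeff 0 s = (r : ℂ) := by
    refine ⟨0, I.zero_mem, ?_⟩
    simp [hsdef, SJ, sigmaJ]
  have hA'3 : ModI R I (A' * A' * A') 1 := by
    have h1 := ModI.mul hA'R InR.one hA'one hA'one
    have h2 := ModI.mul (hA'R.mul hA'R) InR.one h1 hA'one
    simpa using h2
  have hBΦ : ModI R I (-(A' * A' * A') + expandPS p (1 - (504 : ℂ) • SJ 5)) (expandPS p s) := by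
    have e1 : expandPS p (1 - (504 : ℂ) • SJ 5) = 1 + expandPS p s := by
      rw [expandPS_sub, expandPS_one p hp0, hsdef, expandPS_smul, expandPS_smul]
      ext n
      simp only [map_sub, map_add, PowerSeries.coeff_smul, smul_eq_mul]
      ring
    rw [e1]
    have h1 : ModI R I (-(A' * A' * A') + 1) 0 := by
      have := (hA'3.neg).add (ModI.refl (R := R) (I := I) 1)
      simpa using this
    have h2 := h1.add (ModI.refl (R := R) (I := I) (expandPS p s))
    have e2 : -(A' * A' * A') + (1 + expandPS p s) = -(A' * A' * A') + 1 + expandPS p s := by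
      ring
    rw [e2]
    simpa using h2
  -- the norm argument
  have hcoeff1 : coeff 1 s = (-504 : ℂ) := by
    simp [hsdef, SJ, sigmaJ]
  rcases hN (by omega) R I hI hζ 6 _ _ s (by norm_num) (by norm_num) hΦ hAΦR hBΦR hsR hs0 hBΦ
    with h | h
  · -- `A_Φ ≡ 0`
    have hA3' : ModI R I (A * A * A) 1 := by
      have h1 := ModI.mul hAR InR.one hAone hAone
      have h2 := ModI.mul (hAR.mul hAR) InR.one h1 hAone
      simpa using h2
    have h1 : ModI R I (((p : ℂ) ^ 3) • (A * A * A) + (1 - (504 : ℂ) • SJ 5))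
        (((p : ℂ) ^ 3) • (1 : PowerSeries ℂ) + (1 - (504 : ℂ) • SJ 5)) :=
      (ModI.smul hp3R hA3').add (ModI.refl _)
    have h2 : ModI R I (((p : ℂ) ^ 3) • (1 : PowerSeries ℂ) + (1 - (504 : ℂ) • SJ 5)) 0 :=
      h1.symm.trans h
    rw [modI_zero_iff] at h2
    have h3 := h2 1
    have e : coeff 1 (((p : ℂ) ^ 3) • (1 : PowerSeries ℂ) + (1 - (504 : ℂ) • SJ 5)) =
        (-504 : ℂ) := by
      simp [SJ, sigmaJ, PowerSeries.coeff_one]
    rw [e] at h3
    exact c5_not_memI_504 hI h5I h3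
  · -- `s ≡ 0`
    rw [modI_zero_iff] at h
    have h3 := h 1
    rw [hcoeff1] at h3
    exact c5_not_memI_504 hI h5I h3

end

end Fermat.Agent.S16
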