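import Fermat.Agent.S16.Iface

/-!
# P-EIS (S16), module FP-CUSP2: weight-two forms on `Γ₀(p)` with `a₀ = 0` are cusp forms

By `IfaceT0` the expansion of `F ∣ S` at the cusp `0` is `B = -p⁻¹ U_p A`, so `b₀ = -p⁻¹ a₀ = 0`,
and `IfaceCusp` applies.

Main statement: `ifaceCusp2`.
-/

set_option autoImplicit false

open UpperHalfPlane ModularForm ModularFormClass MatrixGroups CongruenceSubgroup

namespace Fermat.Agent.S16

/-- **FP-CUSP2**. -/
theorem ifaceCusp2 (p : ℕ) [Fact p.Prime] (hE : IfaceExp p) (h0 : IfaceT0 p)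
    (hC : IfaceCusp p) : IfaceCusp2 p := by
  intro F hA0
  obtain ⟨B, hB⟩ := hE 2 F
  have hB' : B = (-(p : ℂ)⁻¹) • UpPS p (qExpansion 1 F) := (h0 _ B ⟨F, rfl, hB⟩).1
  have hB0 : PowerSeries.coeff 0 B = 0 := by
    rw [hB', PowerSeries.coeff_smul, UpPS, PowerSeries.coeff_mk, mul_zero, hA0, smul_zero]
  exact hC 2 F B hB hA0 hB0

end Fermat.Agent.S16
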