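import Fermat.Agent.S16.Iface
import Fermat.Prelude.Thm_CongruenceSubgroup_one_mem_strictPeriods_Gamma0

/-!
# P-EIS (S16), modules AN-EXP and AN-ALG: the `FormPair` calculus

For `F ∈ M_w(Γ₀(p))` the function `F ∣[w] S` is a modular form for the conjugate group
`S⁻¹ Γ₀(p) S`, which contains `[[1, p], [0, 1]]`; hence it has an expansion in
`t = exp (2πiτ/p)`, unique, and compatible with products, sums and scalar multiples.

Main statements: `ifaceExp`, `ifaceAlg`.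
-/

set_option autoImplicit false

open UpperHalfPlane ModularForm ModularFormClass MatrixGroups CongruenceSubgroup
open Matrix Matrix.SpecialLinearGroup
open scoped Pointwise

namespace Fermat.Agent.S16

noncomputable section

/-- the conjugate group `S⁻¹ Γ₀(p) S`. -/
abbrev h46e_GammaS (p : ℕ) : Subgroup (GL (Fin 2) ℝ) :=
  ConjAct.toConjAct (mapGL ℝ ModularGroup.S)⁻¹ •
    (Subgroup.map (mapGL ℝ) (Gamma0 p) : Subgroup (GL (Fin 2) ℝ))

/-- `S T^p S⁻¹ ∈ Γ₀(p)`. -/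
theorem h46e_STpS_mem (p : ℕ) :
    ModularGroup.S * ModularGroup.T ^ (p : ℤ) * ModularGroup.S⁻¹ ∈ Gamma0 p := by
  rw [Gamma0_mem]
  have h : ((ModularGroup.S * ModularGroup.T ^ (p : ℤ) * ModularGroup.S⁻¹ : SL(2, ℤ)) :
      Matrix (Fin 2) (Fin 2) ℤ) 1 0 = -(p : ℤ) := by
    rw [Matrix.SpecialLinearGroup.coe_mul, Matrix.SpecialLinearGroup.coe_mul,
      ModularGroup.coe_T_zpow, Matrix.SpecialLinearGroup.coe_inv, ModularGroup.coe_S,
      Matrix.adjugate_fin_two_of]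
    simp [Matrix.mul_apply, Fin.sum_univ_two]
  rw [h]
  simp

/-- `mapGL ℝ (T^p) = [[1, p], [0, 1]]`. -/
theorem h46e_mapGL_T_zpow (p : ℕ) :
    mapGL ℝ (ModularGroup.T ^ (p : ℤ)) = GeneralLinearGroup.upperRightHom (p : ℝ) := by
  apply Units.ext
  rw [mapGL_coe_matrix, Matrix.SpecialLinearGroup.map_apply_coe, ModularGroup.coe_T_zpow]
  ext i j
  fin_cases i <;> fin_cases j <;>
    simp [GeneralLinearGroup.upperRightHom]

/-- `p` is a strict period of `S⁻¹ Γ₀(p) S`. -/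
theorem h46e_mem_strictPeriods (p : ℕ) : (p : ℝ) ∈ (h46e_GammaS p).strictPeriods := by
  rw [Subgroup.mem_strictPeriods_iff, Subgroup.mem_pointwise_smul_iff_inv_smul_mem,
    ← ConjAct.toConjAct_inv, inv_inv, ConjAct.toConjAct_smul]
  refine ⟨ModularGroup.S * ModularGroup.T ^ (p : ℤ) * ModularGroup.S⁻¹, h46e_STpS_mem p, ?_⟩
  rw [map_mul, map_mul, map_inv, h46e_mapGL_T_zpow]

/-- `∞` is a cusp of `S⁻¹ Γ₀(p) S` (`p ≠ 0`). -/
theorem h46e_isCusp (p : ℕ) [NeZero p] : IsCusp OnePoint.infty (h46e_GammaS p) :=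
  (h46e_GammaS p).isCusp_of_mem_strictPeriods
    (Nat.cast_pos.mpr (NeZero.pos p)) (h46e_mem_strictPeriods p)

/-- `F ∣[w] S` as a modular form for `S⁻¹ Γ₀(p) S`. -/
def h46e_slashS (p : ℕ) {w : ℤ} (F : ModularForm (Gamma0 p) w) :
    ModularForm (h46e_GammaS p) w :=
  ModularForm.translate F (mapGL ℝ ModularGroup.S)

theorem h46e_coe_slashS (p : ℕ) {w : ℤ} (F : ModularForm (Gamma0 p) w) :
    (h46e_slashS p F : ℍ → ℂ) = (F : ℍ → ℂ) ∣[w] ModularGroup.S := rfl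

/-- the cusp function of `F ∣ S` in `t` is analytic at `0`. -/
theorem h46e_analyticAt (p : ℕ) [NeZero p] {w : ℤ} (F : ModularForm (Gamma0 p) w) :
    AnalyticAt ℂ (cuspFunction (p : ℝ) ((F : ℍ → ℂ) ∣[w] ModularGroup.S)) 0 :=
  haveI : Fact (IsCusp OnePoint.infty (h46e_GammaS p)) := ⟨h46e_isCusp p⟩
  ModularFormClass.analyticAt_cuspFunction_zero (h46e_slashS p F)
    (Nat.cast_pos.mpr (NeZero.pos p)) (h46e_mem_strictPeriods p)

/-- the canonical expansion of `F ∣ S` at the cusp `0`. -/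
def h46e_expS (p : ℕ) {w : ℤ} (F : ModularForm (Gamma0 p) w) : PowerSeries ℂ :=
  qExpansion (p : ℝ) ((F : ℍ → ℂ) ∣[w] ModularGroup.S)

/-- **existence** of the expansion at the cusp `0`. -/
theorem h46e_cuspExp_expS (p : ℕ) [NeZero p] {w : ℤ} (F : ModularForm (Gamma0 p) w) :
    CuspExp p w F (h46e_expS p F) := by
  intro τ
  have : Fact (IsCusp OnePoint.infty (h46e_GammaS p)) := ⟨h46e_isCusp p⟩
  exact ModularForm.hasSum_qExpansion (f := h46e_slashS p F)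
    (Nat.cast_pos.mpr (NeZero.pos p)) (h46e_mem_strictPeriods p) τ

/-- **uniqueness** of the expansion at the cusp `0`. -/
theorem h46e_cuspExp_unique (p : ℕ) [NeZero p] {w : ℤ} (F : ModularForm (Gamma0 p) w)
    {B : PowerSeries ℂ} (hB : CuspExp p w F B) : B = h46e_expS p F := by
  ext m
  exact ModularFormClass.qExpansion_coeff_unique (f := h46e_slashS p F)
    (c := fun n => PowerSeries.coeff n B)
    (Nat.cast_pos.mpr (NeZero.pos p)) (h46e_mem_strictPeriods p)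
    (fun τ => by
      have h := hB τ
      rw [← h46e_coe_slashS] at h
      simpa [smul_eq_mul] using h) m

theorem h46e_cuspExp_iff (p : ℕ) [NeZero p] {w : ℤ} (F : ModularForm (Gamma0 p) w)
    (B : PowerSeries ℂ) : CuspExp p w F B ↔ B = h46e_expS p F :=
  ⟨h46e_cuspExp_unique p F, fun h => h ▸ h46e_cuspExp_expS p F⟩

/-- **AN-EXP**. -/
theorem ifaceExp (p : ℕ) [Fact p.Prime] : IfaceExp p := by
  have : NeZero p := ⟨(Fact.out : p.Prime).ne_zero⟩
  exact fun w F => ⟨h46e_expS p F, h46e_cuspExp_expS p F⟩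

/-! ## AN-ALG -/

theorem h46e_expS_mul (p : ℕ) [NeZero p] {w₁ w₂ : ℤ} (F₁ : ModularForm (Gamma0 p) w₁)
    (F₂ : ModularForm (Gamma0 p) w₂) :
    h46e_expS p (F₁.mul F₂) = h46e_expS p F₁ * h46e_expS p F₂ := by
  unfold h46e_expS
  rw [ModularForm.coe_mul, mul_slash_SL2]
  exact qExpansion_mul (h46e_analyticAt p F₁) (h46e_analyticAt p F₂)

theorem h46e_expS_add (p : ℕ) [NeZero p] {w : ℤ} (F₁ F₂ : ModularForm (Gamma0 p) w) :
    h46e_expS p (F₁ + F₂) = h46e_expS p F₁ + h46e_expS p F₂ := by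
  unfold h46e_expS
  rw [FunLike.coe_add, SlashAction.add_slash]
  exact qExpansion_add (h46e_analyticAt p F₁) (h46e_analyticAt p F₂)

theorem h46e_expS_smul (p : ℕ) [NeZero p] {w : ℤ} (c : ℂ) (F : ModularForm (Gamma0 p) w) :
    h46e_expS p (c • F) = c • h46e_expS p F := by
  unfold h46e_expS
  rw [FunLike.coe_smul, SL_smul_slash]
  exact qExpansion_smul (h46e_analyticAt p F) c

theorem h46e_formPair_mul (p : ℕ) [NeZero p] (w₁ w₂ : ℤ) (A₁ B₁ A₂ B₂ : PowerSeries ℂ)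
    (h₁ : FormPair p w₁ A₁ B₁) (h₂ : FormPair p w₂ A₂ B₂) :
    FormPair p (w₁ + w₂) (A₁ * A₂) (B₁ * B₂) := by
  obtain ⟨F₁, rfl, hB₁⟩ := h₁
  obtain ⟨F₂, rfl, hB₂⟩ := h₂
  refine ⟨F₁.mul F₂, ModularForm.qExpansion_mul one_pos
    (CongruenceSubgroup.one_mem_strictPeriods_Gamma0 p) F₁ F₂, ?_⟩
  rw [h46e_cuspExp_iff] at hB₁ hB₂ ⊢
  rw [hB₁, hB₂, h46e_expS_mul]

theorem h46e_formPair_add (p : ℕ) [NeZero p] (w : ℤ) (A₁ B₁ A₂ B₂ : PowerSeries ℂ)
    (h₁ : FormPair p w A₁ B₁) (h₂ : FormPair p w A₂ B₂) :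
    FormPair p w (A₁ + A₂) (B₁ + B₂) := by
  obtain ⟨F₁, rfl, hB₁⟩ := h₁
  obtain ⟨F₂, rfl, hB₂⟩ := h₂
  refine ⟨F₁ + F₂, ModularForm.qExpansion_add one_pos
    (CongruenceSubgroup.one_mem_strictPeriods_Gamma0 p) F₁ F₂, ?_⟩
  rw [h46e_cuspExp_iff] at hB₁ hB₂ ⊢
  rw [hB₁, hB₂, h46e_expS_add]

theorem h46e_formPair_smul (p : ℕ) [NeZero p] (w : ℤ) (c : ℂ) (A B : PowerSeries ℂ)
    (h : FormPair p w A B) : FormPair p w (c • A) (c • B) := by
  obtain ⟨F, rfl, hB⟩ := h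
  refine ⟨c • F, ModularForm.qExpansion_smul one_pos
    (CongruenceSubgroup.one_mem_strictPeriods_Gamma0 p) c F, ?_⟩
  rw [h46e_cuspExp_iff] at hB ⊢
  rw [hB, h46e_expS_smul]

/-! ### level-one forms -/

/-- a level-one form, regarded as a form on `Γ₀(p)`. -/
def h46e_ofLevelOne (p : ℕ) {w : ℤ} (f : ModularForm 𝒮ℒ w) : ModularForm (Gamma0 p) w where
  toFun := f
  slash_action_eq' γ hγ := by
    obtain ⟨g, -, rfl⟩ := hγ
    exact SlashInvariantFormClass.slash_action_eq f _ ⟨g, rfl⟩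
  holo' := ModularFormClass.holo f
  bdd_at_cusps' hc := ModularFormClass.bdd_at_cusps f
    (hc.mono (fun x hx => by obtain ⟨g, -, rfl⟩ := hx; exact ⟨g, rfl⟩))

theorem h46e_coe_ofLevelOne (p : ℕ) {w : ℤ} (f : ModularForm 𝒮ℒ w) :
    (h46e_ofLevelOne p f : ℍ → ℂ) = f := rfl

theorem h46e_levelOne_slash {w : ℤ} (f : ModularForm 𝒮ℒ w) (γ : SL(2, ℤ)) :
    (f : ℍ → ℂ) ∣[w] γ = f :=
  SlashInvariantFormClass.slash_action_eq f _ ⟨γ, rfl⟩

/-- `t^p = q`. -/
theorem h46e_qParam_pow (p : ℕ) [NeZero p] (z : ℂ) :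
    Function.Periodic.qParam (p : ℝ) z ^ p = Function.Periodic.qParam 1 z := by
  have hp : (p : ℂ) ≠ 0 := Nat.cast_ne_zero.mpr (NeZero.ne p)
  rw [Function.Periodic.qParam, Function.Periodic.qParam, ← Complex.exp_nat_mul]
  congr 1
  push_cast
  field_simp

theorem h46e_coeff_expandPS_mul (p : ℕ) [NeZero p] (N : PowerSeries ℂ) (m : ℕ) :
    PowerSeries.coeff (p * m) (expandPS p N) = PowerSeries.coeff m N := by
  rw [expandPS, PowerSeries.coeff_mk, if_pos (dvd_mul_right p m),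
    Nat.mul_div_cancel_left m (NeZero.pos p)]

theorem h46e_coeff_expandPS_of_not_dvd (p : ℕ) (N : PowerSeries ℂ) {n : ℕ} (h : ¬ p ∣ n) :
    PowerSeries.coeff n (expandPS p N) = 0 := by
  rw [expandPS, PowerSeries.coeff_mk, if_neg h]

/-- transport of a `q`-series identity to a `t`-series identity. -/
theorem h46e_hasSum_expandPS (p : ℕ) [NeZero p] (N : PowerSeries ℂ) (z : ℂ) (a : ℂ)
    (h : HasSum (fun m : ℕ => PowerSeries.coeff m N * Function.Periodic.qParam 1 z ^ m) a) :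
    HasSum (fun n : ℕ => PowerSeries.coeff n (expandPS p N) *
      Function.Periodic.qParam (p : ℝ) z ^ n) a := by
  have hinj : Function.Injective (fun m : ℕ => p * m) :=
    fun a b hab => Nat.eq_of_mul_eq_mul_left (NeZero.pos p) hab
  refine (Function.Injective.hasSum_iff hinj ?_).mp ?_
  · intro n hn
    have : ¬ p ∣ n := fun ⟨m, hm⟩ => hn ⟨m, hm.symm⟩
    rw [h46e_coeff_expandPS_of_not_dvd p N this, zero_mul]
  · convert h using 2 with m
    simp only [Function.comp_apply]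
    rw [h46e_coeff_expandPS_mul, pow_mul, h46e_qParam_pow]

theorem h46e_formPair_levelOne (p : ℕ) [NeZero p] (w : ℤ) (N : PowerSeries ℂ)
    (h : IsLevelOneQ w N) : FormPair p w N (expandPS p N) := by
  obtain ⟨f, rfl⟩ := h
  refine ⟨h46e_ofLevelOne p f, rfl, fun τ => ?_⟩
  rw [h46e_coe_ofLevelOne, h46e_levelOne_slash]
  apply h46e_hasSum_expandPS
  exact ModularForm.hasSum_qExpansion (f := f) one_pos (by simp) τ

/-- **AN-ALG**. -/
theorem ifaceAlg (p : ℕ) [Fact p.Prime] : IfaceAlg p := by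
  have : NeZero p := ⟨(Fact.out : p.Prime).ne_zero⟩
  exact ⟨h46e_formPair_mul p, h46e_formPair_add p, h46e_formPair_smul p,
    h46e_formPair_levelOne p⟩

end

end Fermat.Agent.S16
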