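import Fermat.Agent.S16.UB.FormPair
import Fermat.Agent.S16.Theta.TH5Gen

/-!
# P-EIS (S16), module AN-CUSP: the cusp-form criterion at prime level

A form `F ∈ M_w(Γ₀(p))` whose expansions at the two cusps `∞` and `0` have vanishing constant
term is a cusp form: every `g ∈ SL(2, ℤ)` is `γ₀` or `γ₀ S T^j` with `γ₀ ∈ Γ₀(p)`.

Main statement: `ifaceCusp`.
-/

set_option autoImplicit false

open UpperHalfPlane ModularForm ModularFormClass MatrixGroups CongruenceSubgroup
open Matrix Matrix.SpecialLinearGroup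
open scoped Pointwise

namespace Fermat.Agent.S16

noncomputable section

/-- a modular form whose `q`-expansion (in `exp (2πiτ/h)`) has zero constant term vanishes at
`i∞`. -/
theorem h46e_isZeroAtImInfty_of_coeff_zero {Γ : Subgroup (GL (Fin 2) ℝ)} {k : ℤ}
    (G : ModularForm Γ k) {h : ℝ} (hh : 0 < h) (hΓ : h ∈ Γ.strictPeriods)
    (h0 : PowerSeries.coeff 0 (qExpansion h G) = 0) : IsZeroAtImInfty (G : ℍ → ℂ) := by
  have han : AnalyticAt ℂ (cuspFunction h (G : ℍ → ℂ)) 0 :=
    ModularFormClass.analyticAt_cuspFunction_zero G hh hΓ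
  have hper := SlashInvariantFormClass.periodic_comp_ofComplex G hΓ
  have hval : cuspFunction h (G : ℍ → ℂ) 0 = 0 := by
    rw [qExpansion_coeff] at h0
    simpa using h0
  have hcomp : (cuspFunction h (G : ℍ → ℂ) ∘ fun τ : ℍ => Function.Periodic.qParam h τ) = G := by
    funext τ
    simpa using eq_cuspFunction τ hh.ne' hper
  have := han.continuousAt.tendsto.comp (qParam_tendsto_atImInfty hh)
  rw [hcomp, hval] at this
  exact this

/-- vanishing at `i∞` is stable under `∣ T^j`. -/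
theorem h46e_isZeroAtImInfty_slash_T (w : ℤ) (f : ℍ → ℂ) (hf : IsZeroAtImInfty f) (j : ℤ) :
    IsZeroAtImInfty (f ∣[w] (ModularGroup.T ^ j : SL(2, ℤ))) := by
  rw [SL_slash]
  apply IsZeroAtImInfty.slash
  · show ((ModularGroup.T ^ j : SL(2, ℤ)) 1 0 : ℝ) = 0
    rw [ModularGroup.coe_T_zpow]
    simp
  · exact hf

/-- **AN-CUSP**, for a general expansion at the cusp `0`. -/
theorem h46e_isZeroAt_all (p : ℕ) [Fact p.Prime] (w : ℤ) (F : ModularForm (Gamma0 p) w)
    (B : PowerSeries ℂ) (hB : CuspExp p w F B)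
    (hA0 : PowerSeries.coeff 0 (qExpansion 1 F) = 0) (hB0 : PowerSeries.coeff 0 B = 0)
    (g : SL(2, ℤ)) : IsZeroAtImInfty ((F : ℍ → ℂ) ∣[w] g) := by
  have hp : NeZero p := ⟨(Fact.out : p.Prime).ne_zero⟩
  -- the two basic cases
  have h1 : IsZeroAtImInfty (F : ℍ → ℂ) :=
    h46e_isZeroAtImInfty_of_coeff_zero F one_pos
      (CongruenceSubgroup.one_mem_strictPeriods_Gamma0 p) hA0
  have hS : IsZeroAtImInfty ((F : ℍ → ℂ) ∣[w] ModularGroup.S) := by
    rw [← h46e_coe_slashS]
    refine h46e_isZeroAtImInfty_of_coeff_zero (h46e_slashS p F)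
      (Nat.cast_pos.mpr (NeZero.pos p)) (h46e_mem_strictPeriods p) ?_
    have := h46e_cuspExp_unique p F hB
    rw [h46e_coe_slashS, ← h46e_expS, ← this]
    exact hB0
  -- decomposition of `g`
  obtain ⟨⟨t, ht⟩, hmem, -⟩ :=
    (Subgroup.isComplement_iff_existsUnique_mul_inv_mem.mp (Theta.TH5_isComplement p)) g
  have hg : g = (g * t⁻¹) * t := by group
  have hinv : (F : ℍ → ℂ) ∣[w] (g * t⁻¹) = F :=
    SlashInvariantFormClass.slash_action_eq F _ ⟨g * t⁻¹, hmem, rfl⟩
  rw [hg, SlashAction.slash_mul, hinv]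
  rcases ht with ht | ⟨j, -, rfl⟩
  · rw [Set.mem_singleton_iff] at ht
    subst ht
    rw [SlashAction.slash_one]
    exact h1
  · rw [SlashAction.slash_mul]
    exact h46e_isZeroAtImInfty_slash_T w _ hS j

/-- the cusp form attached to a form vanishing at both cusps. -/
def h46e_toCuspForm (p : ℕ) [Fact p.Prime] (w : ℤ) (F : ModularForm (Gamma0 p) w)
    (B : PowerSeries ℂ) (hB : CuspExp p w F B)
    (hA0 : PowerSeries.coeff 0 (qExpansion 1 F) = 0) (hB0 : PowerSeries.coeff 0 B = 0) :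
    CuspForm (Gamma0 p) w where
  toSlashInvariantForm := F.toSlashInvariantForm
  holo' := F.holo'
  zero_at_cusps' {c} hc := by
    have hp : NeZero p := ⟨(Fact.out : p.Prime).ne_zero⟩
    rw [Subgroup.IsArithmetic.isCusp_iff_isCusp_SL2Z] at hc
    rw [OnePoint.isZeroAt_iff_forall_SL2Z hc]
    intro γ _
    exact h46e_isZeroAt_all p w F B hB hA0 hB0 γ

/-- **AN-CUSP**. -/
theorem ifaceCusp (p : ℕ) [Fact p.Prime] : IfaceCusp p :=
  fun w F B hB hA0 hB0 => ⟨h46e_toCuspForm p w F B hB hA0 hB0, fun _ => rfl⟩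

end

end Fermat.Agent.S16
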