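import Fermat.Agent.S16.Iface
import Fermat.Agent.S16.WeightTwo
import Fermat.Prelude.Thm_CongruenceSubgroup_one_mem_strictPeriods_Gamma0
import Fermat.Prelude.Thm_ModularFormClass_qCoeff_heckeU

/-!
# P-EIS (S16), work package AN-FRICKE + FP-T0 (`eis_tasks` rows 11 / 31)

For a prime `p` and a form pair `(A, B)` of weight two on `Γ₀(p)` (`A` the `q`-expansion of `F`
at `∞`, `B` the expansion of `F ∣ S` in `t = exp (2πiτ/p)`):

* `ifaceT0 p : IfaceT0 p` : `B = -p⁻¹ U_p A`, and `(U_p A, -p⁻¹ A)` is again a form pair;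
* `ifaceFricke p : IfaceFricke p` : `(B, p⁻² A)` is a form pair.

Both are hypothesis-free.  The analytic input is `Fermat.Agent.S16.slash_S_mul_T_zpow_apply`
and `heckeULin_heckeULin_weight_two` (module `S16/WeightTwo.lean`), together with the Prelude
formula for the `q`-expansion of `U_p`.

Reusable by-products:

* `ubFree_hasSum_zero` : a power series in `𝕢 h τ` that sums to `0` for all `τ` is `0`;
* `ubFree_cuspExp_unique` : uniqueness of the expansion `B` in `CuspExp p w F B` (any weight);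
* `ubFree_cuspExp` : `CuspExp p 2 G (-p⁻¹ • UpPS p (qExpansion 1 G))` for every `G`;
* `ubFree_qExpansion_heckeULin` : `qExpansion 1 (U_p G) = UpPS p (qExpansion 1 G)`;
* `ubFree_formPair_smul` : `FormPair` is stable under scalar multiplication (any weight).
-/

set_option autoImplicit false

open UpperHalfPlane ModularForm ModularFormClass MatrixGroups CongruenceSubgroup

namespace Fermat.Agent.S16

/-- `1` is a strict period of `Γ₀(p)`. -/
theorem ubFree_one_mem (p : ℕ) :
    (1 : ℝ) ∈ (Subgroup.map (Matrix.SpecialLinearGroup.mapGL ℝ) (Gamma0 p)).strictPeriods :=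
  CongruenceSubgroup.one_mem_strictPeriods_Gamma0 p

theorem ubFree_cuspFunction_zero (h : ℝ) : cuspFunction h (0 : ℍ → ℂ) = 0 := by
  simpa [cuspFunction, Function.Periodic.cuspFunction]
    using! (tendsto_const_nhds.mono_left nhdsWithin_le_nhds).limUnder_eq

/-- A power series in `𝕢 h τ` summing to `0` at every point of the upper half plane vanishes. -/
theorem ubFree_hasSum_zero {h : ℝ} (hh : 0 < h) {c : ℕ → ℂ}
    (hsum : ∀ τ : ℍ, HasSum (fun m : ℕ => c m • Function.Periodic.qParam h (τ : ℂ) ^ m) (0 : ℂ))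
    (n : ℕ) : c n = 0 := by
  have han : AnalyticAt ℂ (cuspFunction h (0 : ℍ → ℂ)) 0 := by
    rw [ubFree_cuspFunction_zero]
    exact analyticAt_const
  have h1 := (UpperHalfPlane.hasFPowerSeriesOnBall_cuspFunction (f := (0 : ℍ → ℂ)) hh han
    hsum).hasFPowerSeriesAt
  rw [ubFree_cuspFunction_zero] at h1
  have h2 := h1.eq_zero
  have h3 : (FormalMultilinearSeries.ofScalars ℂ c).coeff n = 0 := by
    rw [h2]
    rfl
  rwa [FormalMultilinearSeries.coeff_ofScalars] at h3

/-- Two power series in `𝕢 h τ` with the same sum at every point of the upper half plane are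
equal. -/
theorem ubFree_hasSum_unique {h : ℝ} (hh : 0 < h) {B B' : PowerSeries ℂ} {g : ℍ → ℂ}
    (hB : ∀ τ : ℍ, HasSum (fun n : ℕ => PowerSeries.coeff n B *
      Function.Periodic.qParam h (τ : ℂ) ^ n) (g τ))
    (hB' : ∀ τ : ℍ, HasSum (fun n : ℕ => PowerSeries.coeff n B' *
      Function.Periodic.qParam h (τ : ℂ) ^ n) (g τ)) : B = B' := by
  ext n
  have hsum : ∀ τ : ℍ, HasSum (fun m : ℕ =>
      (PowerSeries.coeff m B - PowerSeries.coeff m B') • Function.Periodic.qParam h (τ : ℂ) ^ m)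
      (0 : ℂ) := by
    intro τ
    have := (hB τ).sub (hB' τ)
    simpa [sub_mul] using this
  exact sub_eq_zero.mp (ubFree_hasSum_zero hh hsum n)

/-- Uniqueness of the expansion at the cusp `0`. -/
theorem ubFree_cuspExp_unique (p : ℕ) [hp : Fact p.Prime] {w : ℤ}
    {F : ModularForm (Gamma0 p) w} {B B' : PowerSeries ℂ}
    (h : CuspExp p w F B) (h' : CuspExp p w F B') : B = B' :=
  ubFree_hasSum_unique (by exact_mod_cast hp.out.pos) h h'

/-- The `q`-expansion of `U_p G`. -/
theorem ubFree_qExpansion_heckeULin (p : ℕ) [hp : Fact p.Prime]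
    (G : ModularForm (Gamma0 p) 2) :
    qExpansion 1 (ModularForm.heckeULin 2 (dvd_refl p) G) = UpPS p (qExpansion 1 G) := by
  ext n
  have h := ModularFormClass.qCoeff_heckeU G (ubFree_one_mem p) hp.out.ne_zero n
  rw [ModularForm.coe_heckeULin_apply]
  simp only [UpPS, PowerSeries.coeff_mk]
  rw [mul_comm p n]
  exact h

/-- **Expansion at the cusp `0`** of a weight-two form on `Γ₀(p)`: `G ∣ S = -p⁻¹ (U_p G)(τ/p)`. -/
theorem ubFree_cuspExp (p : ℕ) [hp : Fact p.Prime] (G : ModularForm (Gamma0 p) 2) :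
    CuspExp p 2 G ((-(p : ℂ)⁻¹) • UpPS p (qExpansion 1 G)) := by
  intro τ
  have hp0 : p ≠ 0 := hp.out.ne_zero
  have h1 := slash_S_mul_T_zpow_apply p G 0 τ
  simp only [Nat.cast_zero, zpow_zero, mul_one] at h1
  rw [h1]
  have h2 := ModularForm.hasSum_qExpansion (f := ModularForm.heckeULin 2 (dvd_refl p) G)
    (h := 1) one_pos (ubFree_one_mem p) (heckeMatrix p 0 • τ)
  rw [ubFree_qExpansion_heckeULin, ModularForm.coe_heckeULin_apply] at h2
  have hq : Function.Periodic.qParam (1 : ℝ) ((heckeMatrix p 0 • τ : ℍ) : ℂ) =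
      Function.Periodic.qParam (p : ℝ) (τ : ℂ) := by
    rw [coe_heckeMatrix_smul hp0]
    simp only [Function.Periodic.qParam, Nat.cast_zero, add_zero, Complex.ofReal_one, div_one,
      Complex.ofReal_natCast]
    congr 1
    ring
  rw [hq] at h2
  have h3 := h2.mul_left (-(p : ℂ)⁻¹)
  have hfun : (fun n : ℕ => PowerSeries.coeff n ((-(p : ℂ)⁻¹) • UpPS p (qExpansion 1 G)) *
      Function.Periodic.qParam (p : ℝ) (τ : ℂ) ^ n) = fun n : ℕ => (-(p : ℂ)⁻¹) *
      (PowerSeries.coeff n (UpPS p (qExpansion 1 G)) *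
        Function.Periodic.qParam (p : ℝ) (τ : ℂ) ^ n) := by
    funext n
    simp only [PowerSeries.coeff_smul, smul_eq_mul]
    ring
  rw [hfun, ← neg_mul]
  exact h3

/-- `FormPair` is stable under scalar multiplication. -/
theorem ubFree_formPair_smul (p : ℕ) (w : ℤ) (c : ℂ) {A B : PowerSeries ℂ}
    (h : FormPair p w A B) : FormPair p w (c • A) (c • B) := by
  obtain ⟨F, rfl, hB⟩ := h
  refine ⟨c • F, ?_, ?_⟩
  · exact ModularForm.qExpansion_smul one_pos (ubFree_one_mem p) c F
  · intro τ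
    have h3 := (hB τ).mul_left c
    have hfun : (fun n : ℕ => PowerSeries.coeff n (c • B) *
        Function.Periodic.qParam (p : ℝ) (τ : ℂ) ^ n) = fun n : ℕ => c *
        (PowerSeries.coeff n B * Function.Periodic.qParam (p : ℝ) (τ : ℂ) ^ n) := by
      funext n
      simp only [PowerSeries.coeff_smul, smul_eq_mul]
      ring
    rw [hfun]
    have hval : ((⇑(c • F) : ℍ → ℂ) ∣[w] ModularGroup.S) τ =
        c * ((⇑F : ℍ → ℂ) ∣[w] ModularGroup.S) τ := by
      rw [FunLike.coe_smul, ModularForm.SL_smul_slash]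
      rfl
    rw [hval]
    exact h3

/-- **FP-T0**: `B = -p⁻¹ U_p A`, and `(U_p A, -p⁻¹ A)` is again a form pair. -/
theorem ifaceT0 (p : ℕ) [hp : Fact p.Prime] : IfaceT0 p := by
  rintro A B ⟨F, rfl, hB⟩
  refine ⟨ubFree_cuspExp_unique p hB (ubFree_cuspExp p F), ?_⟩
  refine ⟨ModularForm.heckeULin 2 (dvd_refl p) F, ubFree_qExpansion_heckeULin p F, ?_⟩
  have h := ubFree_cuspExp p (ModularForm.heckeULin 2 (dvd_refl p) F)
  rw [← ubFree_qExpansion_heckeULin, heckeULin_heckeULin_weight_two] at h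
  exact h

/-- **AN-FRICKE**: if `(A, B)` is a form pair of weight two then so is `(B, p⁻² A)`. -/
theorem ifaceFricke (p : ℕ) [hp : Fact p.Prime] : IfaceFricke p := by
  intro A B hAB
  obtain ⟨hB, hU⟩ := ifaceT0 p A B hAB
  have h := ubFree_formPair_smul p 2 (-(p : ℂ)⁻¹) hU
  rw [← hB, smul_smul] at h
  have hc : (-(p : ℂ)⁻¹) * (-(p : ℂ)⁻¹) = ((p : ℂ) ^ 2)⁻¹ := by
    rw [neg_mul_neg, ← mul_inv, sq]
  rwa [hc] at h

end Fermat.Agent.S16
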