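import Fermat.Agent.S16.PSCalc

/-!
# P-EIS (S16): the quadratic trace identity (I2) (hedge by helper38)

`p A² + U_p((U_p A)²) = (p + 1) a_0² E₄` for `A` the `q`-expansion of `H ∈ M₂(Γ₀(p))`.
-/

set_option autoImplicit false

open UpperHalfPlane ModularForm ModularFormClass MatrixGroups CongruenceSubgroup PowerSeries

namespace Fermat.Agent.S16

noncomputable section

theorem i2h38_ifaceI2 (p : ℕ) [Fact p.Prime] (hE : IfaceExp p) (hA : IfaceAlg p)
    (hT : IfaceTrace p) (h0 : IfaceT0 p) (hL : IfaceLV1) : IfaceI2 p := by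
  have hp : p.Prime := Fact.out
  have hp0 : p ≠ 0 := hp.ne_zero
  have hpC : (p : ℂ) ≠ 0 := by exact_mod_cast hp0
  intro H
  set A := qExpansion 1 H with hAdef
  obtain ⟨B, hB⟩ := hE 2 H
  have hpair : FormPair p 2 A B := ⟨H, rfl, hB⟩
  obtain ⟨hBeq, -⟩ := h0 A B hpair
  -- the pair of `H²`
  have hsq : FormPair p (2 + 2) (A * A) (B * B) := hA.1 2 2 A B A B hpair hpair
  obtain ⟨N, hN1, hN⟩ := hT (2 + 2) (A * A) (B * B) hsq
  have h4 : (2 : ℤ) + 2 = 4 := by norm_num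
  rw [h4] at hN1
  rw [sum_rescale_zeta p hp0, ← expandPS_smul, ← expandPS_add] at hN
  have hNeq : N = A * A + (p : ℂ) • UpPS p (B * B) :=
    expandPS_injective p (Nat.pos_of_ne_zero hp0) hN
  -- `B * B = p⁻² • (U_p A)²`
  have hBB : B * B = ((p : ℂ)⁻¹ ^ 2) • (UpPS p A) ^ 2 := by
    rw [hBeq]
    ext n
    simp only [PowerSeries.coeff_smul, PowerSeries.coeff_mul, smul_eq_mul, pow_two,
      Finset.mul_sum]
    refine Finset.sum_congr rfl fun x _ => ?_
    ring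
  have hNeq2 : N = A ^ 2 + (p : ℂ)⁻¹ • UpPS p ((UpPS p A) ^ 2) := by
    rw [hNeq, hBB, UpPS_smul, smul_smul, pow_two A]
    congr 2
    field_simp
  -- `M₄ = ℂ E₄`
  have hN4 := hL.2.2.2 N hN1
  have hc0 : PowerSeries.coeff 0 N =
      (1 + (p : ℂ)⁻¹) * (PowerSeries.coeff 0 A) ^ 2 := by
    have e1 : PowerSeries.coeff 0 (A ^ 2) = (PowerSeries.coeff 0 A) ^ 2 := by
      rw [PowerSeries.coeff_zero_eq_constantCoeff, map_pow]
    have e2 : PowerSeries.coeff 0 ((UpPS p A) ^ 2) = (PowerSeries.coeff 0 A) ^ 2 := by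
      rw [PowerSeries.coeff_zero_eq_constantCoeff, map_pow,
        ← PowerSeries.coeff_zero_eq_constantCoeff, coeff_UpPS, mul_zero]
    rw [hNeq2, map_add, PowerSeries.coeff_smul, coeff_UpPS, mul_zero, e1, e2, smul_eq_mul]
    ring
  -- conclude
  have hfin : (p : ℂ) • N = (((p : ℂ) + 1) * (PowerSeries.coeff 0 A) ^ 2) • qExpansion 1 E₄ := by
    rw [hN4, hc0, smul_smul]
    congr 1
    field_simp
  rw [← hfin, hNeq2, smul_add, smul_smul, mul_inv_cancel₀ hpC, one_smul]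

end

end Fermat.Agent.S16
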