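import Fermat.Agent.S16.Iface

/-!
# P-EIS (S16), LV1: the level-one inputs

`E₄ = 1 + 240 ∑ σ₃(k) q^k`, `E₆ = 1 - 504 ∑ σ₅(k) q^k`, `M₂(SL₂ℤ) = 0`, `M₄(SL₂ℤ) = ℂ E₄`.
-/

set_option autoImplicit false

open UpperHalfPlane ModularForm ModularFormClass MatrixGroups CongruenceSubgroup EisensteinSeries

namespace Fermat.Agent.S16

namespace LV1

lemma sigmaJ_eq_sigma (j k : ℕ) : sigmaJ j k = ArithmeticFunction.sigma j k := rfl

lemma coeff_SJ (j m : ℕ) : PowerSeries.coeff m (SJ j) = (ArithmeticFunction.sigma j m : ℂ) := by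
  unfold SJ
  rw [PowerSeries.coeff_mk, sigmaJ_eq_sigma]

theorem qExpansion_E4 : qExpansion 1 E₄ = 1 + (240 : ℂ) • SJ 3 := by
  ext m
  rw [EisensteinSeries.E_qExpansion_coeff _ ⟨2, rfl⟩, map_add, PowerSeries.coeff_smul, coeff_SJ,
    PowerSeries.coeff_one]
  have hb : bernoulli 4 = -1 / 30 := by decide +kernel
  by_cases hm : m = 0
  · subst hm
    simp
  · simp only [hm, if_false]
    rw [hb]
    push_cast
    norm_num

theorem qExpansion_E6 : qExpansion 1 E₆ = 1 - (504 : ℂ) • SJ 5 := by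
  ext m
  rw [EisensteinSeries.E_qExpansion_coeff _ ⟨3, rfl⟩, map_sub, PowerSeries.coeff_smul, coeff_SJ,
    PowerSeries.coeff_one]
  have hb : bernoulli 6 = 1 / 42 := by decide +kernel
  by_cases hm : m = 0
  · subst hm
    simp
  · simp only [hm, if_false]
    rw [hb]
    push_cast
    norm_num

theorem levelOne_two (N : PowerSeries ℂ) (h : IsLevelOneQ 2 N) : N = 0 := by
  obtain ⟨f, rfl⟩ := h
  have hf : f = 0 := (rank_zero_iff_forall_zero.mp ModularForm.levelOne_weight_two_rank_zero) f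
  rw [hf]
  exact qExpansion_zero 1

theorem levelOne_four (N : PowerSeries ℂ) (h : IsLevelOneQ 4 N) :
    N = (PowerSeries.coeff 0 N) • qExpansion 1 E₄ := by
  obtain ⟨f, rfl⟩ := h
  obtain ⟨c, hc⟩ : ∃ c : ℂ, c • E₄ = f :=
    (finrank_eq_one_iff_of_nonzero' E₄ (E_ne_zero _ ⟨2, rfl⟩)).mp
      (Module.rank_eq_one_iff_finrank_eq_one.mp ModularForm.levelOne_weight_four_rank_one) _
  have hq : qExpansion 1 (⇑f) = c • qExpansion 1 (⇑E₄) := by
    rw [← hc]
    exact ModularForm.qExpansion_smul one_pos one_mem_strictPeriods_SL c E₄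
  have h0 : PowerSeries.coeff 0 (qExpansion 1 (⇑f)) = c := by
    rw [hq, PowerSeries.coeff_smul, EisensteinSeries.E_qExpansion_coeff_zero _ ⟨2, rfl⟩]
    simp
  rw [h0, hq]

end LV1

/-- **LV1.** -/
theorem ifaceLV1 : IfaceLV1 :=
  ⟨LV1.qExpansion_E4, LV1.qExpansion_E6, LV1.levelOne_two, LV1.levelOne_four⟩

end Fermat.Agent.S16
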