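import Mathlib

/-!
# P-EIS (S16), UB-NORM: explicit transversal of `Γ₀(p)` in `SL(2, ℤ)`

For a prime `p` the elements `1` and `(S T^j)⁻¹`, `0 ≤ j < p`, form a complete set of
representatives of the left cosets `SL(2, ℤ) / Γ₀(p)`.  Consequently Mathlib's norm and trace
from `Γ₀(p)` to level one are given by the explicit formulas

* `norm V z  = V z * ∏ j < p, (V ∣[k] (S T^j)) z`,
* `trace V z = V z + ∑ j < p, (V ∣[k] (S T^j)) z`.
-/

namespace Fermat.Agent.S16.UBNorm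

open UpperHalfPlane ModularForm ModularFormClass MatrixGroups CongruenceSubgroup
open Matrix.SpecialLinearGroup ModularGroup

noncomputable section

/-- The quotient `SL(2, ℤ) / Γ₀(p)` in the form used by `ModularForm.norm`. -/
abbrev NC_Quot (p : ℕ) : Type :=
  𝒮ℒ ⧸ ((Gamma0 p : Subgroup (GL (Fin 2) ℝ)).subgroupOf 𝒮ℒ)

/-- The element of `𝒮ℒ` attached to `g : SL(2, ℤ)`. -/
def NC_el (g : SL(2, ℤ)) : 𝒮ℒ := ⟨mapGL ℝ g, ⟨g, rfl⟩⟩

theorem NC_el_mul (g h : SL(2, ℤ)) : NC_el (g * h) = NC_el g * NC_el h := by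
  apply Subtype.ext
  simp [NC_el]

theorem NC_el_inv (g : SL(2, ℤ)) : NC_el g⁻¹ = (NC_el g)⁻¹ := by
  apply Subtype.ext
  simp [NC_el]

theorem NC_el_surjective : Function.Surjective NC_el := by
  rintro ⟨x, g, rfl⟩
  exact ⟨g, rfl⟩

theorem NC_mk_eq_iff (p : ℕ) (g h : SL(2, ℤ)) :
    ((NC_el g : 𝒮ℒ) : NC_Quot p) = ((NC_el h : 𝒮ℒ) : NC_Quot p) ↔ g⁻¹ * h ∈ Gamma0 p := by
  rw [QuotientGroup.eq, Subgroup.mem_subgroupOf, ← NC_el_inv, ← NC_el_mul]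
  constructor
  · rintro ⟨γ, hγ, hγe⟩
    have : γ = g⁻¹ * h := mapGL_injective (by simpa [NC_el] using hγe)
    rwa [← this]
  · intro hmem
    exact ⟨g⁻¹ * h, hmem, rfl⟩

/-- The `j`-th representative `(S T^j)⁻¹`, and `1` for `none`. -/
def NC_rep (p : ℕ) : Option (Fin p) → SL(2, ℤ)
  | none => 1
  | some j => (S * T ^ (j : ℕ))⁻¹

theorem NC_coe_T_pow (n : ℕ) : ((T ^ n : SL(2, ℤ)) : Matrix (Fin 2) (Fin 2) ℤ) = !![1, (n : ℤ); 0, 1] := by
  have := ModularGroup.coe_T_zpow (n : ℤ)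
  simpa using this

theorem NC_coe_ST (n : ℕ) :
    ((S * T ^ n : SL(2, ℤ)) : Matrix (Fin 2) (Fin 2) ℤ) = !![0, -1; 1, (n : ℤ)] := by
  rw [Matrix.SpecialLinearGroup.coe_mul, NC_coe_T_pow, ModularGroup.coe_S]
  ext i j
  fin_cases i <;> fin_cases j <;> simp [Matrix.mul_apply, Fin.sum_univ_two]

/-- lower-left entry of `(S T^j) * h`. -/
theorem NC_ST_mul_entry (n : ℕ) (h : SL(2, ℤ)) :
    ((S * T ^ n * h : SL(2, ℤ)) : Matrix (Fin 2) (Fin 2) ℤ) 1 0 = h 0 0 + n * h 1 0 := by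
  rw [Matrix.SpecialLinearGroup.coe_mul, NC_coe_ST]
  simp [Matrix.mul_apply, Fin.sum_univ_two]

theorem NC_coe_ST_inv (m : ℕ) :
    (((S * T ^ m)⁻¹ : SL(2, ℤ)) : Matrix (Fin 2) (Fin 2) ℤ) = !![(m : ℤ), 1; -1, 0] := by
  rw [Matrix.SpecialLinearGroup.coe_inv, NC_coe_ST, Matrix.adjugate_fin_two_of]
  simp

/-- lower-left entry of `(S T^j) * (S T^j')⁻¹`. -/
theorem NC_ST_mul_inv_entry (n m : ℕ) :
    ((S * T ^ n * (S * T ^ m)⁻¹ : SL(2, ℤ)) : Matrix (Fin 2) (Fin 2) ℤ) 1 0 = (m : ℤ) - n := by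
  rw [NC_ST_mul_entry, NC_coe_ST_inv]
  simp
  ring

/-- lower-left entry of `(S T^j)⁻¹`. -/
theorem NC_ST_inv_entry (m : ℕ) :
    (((S * T ^ m)⁻¹ : SL(2, ℤ)) : Matrix (Fin 2) (Fin 2) ℤ) 1 0 = -1 := by
  rw [NC_coe_ST_inv]
  simp

theorem NC_rep_inv_mul_mem_iff (p : ℕ) [Fact p.Prime] (i i' : Option (Fin p)) :
    (NC_rep p i)⁻¹ * NC_rep p i' ∈ Gamma0 p ↔ i = i' := by
  have hp : p.Prime := Fact.out
  have h1 : ((1 : ℤ) : ZMod p) ≠ 0 := by
    have : Fact (1 < p) := ⟨hp.one_lt⟩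
    simp
  rw [Gamma0_mem]
  rcases i with _ | j <;> rcases i' with _ | j'
  · simp [NC_rep]
  · simp only [NC_rep, inv_one, one_mul, NC_ST_inv_entry, reduceCtorEq, iff_false]
    simp
  · simp only [NC_rep, inv_inv, mul_one, NC_coe_ST, reduceCtorEq, iff_false]
    simp
  · simp only [NC_rep, inv_inv, NC_ST_mul_inv_entry, Option.some.injEq]
    push_cast
    rw [sub_eq_zero]
    constructor
    · intro h
      have h2 : ((j' : ℕ) : ZMod p) = ((j : ℕ) : ZMod p) := h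
      rw [ZMod.natCast_eq_natCast_iff'] at h2
      rw [Nat.mod_eq_of_lt j'.isLt, Nat.mod_eq_of_lt j.isLt] at h2
      exact Fin.ext h2.symm
    · rintro rfl
      rfl

theorem NC_exists_rep (p : ℕ) [Fact p.Prime] (h : SL(2, ℤ)) :
    ∃ i : Option (Fin p), (NC_rep p i)⁻¹ * h ∈ Gamma0 p := by
  have hp : p.Prime := Fact.out
  have : NeZero p := ⟨hp.ne_zero⟩
  by_cases hc : ((h 1 0 : ℤ) : ZMod p) = 0
  · exact ⟨none, by simpa [NC_rep, Gamma0_mem] using hc⟩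
  · set x : ZMod p := -((h 0 0 : ℤ) : ZMod p) * (((h 1 0 : ℤ) : ZMod p))⁻¹ with hx
    refine ⟨some ⟨x.val, ZMod.val_lt x⟩, ?_⟩
    rw [Gamma0_mem]
    simp only [NC_rep, inv_inv, NC_ST_mul_entry]
    push_cast
    rw [ZMod.natCast_zmod_val, hx]
    field_simp
    ring

/-- The explicit transversal is a bijection onto the coset space. -/
theorem NC_bijective (p : ℕ) [Fact p.Prime] :
    Function.Bijective (fun i : Option (Fin p) => ((NC_el (NC_rep p i) : 𝒮ℒ) : NC_Quot p)) := by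
  constructor
  · intro i i' h
    exact (NC_rep_inv_mul_mem_iff p i i').mp ((NC_mk_eq_iff p _ _).mp h)
  · intro q
    induction q using Quotient.inductionOn with
    | _ x =>
      obtain ⟨h, rfl⟩ := NC_el_surjective x
      obtain ⟨i, hi⟩ := NC_exists_rep p h
      exact ⟨i, (NC_mk_eq_iff p _ _).mpr hi⟩

theorem NC_card (p : ℕ) [Fact p.Prime] : Nat.card (NC_Quot p) = p + 1 := by
  rw [← Nat.card_congr (Equiv.ofBijective _ (NC_bijective p))]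
  simp

theorem NC_slash_el {k : ℤ} (f : ℍ → ℂ) (g : SL(2, ℤ)) :
    f ∣[k] ((NC_el g : 𝒮ℒ) : GL (Fin 2) ℝ) = f ∣[k] g := by
  rw [ModularForm.SL_slash]
  rfl

theorem NC_quotientFunc_rep (p : ℕ) [Fact p.Prime] {k : ℤ} (V : ModularForm (Gamma0 p) k)
    (i : Option (Fin p)) :
    SlashInvariantForm.quotientFunc (ℋ := 𝒮ℒ) V ((NC_el (NC_rep p i) : 𝒮ℒ) : NC_Quot p) =
      (V : ℍ → ℂ) ∣[k] (NC_rep p i)⁻¹ := by
  have h := SlashInvariantForm.quotientFunc_mk (ℋ := 𝒮ℒ) V (NC_el (NC_rep p i))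
  have h2 : ((NC_el (NC_rep p i) : 𝒮ℒ) : GL (Fin 2) ℝ)⁻¹ =
      ((NC_el (NC_rep p i)⁻¹ : 𝒮ℒ) : GL (Fin 2) ℝ) := by
    rw [NC_el_inv]; rfl
  rw [h2, NC_slash_el] at h
  exact h

/-- **Explicit norm formula** from `Γ₀(p)` to level one. -/
theorem NC_norm_apply (p : ℕ) [Fact p.Prime] {k : ℤ} (V : ModularForm (Gamma0 p) k) (z : ℍ) :
    ModularForm.norm 𝒮ℒ V z =
      V z * ∏ j ∈ Finset.range p, ((V : ℍ → ℂ) ∣[k] (S * T ^ j)) z := by
  classical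
  let _ : Fintype (NC_Quot p) := Fintype.ofFinite _
  have h1 : (ModularForm.norm 𝒮ℒ V : ℍ → ℂ) z =
      ∏ q : NC_Quot p, SlashInvariantForm.quotientFunc (ℋ := 𝒮ℒ) V q z := by
    rw [ModularForm.coe_norm, Finset.prod_apply]
  rw [h1, ← Function.Bijective.prod_comp (NC_bijective p)
    (fun q => SlashInvariantForm.quotientFunc (ℋ := 𝒮ℒ) V q z), Fintype.prod_option]
  simp only [NC_quotientFunc_rep]
  congr 1
  · simp [NC_rep]
  · rw [← Fin.prod_univ_eq_prod_range (fun j => ((V : ℍ → ℂ) ∣[k] (S * T ^ j)) z) p]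
    simp [NC_rep]

/-- **Explicit trace formula** from `Γ₀(p)` to level one. -/
theorem NC_trace_apply (p : ℕ) [Fact p.Prime] {k : ℤ} (V : ModularForm (Gamma0 p) k) (z : ℍ) :
    ModularForm.trace 𝒮ℒ V z =
      V z + ∑ j ∈ Finset.range p, ((V : ℍ → ℂ) ∣[k] (S * T ^ j)) z := by
  classical
  let _ : Fintype (NC_Quot p) := Fintype.ofFinite _
  have h1 : (ModularForm.trace 𝒮ℒ V : ℍ → ℂ) z =
      ∑ q : NC_Quot p, SlashInvariantForm.quotientFunc (ℋ := 𝒮ℒ) V q z := by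
    rw [ModularForm.coe_trace, Finset.sum_apply]
  rw [h1, ← Function.Bijective.sum_comp (NC_bijective p)
    (fun q => SlashInvariantForm.quotientFunc (ℋ := 𝒮ℒ) V q z), Fintype.sum_option]
  simp only [NC_quotientFunc_rep]
  congr 1
  · simp [NC_rep]
  · rw [← Fin.sum_univ_eq_sum_range (fun j => ((V : ℍ → ℂ) ∣[k] (S * T ^ j)) z) p]
    simp [NC_rep]

/-- The norm as a level-one modular form of weight `k * (p + 1)`. -/
def NC_norm (p : ℕ) [Fact p.Prime] {k : ℤ} (V : ModularForm (Gamma0 p) k) :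
    ModularForm 𝒮ℒ (k * ((p : ℤ) + 1)) :=
  ModularForm.mcast (by rw [NC_card p]; push_cast; ring) (ModularForm.norm 𝒮ℒ V)

theorem NC_norm_eq (p : ℕ) [Fact p.Prime] {k : ℤ} (V : ModularForm (Gamma0 p) k) (z : ℍ) :
    NC_norm p V z = V z * ∏ j ∈ Finset.range p, ((V : ℍ → ℂ) ∣[k] (S * T ^ j)) z :=
  NC_norm_apply p V z

end

end Fermat.Agent.S16.UBNorm
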