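import Fermat.Agent.S16.Iface
import Fermat.Agent.S16.UB.NormCoset
import Fermat.Agent.S28.BridgeBase
import Fermat.Agent.S28.H84BridgeTExp
import Fermat.Prelude.Thm_CongruenceSubgroup_one_mem_strictPeriods_Gamma0

/-!
# P-EIS (S16), AN-NORM: the norm to level one on expansions

`theorem ifaceNorm (p : ℕ) [Fact p.Prime] : IfaceNorm p`.

If `F ∈ M_w(Γ₀(p))` has `q`-expansion `A` and `F ∣ S` has the `t`-expansion `B`
(`t = exp (2πiτ/p)`), then the norm `N = F ∏_{j<p} F ∣ S T^j ∈ M_{w(p+1)}(SL₂ℤ)` has the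
expansion `A(t^p) ∏_j B(ζ^j t)`.
-/

set_option autoImplicit false

namespace Fermat.Agent.S16

open UpperHalfPlane ModularForm ModularFormClass MatrixGroups CongruenceSubgroup
open Matrix.SpecialLinearGroup ModularGroup
open Fermat.Agent.S28 Fermat.Agent.S16.UBNorm

noncomputable section

/-- A convergent power series expansion in `t = exp (2πiτ/N)` is a `HasTExp`. -/
theorem AN_hasTExp_of_hasSum {N : ℕ} {g : ℍ → ℂ} {s : PowerSeries ℂ}
    (h : ∀ τ : ℍ, HasSum (fun n : ℕ => PowerSeries.coeff n s *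
      Function.Periodic.qParam (N : ℝ) τ ^ n) (g τ)) :
    HasTExp N g (HahnSeries.ofPowerSeries ℤ ℂ s) := by
  refine ⟨0, s, by simp, fun τ => ?_⟩
  simpa [tParam] using h τ

theorem AN_expandPS_eq (p : ℕ) (A : PowerSeries ℂ) : expandPS p A = h19_expand p A := rfl

/-- the `q`-expansion of a form on `Γ₀(p)`, as a `t`-expansion. -/
theorem AN_hasTExp_form (p : ℕ) [NeZero p] {w : ℤ} (F : ModularForm (Gamma0 p) w) :
    HasTExp p (fun τ => F τ) (HahnSeries.ofPowerSeries ℤ ℂ (expandPS p (qExpansion 1 F))) := by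
  have h1 : HasTExp 1 (fun τ => F τ) (HahnSeries.ofPowerSeries ℤ ℂ (qExpansion 1 F)) := by
    refine ⟨0, qExpansion 1 F, by simp, fun τ => ?_⟩
    have : Fact (IsCusp OnePoint.infty ((Gamma0 p : Subgroup (GL (Fin 2) ℝ)))) :=
      ⟨Subgroup.isCusp_of_mem_strictPeriods one_pos (one_mem_strictPeriods_Gamma0 p)⟩
    have h := ModularForm.hasSum_qExpansion (f := F) one_pos (one_mem_strictPeriods_Gamma0 p) τ
    simpa [tParam] using h
  have h2 := h1.of_one (N := p)
  rwa [h19_qExpand_ofPowerSeries] at h2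

/-- the `q`-expansion of a level-one form, as a `t`-expansion. -/
theorem AN_hasTExp_levelOne (p : ℕ) [NeZero p] {w : ℤ} (f : ModularForm 𝒮ℒ w) :
    HasTExp p (fun τ => f τ) (HahnSeries.ofPowerSeries ℤ ℂ (expandPS p (qExpansion 1 f))) := by
  have h1 := h84_hasTExp_of_modularForm f
  have h2 := h1.of_one (N := p)
  rwa [h19_qExpand_ofPowerSeries] at h2

/-- `qParam p` at the translate `T^j • τ`. -/
theorem AN_qParam_T_pow (p : ℕ) [NeZero p] (j : ℕ) (τ : ℍ) :
    Function.Periodic.qParam (p : ℝ) ((T ^ j • τ : ℍ) : ℂ) =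
      zetaP p ^ j * Function.Periodic.qParam (p : ℝ) (τ : ℂ) := by
  have hp : (p : ℂ) ≠ 0 := Nat.cast_ne_zero.mpr (NeZero.ne p)
  have h := ModularGroup.coe_T_zpow_smul_eq (z := τ) (n := (j : ℤ))
  rw [zpow_natCast] at h
  rw [h, zetaP, ← Complex.exp_nat_mul, Function.Periodic.qParam, Function.Periodic.qParam,
    ← Complex.exp_add]
  congr 1
  push_cast
  field_simp
  ring

/-- slash by `S T^j` is the translate by `j` of the slash by `S`. -/
theorem AN_slash_ST_pow {w : ℤ} (f : ℍ → ℂ) (j : ℕ) (τ : ℍ) :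
    (f ∣[w] (S * T ^ j)) τ = (f ∣[w] S) (T ^ j • τ) := by
  rw [SlashAction.slash_mul, ModularForm.SL_slash_apply (f ∣[w] S) (T ^ j) τ]
  have hd : denom ((T ^ j : SL(2, ℤ))) τ = 1 := by
    rw [ModularGroup.denom_apply, NC_coe_T_pow j]
    simp
  rw [hd, one_zpow, mul_one]

/-- the conjugate `F ∣ S T^j` has the `t`-expansion `B(ζ^j t)`. -/
theorem AN_hasTExp_conj (p : ℕ) [NeZero p] {w : ℤ} (F : ModularForm (Gamma0 p) w)
    (B : PowerSeries ℂ) (hB : CuspExp p w F B) (j : ℕ) :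
    HasTExp p (fun τ => ((F : ℍ → ℂ) ∣[w] (S * T ^ j)) τ)
      (HahnSeries.ofPowerSeries ℤ ℂ (PowerSeries.rescale (zetaP p ^ j) B)) := by
  refine AN_hasTExp_of_hasSum (fun τ => ?_)
  have h := hB (T ^ j • τ)
  rw [AN_slash_ST_pow]
  refine h.congr_fun (fun n => ?_)
  rw [AN_qParam_T_pow, PowerSeries.coeff_rescale, mul_pow]
  ring

/-- **AN-NORM**: the norm to level one on expansions. -/
theorem ifaceNorm (p : ℕ) [Fact p.Prime] : IfaceNorm p := by
  have hp : p.Prime := Fact.out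
  have : NeZero p := ⟨hp.ne_zero⟩
  rintro w A B ⟨F, rfl, hB⟩
  refine ⟨qExpansion 1 (NC_norm p F), ⟨NC_norm p F, rfl⟩, ?_⟩
  -- expansion of the norm as a level-one form
  have h1 := AN_hasTExp_levelOne p (NC_norm p F)
  -- expansion of the product of the conjugates
  have h2 : HasTExp p ((fun τ => F τ) *
      ∏ j ∈ Finset.range p, fun τ => ((F : ℍ → ℂ) ∣[w] (S * T ^ j)) τ)
      (HahnSeries.ofPowerSeries ℤ ℂ (expandPS p (qExpansion 1 F)) *
        ∏ j ∈ Finset.range p,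
          HahnSeries.ofPowerSeries ℤ ℂ (PowerSeries.rescale (zetaP p ^ j) B)) :=
    (AN_hasTExp_form p F).mul hp.pos
      (HasTExp.finset_prod hp.pos _ (fun j _ => AN_hasTExp_conj p F B hB j))
  have h3 : HasTExp p (fun τ => NC_norm p F τ)
      (HahnSeries.ofPowerSeries ℤ ℂ (expandPS p (qExpansion 1 F)) *
        ∏ j ∈ Finset.range p,
          HahnSeries.ofPowerSeries ℤ ℂ (PowerSeries.rescale (zetaP p ^ j) B)) := by
    refine h2.congr (fun τ => ?_)
    rw [NC_norm_eq, Pi.mul_apply, Finset.prod_apply]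
  have h4 := HasTExp.unique hp.pos h1 h3
  rw [← map_prod, ← map_mul] at h4
  exact HahnSeries.ofPowerSeries_injective h4

end

end Fermat.Agent.S16
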