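import Mathlib

/-!
# P-EIS, upper bound input (a): the conjugates of a weight `k` form of prime level (helper19)

For a function `f` on `ℍ` which is invariant under `Γ₀(p)` (weight `k`, `k` even) we study the
`p + 1` conjugates `f` and `Φ_b = f ∣[k] (S T^b)`, `b mod p`:

* `h19c_conj_T`, `h19c_conj_S`, ... : the action of `S` and `T` on the conjugates;
* `h19c_tr_S`, `h19c_tr_T` : the trace `f + ∑_b Φ_b` is invariant under `SL(2, ℤ)`;
* `h19c_tr_eq_zero` : in weight `2` the trace vanishes.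
-/

set_option autoImplicit false

open UpperHalfPlane ModularForm MatrixGroups ModularGroup CongruenceSubgroup
open scoped Real Manifold

noncomputable section

namespace Fermat.Agent.S16.UB

variable {p : ℕ} {k : ℤ} {f : ℍ → ℂ}

/-- the conjugate `Φ_b = f ∣[k] (S T^b)`. -/
def h19c_conj (k : ℤ) (f : ℍ → ℂ) (b : ℤ) : ℍ → ℂ := f ∣[k] (S * T ^ b)

theorem h19c_conj_T (f : ℍ → ℂ) (b : ℤ) : h19c_conj k f b ∣[k] T = h19c_conj k f (b + 1) := by
  rw [h19c_conj, h19c_conj, ← SlashAction.slash_mul, mul_assoc, zpow_add_one]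

theorem h19c_slash_S (f : ℍ → ℂ) : f ∣[k] S = h19c_conj k f 0 := by
  rw [h19c_conj, zpow_zero, mul_one]

/-- `Γ₀(p)`-invariance lets us change the representative of a right coset. -/
theorem h19c_slash_eq_of_mul_inv_mem (hf : ∀ γ ∈ Gamma0 p, f ∣[k] γ = f) {g h : SL(2, ℤ)}
    (hgh : g * h⁻¹ ∈ Gamma0 p) : f ∣[k] g = f ∣[k] h := by
  have : g = (g * h⁻¹) * h := by group
  rw [this, SlashAction.slash_mul, hf _ hgh]

theorem h19c_S_mul_S_mem (p : ℕ) : S * S ∈ Gamma0 p := by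
  rw [Gamma0_mem]
  have hS : ((S : SL(2, ℤ)) : Matrix (Fin 2) (Fin 2) ℤ) = !![0, -1; 1, 0] := ModularGroup.coe_S
  have : ((S * S : SL(2, ℤ)) 1 0 : ℤ) = 0 := by
    simp only [Matrix.SpecialLinearGroup.coe_mul, hS]
    simp [Matrix.mul_apply, Fin.sum_univ_two]
  rw [this]
  simp

theorem h19c_conj_zero_S (hf : ∀ γ ∈ Gamma0 p, f ∣[k] γ = f) :
    h19c_conj k f 0 ∣[k] S = f := by
  rw [h19c_conj, zpow_zero, mul_one, ← SlashAction.slash_mul]
  exact hf _ (h19c_S_mul_S_mem p)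

theorem h19c_entry_aux (b b' : ℤ) :
    ((S * T ^ b * S * (S * T ^ b')⁻¹ : SL(2, ℤ)) 1 0 : ℤ) = b * b' + 1 := by
  have hT : ∀ n : ℤ, ((T ^ n : SL(2, ℤ)) : Matrix (Fin 2) (Fin 2) ℤ) = !![1, n; 0, 1] :=
    ModularGroup.coe_T_zpow
  have hS : ((S : SL(2, ℤ)) : Matrix (Fin 2) (Fin 2) ℤ) = !![0, -1; 1, 0] := ModularGroup.coe_S
  have hinv : ((S * T ^ b' : SL(2, ℤ))⁻¹ : SL(2, ℤ)) = (T ^ b')⁻¹ * S⁻¹ := by
    rw [mul_inv_rev]
  have hTinv : ((T ^ b' : SL(2, ℤ))⁻¹ : SL(2, ℤ)) = T ^ (-b') := by rw [zpow_neg]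
  have hSinv : ((S⁻¹ : SL(2, ℤ)) : Matrix (Fin 2) (Fin 2) ℤ) = !![0, 1; -1, 0] := by
    rw [Matrix.SpecialLinearGroup.coe_inv, hS]
    simp [Matrix.adjugate_fin_two]
  rw [hinv, hTinv]
  simp only [Matrix.SpecialLinearGroup.coe_mul, hT, hS, hSinv]
  simp [Matrix.mul_apply, Fin.sum_univ_two]

theorem h19c_conj_S (hf : ∀ γ ∈ Gamma0 p, f ∣[k] γ = f) (b b' : ℤ)
    (h : (p : ℤ) ∣ b * b' + 1) : h19c_conj k f b ∣[k] S = h19c_conj k f b' := by
  rw [h19c_conj, h19c_conj, ← SlashAction.slash_mul]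
  apply h19c_slash_eq_of_mul_inv_mem hf
  rw [Gamma0_mem, h19c_entry_aux]
  exact (ZMod.intCast_zmod_eq_zero_iff_dvd _ _).2 h

theorem h19c_entry_aux2 (b : ℤ) (p : ℕ) :
    ((S * T ^ (b + p) * (S * T ^ b)⁻¹ : SL(2, ℤ)) 1 0 : ℤ) = -p := by
  have hT : ∀ n : ℤ, ((T ^ n : SL(2, ℤ)) : Matrix (Fin 2) (Fin 2) ℤ) = !![1, n; 0, 1] :=
    ModularGroup.coe_T_zpow
  have hS : ((S : SL(2, ℤ)) : Matrix (Fin 2) (Fin 2) ℤ) = !![0, -1; 1, 0] := ModularGroup.coe_S
  have hinv : ((S * T ^ b : SL(2, ℤ))⁻¹ : SL(2, ℤ)) = (T ^ b)⁻¹ * S⁻¹ := by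
    rw [mul_inv_rev]
  have hTinv : ((T ^ b : SL(2, ℤ))⁻¹ : SL(2, ℤ)) = T ^ (-b) := by rw [zpow_neg]
  have hSinv : ((S⁻¹ : SL(2, ℤ)) : Matrix (Fin 2) (Fin 2) ℤ) = !![0, 1; -1, 0] := by
    rw [Matrix.SpecialLinearGroup.coe_inv, hS]
    simp [Matrix.adjugate_fin_two]
  rw [hinv, hTinv]
  simp only [Matrix.SpecialLinearGroup.coe_mul, hT, hS, hSinv]
  simp [Matrix.mul_apply, Fin.sum_univ_two]

theorem h19c_conj_add_p (hf : ∀ γ ∈ Gamma0 p, f ∣[k] γ = f) (b : ℤ) :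
    h19c_conj k f (b + p) = h19c_conj k f b := by
  rw [h19c_conj, h19c_conj]
  apply h19c_slash_eq_of_mul_inv_mem hf
  rw [Gamma0_mem, h19c_entry_aux2]
  simp

theorem h19c_conj_eq_of_dvd (hf : ∀ γ ∈ Gamma0 p, f ∣[k] γ = f) {b b' : ℤ}
    (h : (p : ℤ) ∣ b - b') : h19c_conj k f b = h19c_conj k f b' := by
  obtain ⟨m, hm⟩ := h
  have hb : b = b' + m * p := by linarith
  rw [hb]
  clear hb hm
  induction m using Int.induction_on with
  | zero => simp
  | succ i ih =>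
    have : b' + ((i : ℤ) + 1) * p = (b' + i * p) + p := by ring
    rw [this, h19c_conj_add_p hf, ih]
  | pred i ih =>
    have : b' + (-(i : ℤ) - 1) * p + p = b' + (-(i : ℤ)) * p := by ring
    rw [← h19c_conj_add_p hf (b' + (-(i : ℤ) - 1) * p), this, ih]


/-! ### the trace to level one -/

section Trace

variable [hp : Fact p.Prime]

/-- the trace `f + ∑_{c mod p} Φ_c`. -/
def h19c_tr (p : ℕ) [NeZero p] (k : ℤ) (f : ℍ → ℂ) : ℍ → ℂ :=
  f + ∑ c : ZMod p, h19c_conj k f (c.val : ℤ)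

theorem h19c_T_mem (p : ℕ) : T ∈ Gamma0 p := by
  rw [Gamma0_mem]
  have hT : ((T : SL(2, ℤ)) : Matrix (Fin 2) (Fin 2) ℤ) = !![1, 1; 0, 1] := ModularGroup.coe_T
  have : ((T : SL(2, ℤ)) 1 0 : ℤ) = 0 := by
    rw [hT]
    simp
  rw [this]
  simp

theorem h19c_tr_T (hf : ∀ γ ∈ Gamma0 p, f ∣[k] γ = f) :
    h19c_tr p k f ∣[k] T = h19c_tr p k f := by
  rw [h19c_tr, SlashAction.add_slash, SlashAction.sum_slash, hf T (h19c_T_mem p)]
  congr 1
  have h1 : ∀ c : ZMod p, h19c_conj k f (c.val : ℤ) ∣[k] T = h19c_conj k f ((c + 1).val : ℤ) := by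
    intro c
    rw [h19c_conj_T]
    apply h19c_conj_eq_of_dvd hf
    rw [← ZMod.intCast_zmod_eq_zero_iff_dvd]
    push_cast
    simp
  simp_rw [h1]
  exact Equiv.sum_comp (Equiv.addRight (1 : ZMod p)) fun c => h19c_conj k f (c.val : ℤ)

theorem h19c_tr_S (hf : ∀ γ ∈ Gamma0 p, f ∣[k] γ = f) :
    h19c_tr p k f ∣[k] S = h19c_tr p k f := by
  rw [h19c_tr, SlashAction.add_slash, SlashAction.sum_slash, h19c_slash_S]
  have h1 : ∀ c : ZMod p, h19c_conj k f (c.val : ℤ) ∣[k] S =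
      h19c_conj k f ((-c⁻¹).val : ℤ) + if c = 0 then f - h19c_conj k f 0 else 0 := by
    intro c
    by_cases hc : c = 0
    · subst hc
      simp only [ZMod.val_zero, Nat.cast_zero, inv_zero, neg_zero, if_true]
      rw [h19c_conj_zero_S hf]
      abel
    · simp only [hc, if_false, add_zero]
      apply h19c_conj_S hf
      rw [← ZMod.intCast_zmod_eq_zero_iff_dvd]
      push_cast
      simp only [ZMod.natCast_val, ZMod.cast_id', id_eq]
      rw [mul_neg, mul_inv_cancel₀ hc]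
      ring
  simp_rw [h1]
  rw [Finset.sum_add_distrib, Finset.sum_ite_eq' Finset.univ (0 : ZMod p)]
  simp only [Finset.mem_univ, if_true]
  have h2 : ∑ c : ZMod p, h19c_conj k f ((-c⁻¹).val : ℤ) = ∑ c : ZMod p, h19c_conj k f (c.val : ℤ) :=
    Equiv.sum_comp ((Equiv.inv (ZMod p)).trans (Equiv.neg (ZMod p)))
      fun c => h19c_conj k f (c.val : ℤ)
  rw [h2]
  abel

theorem h19c_tr_slash (hf : ∀ γ ∈ Gamma0 p, f ∣[k] γ = f) (γ : SL(2, ℤ)) :
    h19c_tr p k f ∣[k] γ = h19c_tr p k f :=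
  SlashInvariantForm.slash_action_generators_SL2Z (h19c_tr_S hf) (h19c_tr_T hf) γ

end Trace

/-! ### evaluation of the conjugates -/

theorem h19c_denom_T_zpow (b : ℤ) (τ : ℍ) : denom ((T ^ b : SL(2, ℤ)) : GL (Fin 2) ℝ) τ = 1 := by
  have hT : ∀ n : ℤ, ((T ^ n : SL(2, ℤ)) : Matrix (Fin 2) (Fin 2) ℤ) = !![1, n; 0, 1] :=
    ModularGroup.coe_T_zpow
  have h10 : ((T ^ b : SL(2, ℤ)) 1 0 : ℤ) = 0 := by rw [hT]; simp
  have h11 : ((T ^ b : SL(2, ℤ)) 1 1 : ℤ) = 1 := by rw [hT]; simp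
  rw [ModularGroup.denom_apply, h10, h11]
  simp

theorem h19c_conj_apply (k : ℤ) (f : ℍ → ℂ) (b : ℤ) (τ : ℍ) :
    h19c_conj k f b τ = (f ∣[k] S) ((b : ℝ) +ᵥ τ) := by
  rw [h19c_conj, SlashAction.slash_mul, SL_slash_apply, modular_T_zpow_smul,
    h19c_denom_T_zpow, one_zpow, mul_one]

/-! ### the trace as a modular form of level one -/

section Form

variable [hp : Fact p.Prime]

omit hp in
theorem h19c_invariant (F : ModularForm (Gamma0 p) k) :
    ∀ γ ∈ Gamma0 p, (F : ℍ → ℂ) ∣[k] γ = F := fun γ hγ =>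
  SlashInvariantFormClass.slash_action_eq F (γ : GL (Fin 2) ℝ) (Subgroup.mem_map_of_mem _ hγ)

/-- the trace of a form of level `Γ₀(p)`, as a modular form of level one. -/
def h19c_trForm (p : ℕ) [Fact p.Prime] (k : ℤ) (F : ModularForm (Gamma0 p) k) :
    ModularForm 𝒮ℒ k where
  toFun := h19c_tr p k F
  slash_action_eq' := by
    rintro _ ⟨g, rfl⟩
    exact h19c_tr_slash (h19c_invariant F) g
  holo' := by
    show MDiff (h19c_tr p k F)
    rw [h19c_tr]
    refine (ModularFormClass.holo F).add ?_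
    refine MDifferentiable.sum fun c _ => ?_
    exact (ModularFormClass.holo F).slash k _
  bdd_at_cusps' := by
    intro c hc
    rw [OnePoint.isBoundedAt_iff_forall_SL2Z hc]
    intro γ _
    rw [h19c_tr_slash (h19c_invariant F) γ, h19c_tr]
    have h0 : IsBoundedAtImInfty (F : ℍ → ℂ) := by
      have := ModularFormClass.bdd_at_infty_slash F (1 : SL(2, ℤ))
      simpa using this
    refine h0.add ?_
    refine Asymptotics.IsBigO.sum fun c _ => ?_
    exact ModularFormClass.bdd_at_infty_slash F _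

theorem h19c_trForm_apply (F : ModularForm (Gamma0 p) k) (τ : ℍ) :
    h19c_trForm p k F τ = F τ + ∑ c : ZMod p, ((F : ℍ → ℂ) ∣[k] S) (((c.val : ℤ) : ℝ) +ᵥ τ) := by
  show h19c_tr p k F τ = _
  rw [h19c_tr, Pi.add_apply, Finset.sum_apply]
  simp_rw [h19c_conj_apply]

theorem h19c_sum_zmod_eq_sum_range {M : Type*} [AddCommMonoid M] (g : ℕ → M) :
    ∑ c : ZMod p, g c.val = ∑ j ∈ Finset.range p, g j := by
  have hp0 : NeZero p := ⟨hp.out.ne_zero⟩
  refine Finset.sum_nbij' (fun c => c.val) (fun j => (j : ZMod p)) ?_ ?_ ?_ ?_ ?_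
  · intro c _
    exact Finset.mem_range.2 (ZMod.val_lt c)
  · intro j _
    exact Finset.mem_univ _
  · intro c _
    exact ZMod.natCast_zmod_val c
  · intro j hj
    exact ZMod.val_natCast_of_lt (Finset.mem_range.1 hj)
  · intro c _
    rfl

theorem h19c_trForm_apply' (F : ModularForm (Gamma0 p) k) (τ : ℍ) :
    h19c_trForm p k F τ = F τ + ∑ j ∈ Finset.range p, ((F : ℍ → ℂ) ∣[k] S) ((j : ℝ) +ᵥ τ) := by
  rw [h19c_trForm_apply, ← h19c_sum_zmod_eq_sum_range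
    (fun j : ℕ => ((F : ℍ → ℂ) ∣[k] S) ((j : ℝ) +ᵥ τ))]
  simp

end Form

/-! ### expansions in `t = exp (2πiτ/p)` -/

section Expansion

open Function.Periodic

theorem h19c_qParam_pow (p : ℕ) (hp : p ≠ 0) (τ : ℍ) :
    qParam (p : ℝ) τ ^ p = qParam (1 : ℝ) τ := by
  have hp' : (p : ℂ) ≠ 0 := Nat.cast_ne_zero.2 hp
  rw [qParam, qParam, ← Complex.exp_nat_mul]
  congr 1
  push_cast
  field_simp

theorem h19c_qParam_vadd (p : ℕ) (j : ℕ) (τ : ℍ) :
    qParam (p : ℝ) (((j : ℝ) +ᵥ τ : ℍ) : ℂ) =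
      Complex.exp (2 * Real.pi * Complex.I / p) ^ j * qParam (p : ℝ) τ := by
  rw [qParam, qParam, ← Complex.exp_nat_mul, ← Complex.exp_add]
  congr 1
  rw [UpperHalfPlane.coe_vadd]
  push_cast
  ring

/-- an expansion in `q` is an expansion in `t`, `q = t ^ p`. -/
theorem h19c_hasSum_expand (p : ℕ) (hp : p ≠ 0) (c : ℕ → ℂ) (τ : ℍ) (a : ℂ)
    (h : HasSum (fun n : ℕ => c n * qParam (1 : ℝ) τ ^ n) a) :
    HasSum (fun m : ℕ => (if p ∣ m then c (m / p) else 0) * qParam (p : ℝ) τ ^ m) a := by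
  have hinj : Function.Injective (fun n : ℕ => p * n) := fun a b hab =>
    Nat.eq_of_mul_eq_mul_left (Nat.pos_of_ne_zero hp) hab
  rw [← hinj.hasSum_iff]
  · convert h using 2 with n
    simp only [Function.comp_apply, dvd_mul_right, if_true]
    rw [Nat.mul_div_cancel_left _ (Nat.pos_of_ne_zero hp), pow_mul, h19c_qParam_pow p hp]
  · intro m hm
    have : ¬ p ∣ m := by
      rintro ⟨n, rfl⟩
      exact hm ⟨n, rfl⟩
    simp [this]

variable [hp : Fact p.Prime]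

/-- **The trace on expansions.**  If `F ∣ S` has the expansion `B` in `t = exp (2πiτ/p)`, then the
`q`-expansion `N` of the trace of `F` satisfies
`N(t^p) = A(t^p) + ∑_{j < p} B(ζ^j t)`, `A` the `q`-expansion of `F`. -/
theorem h19c_trace_expansion (F : ModularForm (Gamma0 p) k) (B : ℕ → ℂ)
    (hB : ∀ τ : ℍ, HasSum (fun n : ℕ => B n * qParam (p : ℝ) τ ^ n) (((F : ℍ → ℂ) ∣[k] S) τ))
    (m : ℕ) :
    (if p ∣ m then PowerSeries.coeff (m / p) (qExpansion 1 (h19c_trForm p k F)) else 0) =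
      (if p ∣ m then PowerSeries.coeff (m / p) (qExpansion 1 F) else 0) +
        ∑ j ∈ Finset.range p, (Complex.exp (2 * Real.pi * Complex.I / p) ^ j) ^ m * B m := by
  have hp0 : p ≠ 0 := hp.out.ne_zero
  have hppos : (0 : ℝ) < (p : ℝ) := by exact_mod_cast hp.out.pos
  have hper : (p : ℝ) ∈ (𝒮ℒ).strictPeriods := by
    have h1 : (1 : ℝ) ∈ (𝒮ℒ).strictPeriods := _root_.one_mem_strictPeriods_SL
    have := AddSubgroup.nsmul_mem _ h1 p
    simpa using this
  have hΓ1 : (1 : ℝ) ∈ (Subgroup.map (Matrix.SpecialLinearGroup.mapGL ℝ)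
      (Gamma0 p)).strictPeriods := by
    rw [Subgroup.strictPeriods_eq_zmultiples_one_of_T_mem (h19c_T_mem p)]
    exact AddSubgroup.mem_zmultiples 1
  -- the two expansions of the trace
  have e1 : ∀ τ : ℍ, HasSum (fun m : ℕ =>
      (if p ∣ m then PowerSeries.coeff (m / p) (qExpansion 1 (h19c_trForm p k F)) else 0) •
        qParam (p : ℝ) τ ^ m) (h19c_trForm p k F τ) := by
    intro τ
    simp only [smul_eq_mul]
    exact h19c_hasSum_expand p hp0
      (fun n => PowerSeries.coeff n (qExpansion 1 (h19c_trForm p k F))) τ _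
      (ModularForm.hasSum_qExpansion (f := h19c_trForm p k F) one_pos
        _root_.one_mem_strictPeriods_SL τ)
  have e2 : ∀ τ : ℍ, HasSum (fun m : ℕ =>
      ((if p ∣ m then PowerSeries.coeff (m / p) (qExpansion 1 F) else 0) +
        ∑ j ∈ Finset.range p, (Complex.exp (2 * Real.pi * Complex.I / p) ^ j) ^ m * B m) •
        qParam (p : ℝ) τ ^ m) (h19c_trForm p k F τ) := by
    intro τ
    rw [h19c_trForm_apply']
    simp only [smul_eq_mul, add_mul, Finset.sum_mul]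
    refine HasSum.add ?_ (hasSum_sum fun j _ => ?_)
    · exact h19c_hasSum_expand p hp0
        (fun n => PowerSeries.coeff n (qExpansion 1 F)) τ _
        (ModularForm.hasSum_qExpansion (f := F) one_pos hΓ1 τ)
    · have := hB ((j : ℝ) +ᵥ τ)
      rw [h19c_qParam_vadd] at this
      convert this using 2 with n
      rw [mul_pow]
      ring
  rw [ModularFormClass.qExpansion_coeff_unique hppos hper (f := h19c_trForm p k F) e1 m,
    ModularFormClass.qExpansion_coeff_unique hppos hper (f := h19c_trForm p k F) e2 m]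

end Expansion

end Fermat.Agent.S16.UB
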