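import Fermat.Agent.S16.Iface
import Fermat.Agent.S16.UB.H19Conj

/-!
# P-EIS (S16), AN-TRACE: the trace to level one on expansions (helper19)

`ifaceTrace p : IfaceTrace p`: if `(A, B)` is a form pair of weight `w` and level `Γ₀(p)`, the
trace `F + ∑_{j < p} F ∣ S T^j` is a modular form of level one whose `q`-expansion `N` satisfies
`N(t^p) = A(t^p) + ∑_{j < p} B(ζ^j t)`.
-/

set_option autoImplicit false

open UpperHalfPlane ModularForm ModularFormClass MatrixGroups CongruenceSubgroup

namespace Fermat.Agent.S16

/-- **AN-TRACE**: the trace to level one. -/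
theorem ifaceTrace (p : ℕ) [Fact p.Prime] : IfaceTrace p := by
  rintro w A B ⟨F, hA, hB⟩
  refine ⟨qExpansion 1 (UB.h19c_trForm p w F), ⟨UB.h19c_trForm p w F, rfl⟩, ?_⟩
  subst hA
  ext m
  have key := UB.h19c_trace_expansion F (fun n => PowerSeries.coeff n B) hB m
  simp only [expandPS, PowerSeries.coeff_mk, map_add, map_sum, PowerSeries.coeff_rescale, zetaP]
  exact key

end Fermat.Agent.S16
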