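import Fermat.Agent.S16.Iface

/-!
# P-EIS (S16), case file C7 (helper10): `NoH p ℓ` for `ℓ ≥ 7`

`Φ = p² H² - E₄` has the expansions `(p² A² - E₄, A'(t)² - E₄(t^p))` at the two cusps
(`A = qExp H = 1 + ℓ x`, `A' = U_p A`); modulo `ℓ` the second one is `(-240 S₃)(t^p)`, so the norm
argument gives `p² A² - E₄ ≡ 0` or `-240 S₃ ≡ 0` modulo `ℓ`; both are false at `q¹` since
`ℓ ∤ 240`.

The first part of the file is a small calculus of power series with coefficients in a subring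
`R ⊆ ℂ` modulo an ideal `I` (prefix `c7_`), reusable for the other case files.
-/

set_option autoImplicit false

open UpperHalfPlane ModularForm ModularFormClass MatrixGroups CongruenceSubgroup

namespace Fermat.Agent.S16

noncomputable section

/-! ## power series over `R` modulo `I` -/

/-- all coefficients of `A` lie in (the image of) the ideal `I` of `R`. -/
def c7_InI (R : Subring ℂ) (I : Ideal R) (A : PowerSeries ℂ) : Prop :=
  ∀ n : ℕ, ∃ r : R, r ∈ I ∧ PowerSeries.coeff n A = (r : ℂ)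

lemma c7_modI_iff (R : Subring ℂ) (I : Ideal R) (A B : PowerSeries ℂ) :
    ModI R I A B ↔ c7_InI R I (A - B) := by
  unfold ModI c7_InI
  simp only [map_sub]

lemma c7_InI.inR {R : Subring ℂ} {I : Ideal R} {A : PowerSeries ℂ} (h : c7_InI R I A) :
    InR R A := fun n => by
  obtain ⟨r, -, hr⟩ := h n
  rw [hr]
  exact r.2

lemma c7_inR_add {R : Subring ℂ} {A B : PowerSeries ℂ} (hA : InR R A) (hB : InR R B) :
    InR R (A + B) := fun n => by
  rw [map_add]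
  exact R.add_mem (hA n) (hB n)

lemma c7_inR_sub {R : Subring ℂ} {A B : PowerSeries ℂ} (hA : InR R A) (hB : InR R B) :
    InR R (A - B) := fun n => by
  rw [map_sub]
  exact R.sub_mem (hA n) (hB n)

lemma c7_inR_mul {R : Subring ℂ} {A B : PowerSeries ℂ} (hA : InR R A) (hB : InR R B) :
    InR R (A * B) := fun n => by
  rw [PowerSeries.coeff_mul]
  exact R.sum_mem fun x _ => R.mul_mem (hA _) (hB _)

lemma c7_inR_smul {R : Subring ℂ} {c : ℂ} {A : PowerSeries ℂ} (hc : c ∈ R) (hA : InR R A) :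
    InR R (c • A) := fun n => by
  rw [PowerSeries.coeff_smul, smul_eq_mul]
  exact R.mul_mem hc (hA n)

lemma c7_inR_one (R : Subring ℂ) : InR R (1 : PowerSeries ℂ) := fun n => by
  rw [PowerSeries.coeff_one]
  split_ifs
  · exact R.one_mem
  · exact R.zero_mem

lemma c7_inI_add {R : Subring ℂ} {I : Ideal R} {A B : PowerSeries ℂ} (hA : c7_InI R I A)
    (hB : c7_InI R I B) : c7_InI R I (A + B) := fun n => by
  obtain ⟨a, ha, ha'⟩ := hA n
  obtain ⟨b, hb, hb'⟩ := hB n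
  exact ⟨a + b, I.add_mem ha hb, by rw [map_add, ha', hb']; push_cast; rfl⟩

lemma c7_inI_mul_inR {R : Subring ℂ} {I : Ideal R} {A B : PowerSeries ℂ} (hA : c7_InI R I A)
    (hB : InR R B) : c7_InI R I (A * B) := fun n => by
  classical
  rw [PowerSeries.coeff_mul]
  choose a ha ha' using hA
  refine ⟨∑ x ∈ Finset.HasAntidiagonal.antidiagonal n, a x.1 * ⟨PowerSeries.coeff x.2 B, hB x.2⟩,
    I.sum_mem fun x _ => I.mul_mem_right _ (ha x.1), ?_⟩
  rw [← Subring.coe_subtype, map_sum]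
  refine Finset.sum_congr rfl fun x _ => ?_
  rw [map_mul, ha']
  rfl

lemma c7_inI_smul {R : Subring ℂ} {I : Ideal R} {c : ℂ} {A : PowerSeries ℂ} (hc : c ∈ R)
    (hA : c7_InI R I A) : c7_InI R I (c • A) := fun n => by
  obtain ⟨a, ha, ha'⟩ := hA n
  refine ⟨⟨c, hc⟩ * a, I.mul_mem_left _ ha, ?_⟩
  rw [PowerSeries.coeff_smul, smul_eq_mul, ha']
  rfl

/-! ## the formal operators -/

lemma c7_expandPS_add (p : ℕ) (A B : PowerSeries ℂ) :
    expandPS p (A + B) = expandPS p A + expandPS p B := by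
  ext n
  simp only [expandPS, PowerSeries.coeff_mk, map_add]
  split_ifs <;> simp

lemma c7_expandPS_smul (p : ℕ) (c : ℂ) (A : PowerSeries ℂ) :
    expandPS p (c • A) = c • expandPS p A := by
  ext n
  simp only [expandPS, PowerSeries.coeff_mk, PowerSeries.coeff_smul, smul_eq_mul]
  split_ifs <;> simp

lemma c7_expandPS_one (p : ℕ) (hp : 0 < p) : expandPS p (1 : PowerSeries ℂ) = 1 := by
  ext n
  simp only [expandPS, PowerSeries.coeff_mk, PowerSeries.coeff_one]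
  by_cases hn : n = 0
  · subst hn
    simp
  · by_cases hpn : p ∣ n
    · have h1 : n / p ≠ 0 := by
        obtain ⟨c, rfl⟩ := hpn
        rw [Nat.mul_div_cancel_left _ hp]
        rintro rfl
        exact hn (mul_zero p)
      simp [hpn, h1, hn]
    · simp [hpn, hn]

lemma c7_inR_UpPS {R : Subring ℂ} {p : ℕ} {A : PowerSeries ℂ} (hA : InR R A) :
    InR R (UpPS p A) := fun n => by
  simp only [UpPS, PowerSeries.coeff_mk]
  exact hA _

/-! ## the hypothesis of `NoH` -/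

/-- the coefficients `a_k`, `k ≥ 1`, of an `H` as in `NoH` lie in `I`. -/
lemma c7_coeff_mem {p ℓ : ℕ} {R : Subring ℂ} {I : Ideal R}
    (hinv : ∀ s : ℕ, ¬ ℓ ∣ s → ((s : ℂ)⁻¹) ∈ R) (hℓ : ((ℓ : ℕ) : R) ∈ I) {a : ℂ}
    (ha : ∃ (m : ℤ) (s : ℕ), ¬ ℓ ∣ s ∧ a = (ℓ : ℂ) ^ expB p ℓ * (m : ℂ) / (s : ℂ)) :
    ∃ r : R, r ∈ I ∧ a = (r : ℂ) := by
  obtain ⟨m, s, hs, rfl⟩ := ha
  refine ⟨((ℓ : ℕ) : R) * (((ℓ : ℕ) : R) ^ (expB p ℓ - 1) * ((m : ℤ) : R) * ⟨_, hinv s hs⟩),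
    I.mul_mem_right _ hℓ, ?_⟩
  have hb : expB p ℓ = (expB p ℓ - 1) + 1 := by
    unfold expB
    omega
  push_cast
  rw [div_eq_mul_inv]
  conv_lhs => rw [hb, pow_succ]
  ring

/-- `A ≡ 1` modulo `I` for the `q`-expansion `A` of an `H` as in `NoH`. -/
lemma c7_inI_sub_one {p ℓ : ℕ} {R : Subring ℂ} {I : Ideal R}
    (hinv : ∀ s : ℕ, ¬ ℓ ∣ s → ((s : ℂ)⁻¹) ∈ R) (hℓ : ((ℓ : ℕ) : R) ∈ I) {A : PowerSeries ℂ}
    (h0 : PowerSeries.coeff 0 A = 1)
    (hk : ∀ k : ℕ, 1 ≤ k → ∃ (m : ℤ) (s : ℕ), ¬ ℓ ∣ s ∧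
      PowerSeries.coeff k A = (ℓ : ℂ) ^ expB p ℓ * (m : ℂ) / (s : ℂ)) :
    c7_InI R I (A - 1) := fun n => by
  rcases Nat.eq_zero_or_pos n with rfl | hn
  · exact ⟨0, I.zero_mem, by rw [map_sub, h0, PowerSeries.coeff_one, if_pos rfl, sub_self]; rfl⟩
  · obtain ⟨r, hr, hr'⟩ := c7_coeff_mem (p := p) hinv hℓ (hk n hn)
    refine ⟨r, hr, ?_⟩
    rw [map_sub, hr', PowerSeries.coeff_one, if_neg (by omega), sub_zero]

/-- the same for `U_p A`. -/
lemma c7_inI_UpPS_sub_one {p : ℕ} (hp : 0 < p) {R : Subring ℂ} {I : Ideal R}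
    {A : PowerSeries ℂ} (h : c7_InI R I (A - 1)) : c7_InI R I (UpPS p A - 1) := fun n => by
  obtain ⟨r, hr, hr'⟩ := h (p * n)
  refine ⟨r, hr, ?_⟩
  rw [← hr']
  simp only [map_sub, UpPS, PowerSeries.coeff_mk, PowerSeries.coeff_one]
  have : (p * n = 0) ↔ (n = 0) := by
    constructor
    · intro h
      rcases Nat.mul_eq_zero.1 h with h | h
      · omega
      · exact h
    · rintro rfl
      rfl
  simp only [this]

lemma c7_inI_neg {R : Subring ℂ} {I : Ideal R} {A : PowerSeries ℂ} (hA : c7_InI R I A) :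
    c7_InI R I (-A) := fun n => by
  obtain ⟨a, ha, ha'⟩ := hA n
  exact ⟨-a, I.neg_mem ha, by rw [map_neg, ha']; push_cast; rfl⟩

lemma c7_inI_sub {R : Subring ℂ} {I : Ideal R} {A B : PowerSeries ℂ} (hA : c7_InI R I A)
    (hB : c7_InI R I B) : c7_InI R I (A - B) := by
  rw [sub_eq_add_neg]
  exact c7_inI_add hA (c7_inI_neg hB)

/-- a coefficient of a series in `I⟦q⟧` which is (the image of) `c ∈ R` lies in `I`. -/
lemma c7_mem_of_coeff {R : Subring ℂ} {I : Ideal R} {X : PowerSeries ℂ} (h : c7_InI R I X)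
    (n : ℕ) (c : R) (hc : PowerSeries.coeff n X = (c : ℂ)) : c ∈ I := by
  obtain ⟨r, hr, hr'⟩ := h n
  have : c = r := Subtype.ext (hc.symm.trans hr')
  rw [this]
  exact hr

lemma c7_natCast_mem (R : Subring ℂ) (n : ℕ) : (n : ℂ) ∈ R := natCast_mem R n

lemma c7_inR_SJ (R : Subring ℂ) (j : ℕ) : InR R (SJ j) := fun n => by
  simp only [SJ, PowerSeries.coeff_mk]
  exact natCast_mem R _

lemma c7_sigmaJ_zero (j : ℕ) : sigmaJ j 0 = 0 := by
  simp [sigmaJ]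

lemma c7_sigmaJ_one (j : ℕ) : sigmaJ j 1 = 1 := by
  simp [sigmaJ]

/-- a prime `ℓ ≥ 7` is prime to `240`. -/
lemma c7_coprime_240 {ℓ : ℕ} (hℓ : ℓ.Prime) (h7 : 7 ≤ ℓ) : Nat.Coprime 240 ℓ := by
  rw [Nat.coprime_comm, Nat.Prime.coprime_iff_not_dvd hℓ]
  intro h
  have h240 : (240 : ℕ) = 2 ^ 4 * 3 * 5 := by norm_num
  rw [h240] at h
  rcases (Nat.Prime.dvd_mul hℓ).1 h with h | h
  · rcases (Nat.Prime.dvd_mul hℓ).1 h with h | h
    · have := Nat.le_of_dvd (by norm_num) (hℓ.dvd_of_dvd_pow h)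
      omega
    · have := Nat.le_of_dvd (by norm_num) h
      omega
  · have := Nat.le_of_dvd (by norm_num) h
    omega

/-- a prime ideal containing `ℓ` contains no natural number prime to `ℓ`. -/
lemma c7_false_of_natCast_mem {R : Subring ℂ} {I : Ideal R} (hI : I.IsPrime) {ℓ c : ℕ}
    (hc : Nat.Coprime c ℓ) (hℓ : ((ℓ : ℕ) : R) ∈ I) (hcI : ((c : ℕ) : R) ∈ I) : False := by
  apply hI.ne_top
  rw [Ideal.eq_top_iff_one]
  obtain ⟨u, v, huv⟩ := Nat.Coprime.isCoprime hc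
  have h1 : (1 : R) = (u : R) * ((c : ℕ) : R) + (v : R) * ((ℓ : ℕ) : R) := by
    have := congrArg (Int.cast : ℤ → R) huv
    push_cast at this
    exact this.symm
  rw [h1]
  exact I.add_mem (I.mul_mem_left _ hcI) (I.mul_mem_left _ hℓ)

/-! ## the case `ℓ ≥ 7` -/

/-- **C7**: `NoH p ℓ` for `ℓ ≥ 7`. -/
theorem noH_c7 (p ℓ : ℕ) [Fact p.Prime] [Fact ℓ.Prime] (hp : 5 ≤ p) (hℓ : 7 ≤ ℓ)
    (hE : IfaceExp p) (h0 : IfaceT0 p) (hA : IfaceAlg p) (hR : IfaceRing p ℓ)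
    (hN : IfaceNormArg p) (hL : IfaceLV1) : NoH p ℓ := by
  rintro ⟨H, hH0, hHk⟩
  obtain ⟨R, I, hI, hζ, hinv, hℓI⟩ := hR
  obtain ⟨hE4, -, -, -⟩ := hL
  obtain ⟨B, hB⟩ := hE 2 H
  have hpair : FormPair p 2 (qExpansion 1 H) B := ⟨H, rfl, hB⟩
  obtain ⟨hBeq, -⟩ := h0 _ B hpair
  obtain ⟨hmul, hadd, hsmul, hlev⟩ := hA
  have hp0 : (p : ℂ) ≠ 0 := by
    have : p ≠ 0 := by omega
    exact_mod_cast this
  -- notation
  generalize hAdef : qExpansion 1 (H : ℍ → ℂ) = A at hH0 hHk hpair hBeq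
  -- the form pair of `Φ = p² H² - E₄`
  have h1 : FormPair p 4 (A * A) (B * B) := hmul 2 2 A B A B hpair hpair
  have h2 : FormPair p 4 (((p : ℂ) ^ 2) • (A * A)) (((p : ℂ) ^ 2) • (B * B)) :=
    hsmul 4 _ _ _ h1
  have h3 : FormPair p 4 (qExpansion 1 E₄) (expandPS p (qExpansion 1 E₄)) :=
    hlev 4 _ ⟨E₄, rfl⟩
  have h4 : FormPair p 4 ((-1 : ℂ) • qExpansion 1 E₄)
      ((-1 : ℂ) • expandPS p (qExpansion 1 E₄)) := hsmul 4 _ _ _ h3
  have h5 := hadd 4 _ _ _ _ h2 h4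
  -- `A ≡ 1`, `U_p A ≡ 1`
  have hA1 : c7_InI R I (A - 1) := c7_inI_sub_one (p := p) hinv hℓI hH0 hHk
  have hA'1 : c7_InI R I (UpPS p A - 1) := c7_inI_UpPS_sub_one (by omega) hA1
  have hAR : InR R A := by
    have := c7_inR_add hA1.inR (c7_inR_one R)
    simpa using this
  have hA'R : InR R (UpPS p A) := c7_inR_UpPS hAR
  have hpR : ((p : ℂ) ^ 2) ∈ R := R.pow_mem (c7_natCast_mem R p) 2
  have h240R : (240 : ℂ) ∈ R := by exact_mod_cast c7_natCast_mem R 240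
  have hm1R : (-1 : ℂ) ∈ R := R.neg_mem R.one_mem
  have hE4R : InR R (qExpansion 1 E₄) := by
    rw [hE4]
    exact c7_inR_add (c7_inR_one R) (c7_inR_smul h240R (c7_inR_SJ R 3))
  -- the expansion at the cusp `0`
  have hBB : ((p : ℂ) ^ 2) • (B * B) = UpPS p A * UpPS p A := by
    rw [hBeq, smul_mul_smul_comm, smul_smul]
    have : (p : ℂ) ^ 2 * (-(p : ℂ)⁻¹ * -(p : ℂ)⁻¹) = 1 := by
      field_simp
    rw [this, one_smul]
  have hexp : expandPS p (qExpansion 1 E₄) = 1 + (240 : ℂ) • expandPS p (SJ 3) := by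
    rw [hE4, c7_expandPS_add, c7_expandPS_one p (by omega), c7_expandPS_smul]
  rw [hBB, hexp] at h5
  -- the hypotheses of the norm argument
  have hAΦR : InR R (((p : ℂ) ^ 2) • (A * A) + (-1 : ℂ) • qExpansion 1 E₄) :=
    c7_inR_add (c7_inR_smul hpR (c7_inR_mul hAR hAR)) (c7_inR_smul hm1R hE4R)
  have hexpSJ : InR R (expandPS p (SJ 3)) := fun n => by
    simp only [expandPS, PowerSeries.coeff_mk]
    split_ifs
    · exact c7_inR_SJ R 3 _
    · exact R.zero_mem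
  have hBΦR : InR R (UpPS p A * UpPS p A + (-1 : ℂ) • (1 + (240 : ℂ) • expandPS p (SJ 3))) :=
    c7_inR_add (c7_inR_mul hA'R hA'R)
      (c7_inR_smul hm1R (c7_inR_add (c7_inR_one R) (c7_inR_smul h240R hexpSJ)))
  have hsR : InR R ((-240 : ℂ) • SJ 3) := c7_inR_smul (R.neg_mem h240R) (c7_inR_SJ R 3)
  have hs0 : ∃ r : R, r ∈ I ∧ PowerSeries.coeff 0 ((-240 : ℂ) • SJ 3) = (r : ℂ) := by
    refine ⟨0, I.zero_mem, ?_⟩
    rw [PowerSeries.coeff_smul]
    simp [SJ, c7_sigmaJ_zero]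
  have hmod : ModI R I (UpPS p A * UpPS p A + (-1 : ℂ) • (1 + (240 : ℂ) • expandPS p (SJ 3)))
      (expandPS p ((-240 : ℂ) • SJ 3)) := by
    rw [c7_modI_iff, c7_expandPS_smul]
    have e : UpPS p A * UpPS p A + (-1 : ℂ) • (1 + (240 : ℂ) • expandPS p (SJ 3)) -
        (-240 : ℂ) • expandPS p (SJ 3) = (UpPS p A - 1) * (UpPS p A + 1) := by
      have e1 : (UpPS p A - 1) * (UpPS p A + 1) = UpPS p A * UpPS p A - 1 := by ring
      rw [e1]
      module
    rw [e]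
    exact c7_inI_mul_inR hA'1 (c7_inR_add hA'R (c7_inR_one R))
  have h240I : ((240 : ℕ) : R) ∉ I := fun h =>
    c7_false_of_natCast_mem hI (c7_coprime_240 (Fact.out : ℓ.Prime) hℓ) hℓI h
  rcases hN (by omega) R I hI hζ 4 _ _ _ (by norm_num) (by norm_num) h5 hAΦR hBΦR hsR hs0 hmod
    with hcase | hcase
  · -- `p² A² - E₄ ≡ 0`
    rw [c7_modI_iff, sub_zero] at hcase
    -- `p² A² - E₄ ≡ p² - E₄`
    have hdiff : c7_InI R I (((p : ℂ) ^ 2) • ((A - 1) * (A + 1))) :=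
      c7_inI_smul hpR (c7_inI_mul_inR hA1 (c7_inR_add hAR (c7_inR_one R)))
    have hrest := c7_inI_sub hcase hdiff
    have hmem := c7_mem_of_coeff hrest 1 (-((240 : ℕ) : R)) (by
      rw [hE4]
      have e : ((p : ℂ) ^ 2) • (A * A) + (-1 : ℂ) • (1 + (240 : ℂ) • SJ 3) -
          ((p : ℂ) ^ 2) • ((A - 1) * (A + 1)) = ((p : ℂ) ^ 2 - 1) • (1 : PowerSeries ℂ) +
            (-240 : ℂ) • SJ 3 := by
        have e1 : (A - 1) * (A + 1) = A * A - 1 := by ring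
        rw [e1]
        module
      rw [e, map_add, PowerSeries.coeff_smul, PowerSeries.coeff_smul, PowerSeries.coeff_one]
      have hc : ((-((240 : ℕ) : R) : R) : ℂ) = -240 := by
        rw [Subring.coe_neg, Subring.coe_natCast]
        norm_num
      rw [hc]
      simp [SJ, c7_sigmaJ_one])
    exact h240I (by simpa using I.neg_mem hmem)
  · -- `-240 S₃ ≡ 0`
    rw [c7_modI_iff, sub_zero] at hcase
    have hmem := c7_mem_of_coeff hcase 1 (-((240 : ℕ) : R)) (by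
      rw [PowerSeries.coeff_smul]
      have hc : ((-((240 : ℕ) : R) : R) : ℂ) = -240 := by
        rw [Subring.coe_neg, Subring.coe_natCast]
        norm_num
      rw [hc]
      simp [SJ, c7_sigmaJ_one])
    exact h240I (by simpa using I.neg_mem hmem)

end

end Fermat.Agent.S16
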