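import Fermat.Agent.S16.Iface

/-!
# P-EIS (S16), row 37 (C-I2): arithmetic core for the case files `C3A`, `C2A`

* `CI2.Zl ℓ` : the subring of `ℂ` of `ℓ`-integral rational numbers `m / s`, `ℓ ∤ s`;
* `CI2.Jl ℓ k` : the additive subgroup `ℓ^k · Zl ℓ`;
* power series with coefficients in `Zl ℓ` / `Jl ℓ k`;
* the Frobenius congruence `X² ≡ X(q²) mod 2` for power series with `2`-integral coefficients.
-/

set_option autoImplicit false

open PowerSeries UpperHalfPlane ModularForm ModularFormClass MatrixGroups CongruenceSubgroup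

namespace Fermat.Agent.S16.CI2

/-- The subring of `ℂ` of `ℓ`-integral rational numbers. -/
def Zl (ℓ : ℕ) [hℓ : Fact ℓ.Prime] : Subring ℂ where
  carrier := {x | ∃ (m : ℤ) (s : ℕ), ¬ ℓ ∣ s ∧ x = (m : ℂ) / (s : ℂ)}
  mul_mem' := by
    rintro x y ⟨m, s, hs, rfl⟩ ⟨m', s', hs', rfl⟩
    refine ⟨m * m', s * s', ?_, ?_⟩
    · intro h
      rcases (Nat.Prime.dvd_mul hℓ.out).mp h with h | h
      · exact hs h
      · exact hs' h
    · push_cast
      rw [div_mul_div_comm]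
  one_mem' := ⟨1, 1, by simpa using hℓ.out.one_lt.ne', by simp⟩
  add_mem' := by
    rintro x y ⟨m, s, hs, rfl⟩ ⟨m', s', hs', rfl⟩
    refine ⟨m * s' + m' * s, s * s', ?_, ?_⟩
    · intro h
      rcases (Nat.Prime.dvd_mul hℓ.out).mp h with h | h
      · exact hs h
      · exact hs' h
    · have h1 : (s : ℂ) ≠ 0 := by
        have : s ≠ 0 := fun h => hs (h ▸ dvd_zero ℓ)
        exact_mod_cast this
      have h2 : (s' : ℂ) ≠ 0 := by
        have : s' ≠ 0 := fun h => hs' (h ▸ dvd_zero ℓ)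
        exact_mod_cast this
      push_cast
      field_simp
  zero_mem' := ⟨0, 1, by simpa using hℓ.out.one_lt.ne', by simp⟩
  neg_mem' := by
    rintro x ⟨m, s, hs, rfl⟩
    exact ⟨-m, s, hs, by push_cast; rw [neg_div]⟩

variable (ℓ : ℕ) [hℓ : Fact ℓ.Prime]

theorem mem_Zl_iff (x : ℂ) :
    x ∈ Zl ℓ ↔ ∃ (m : ℤ) (s : ℕ), ¬ ℓ ∣ s ∧ x = (m : ℂ) / (s : ℂ) := Iff.rfl

theorem intCast_mem_Zl (m : ℤ) : (m : ℂ) ∈ Zl ℓ := intCast_mem (Zl ℓ) m

theorem natCast_mem_Zl (m : ℕ) : (m : ℂ) ∈ Zl ℓ := natCast_mem (Zl ℓ) m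

/-- The additive subgroup `ℓ^k · Zl ℓ` of `ℂ`. -/
def Jl (k : ℕ) : AddSubgroup ℂ where
  carrier := {x | ∃ y ∈ Zl ℓ, x = (ℓ : ℂ) ^ k * y}
  add_mem' := by
    rintro x y ⟨a, ha, rfl⟩ ⟨b, hb, rfl⟩
    exact ⟨a + b, add_mem ha hb, by ring⟩
  zero_mem' := ⟨0, zero_mem _, by ring⟩
  neg_mem' := by
    rintro x ⟨a, ha, rfl⟩
    exact ⟨-a, neg_mem ha, by ring⟩

theorem mem_Jl_iff (k : ℕ) (x : ℂ) : x ∈ Jl ℓ k ↔ ∃ y ∈ Zl ℓ, x = (ℓ : ℂ) ^ k * y := Iff.rfl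

theorem Jl_zero_iff (x : ℂ) : x ∈ Jl ℓ 0 ↔ x ∈ Zl ℓ := by
  rw [mem_Jl_iff]
  constructor
  · rintro ⟨y, hy, rfl⟩
    simpa using hy
  · intro h
    exact ⟨x, h, by simp⟩

theorem mul_mem_Jl {a b : ℕ} {x y : ℂ} (hx : x ∈ Jl ℓ a) (hy : y ∈ Jl ℓ b) :
    x * y ∈ Jl ℓ (a + b) := by
  obtain ⟨u, hu, rfl⟩ := hx
  obtain ⟨v, hv, rfl⟩ := hy
  exact ⟨u * v, mul_mem hu hv, by ring⟩

theorem Zl_mul_mem_Jl {k : ℕ} {z x : ℂ} (hz : z ∈ Zl ℓ) (hx : x ∈ Jl ℓ k) :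
    z * x ∈ Jl ℓ k := by
  obtain ⟨u, hu, rfl⟩ := hx
  exact ⟨z * u, mul_mem hz hu, by ring⟩

theorem Jl_mono {a b : ℕ} (h : a ≤ b) : Jl ℓ b ≤ Jl ℓ a := by
  rintro x ⟨u, hu, rfl⟩
  obtain ⟨c, rfl⟩ := Nat.exists_eq_add_of_le h
  exact ⟨(ℓ : ℂ) ^ c * u, mul_mem (pow_mem (natCast_mem_Zl ℓ ℓ) c) hu, by ring⟩

theorem Jl_le_Zl {k : ℕ} {x : ℂ} (hx : x ∈ Jl ℓ k) : x ∈ Zl ℓ :=
  (Jl_zero_iff ℓ x).mp (Jl_mono ℓ (Nat.zero_le k) hx)

theorem pow_mul_mem_Jl {k : ℕ} {y : ℂ} (hy : y ∈ Zl ℓ) : (ℓ : ℂ) ^ k * y ∈ Jl ℓ k :=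
  ⟨y, hy, rfl⟩

/-- An integer lies in `ℓ^k · Zl ℓ` iff it is divisible by `ℓ^k`. -/
theorem intCast_mem_Jl_iff (k : ℕ) (N : ℤ) : (N : ℂ) ∈ Jl ℓ k ↔ (ℓ : ℤ) ^ k ∣ N := by
  constructor
  · rintro ⟨y, ⟨m, s, hs, rfl⟩, h⟩
    have hs0 : (s : ℂ) ≠ 0 := by
      have : s ≠ 0 := fun h => hs (h ▸ dvd_zero ℓ)
      exact_mod_cast this
    have h1 : (N : ℂ) * (s : ℂ) = (ℓ : ℂ) ^ k * (m : ℂ) := by
      rw [h]; field_simp
    have h2 : N * (s : ℤ) = (ℓ : ℤ) ^ k * m := by exact_mod_cast h1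
    have hcop : IsCoprime ((ℓ : ℤ) ^ k) (s : ℤ) := by
      apply IsCoprime.pow_left
      rw [Int.isCoprime_iff_gcd_eq_one, Int.gcd_natCast_natCast]
      exact (Nat.Prime.coprime_iff_not_dvd hℓ.out).mpr hs
    exact hcop.dvd_of_dvd_mul_right ⟨m, h2⟩
  · rintro ⟨c, rfl⟩
    exact ⟨c, intCast_mem_Zl ℓ c, by push_cast; ring⟩

/-- Inverses of integers prime to `ℓ` are `ℓ`-integral. -/
theorem inv_natCast_mem_Zl {s : ℕ} (hs : ¬ ℓ ∣ s) : ((s : ℂ))⁻¹ ∈ Zl ℓ :=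
  ⟨1, s, hs, by simp⟩

/-- Division by an integer prime to `ℓ` preserves `ℓ^k · Zl ℓ`. -/
theorem div_natCast_mem_Jl {k : ℕ} {x : ℂ} {s : ℕ} (hs : ¬ ℓ ∣ s)
    (hx : (s : ℂ) * x ∈ Jl ℓ k) : x ∈ Jl ℓ k := by
  have hs0 : (s : ℂ) ≠ 0 := by
    have : s ≠ 0 := fun h => hs (h ▸ dvd_zero ℓ)
    exact_mod_cast this
  have := Zl_mul_mem_Jl ℓ (inv_natCast_mem_Zl ℓ hs) hx
  rwa [← mul_assoc, inv_mul_cancel₀ hs0, one_mul] at this

/-! ## Power series with restricted coefficients -/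

/-- all coefficients are `ℓ`-integral rationals -/
def PSZ (X : PowerSeries ℂ) : Prop := ∀ n : ℕ, coeff n X ∈ Zl ℓ

/-- all coefficients lie in `ℓ^k · Zl ℓ` -/
def PSJ (k : ℕ) (X : PowerSeries ℂ) : Prop := ∀ n : ℕ, coeff n X ∈ Jl ℓ k

variable {ℓ}

theorem PSZ.mul {X Y : PowerSeries ℂ} (hX : PSZ ℓ X) (hY : PSZ ℓ Y) : PSZ ℓ (X * Y) := by
  intro n
  rw [coeff_mul]
  exact sum_mem fun x _ => mul_mem (hX x.1) (hY x.2)

theorem PSZ.pow {X : PowerSeries ℂ} (hX : PSZ ℓ X) (n : ℕ) : PSZ ℓ (X ^ n) := by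
  induction n with
  | zero =>
    intro k
    rw [pow_zero, coeff_one]
    split_ifs
    · exact one_mem _
    · exact zero_mem _
  | succ n ih => rw [pow_succ]; exact ih.mul hX

theorem coeff_UpPS (p : ℕ) (A : PowerSeries ℂ) (n : ℕ) :
    coeff n (UpPS p A) = coeff (p * n) A := by
  simp [UpPS]

theorem PSZ.UpPS {X : PowerSeries ℂ} (p : ℕ) (hX : PSZ ℓ X) : PSZ ℓ (UpPS p X) := fun n => by
  rw [coeff_UpPS]; exact hX _

theorem PSJ.mul {a b : ℕ} {X Y : PowerSeries ℂ} (hX : PSJ ℓ a X) (hY : PSJ ℓ b Y) :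
    PSJ ℓ (a + b) (X * Y) := by
  intro n
  rw [coeff_mul]
  exact sum_mem fun x _ => mul_mem_Jl ℓ (hX x.1) (hY x.2)

/-- If `A ≡ 1 mod ℓ^k` then `A² ≡ 1 + 2 (A - 1) mod ℓ^(2k)`, coefficientwise. -/
theorem coeff_sq_sub {k : ℕ} {A : PowerSeries ℂ} (h0 : coeff 0 A = 1)
    (hA : ∀ n : ℕ, 1 ≤ n → coeff n A ∈ Jl ℓ k) {n : ℕ} (hn : 1 ≤ n) :
    coeff n (A ^ 2) - 2 * coeff n A ∈ Jl ℓ (k + k) := by
  have hY : PSJ ℓ k (A - 1) := by
    intro m
    rcases Nat.eq_zero_or_pos m with rfl | hm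
    · rw [map_sub, h0, coeff_zero_one, sub_self]; exact zero_mem _
    · rw [map_sub, coeff_one, if_neg (Nat.pos_iff_ne_zero.mp hm), sub_zero]; exact hA m hm
  have hYY := hY.mul hY n
  have e : A ^ 2 = 1 + ((A - 1) + (A - 1)) + (A - 1) * (A - 1) := by ring
  have hn0 : n ≠ 0 := Nat.pos_iff_ne_zero.mp hn
  have e2 : coeff n (A ^ 2) - 2 * coeff n A = coeff n ((A - 1) * (A - 1)) := by
    rw [e]
    simp only [map_add, map_sub, coeff_one, if_neg hn0]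
    ring
  rw [e2]; exact hYY

theorem sigmaJ_one (j : ℕ) : sigmaJ j 1 = 1 := by
  simp [sigmaJ]

theorem sigmaJ_prime (j : ℕ) {p : ℕ} (hp : p.Prime) : sigmaJ j p = 1 + p ^ j := by
  rw [sigmaJ, Nat.Prime.divisors hp, Finset.sum_pair hp.one_lt.ne]
  simp

theorem coeff_rhs (c : ℂ) (n : ℕ) (hn : 1 ≤ n) :
    coeff n (c • (1 + (240 : ℂ) • SJ 3)) = c * (240 * (sigmaJ 3 n : ℂ)) := by
  have hn0 : n ≠ 0 := Nat.pos_iff_ne_zero.mp hn
  simp [SJ, coeff_one, hn0]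

/-- **Final step of the (I2) argument**: if `A ≡ 1 mod ℓ^k` and `ℓ^(2k) ∤ 240 (p+1) p³`, the two
instances of (I2) (for `A` and `U_p A`) are contradictory. -/
theorem ci2_final (k : ℕ) (p : ℕ) [hp : Fact p.Prime] (A : PowerSeries ℂ)
    (h0 : coeff 0 A = 1) (hA : ∀ n : ℕ, 1 ≤ n → coeff n A ∈ Jl ℓ k)
    (hUU : UpPS p (UpPS p A) = A)
    (hI1 : (p : ℂ) • A ^ 2 + UpPS p ((UpPS p A) ^ 2) =
      (((p : ℂ) + 1) * (coeff 0 A) ^ 2) • (1 + (240 : ℂ) • SJ 3))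
    (hI2 : (p : ℂ) • (UpPS p A) ^ 2 + UpPS p ((UpPS p (UpPS p A)) ^ 2) =
      (((p : ℂ) + 1) * (coeff 0 (UpPS p A)) ^ 2) • (1 + (240 : ℂ) • SJ 3))
    (hnd : ¬ (ℓ : ℤ) ^ (k + k) ∣ 240 * ((p : ℤ) + 1) * (p : ℤ) ^ 3) : False := by
  have hp1 : 1 ≤ p := hp.out.one_lt.le
  have h0' : coeff 0 (UpPS p A) = 1 := by rw [coeff_UpPS, mul_zero, h0]
  have hA' : ∀ n : ℕ, 1 ≤ n → coeff n (UpPS p A) ∈ Jl ℓ k := fun n hn => by
    rw [coeff_UpPS]; exact hA _ (Nat.one_le_iff_ne_zero.mpr (Nat.mul_ne_zero (by omega) (by omega)))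
  have hUUc : ∀ n, coeff (p * (p * n)) A = coeff n A := fun n => by
    conv_rhs => rw [← hUU]
    rw [coeff_UpPS, coeff_UpPS]
  rw [hUU, h0'] at hI2
  rw [h0] at hI1
  -- coefficient `p` of the first identity, coefficient `1` of the second
  have e1 := congrArg (coeff p) hI1
  have e2 := congrArg (coeff 1) hI2
  rw [map_add, coeff_smul, coeff_UpPS, coeff_rhs _ _ hp1, smul_eq_mul, sigmaJ_prime 3 hp.out] at e1
  rw [map_add, coeff_smul, coeff_UpPS, coeff_rhs _ _ le_rfl, smul_eq_mul, sigmaJ_one] at e2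
  have r1 := coeff_sq_sub h0 hA hp1
  have r2 := coeff_sq_sub h0' hA' (n := p * p) (Nat.one_le_iff_ne_zero.mpr
    (Nat.mul_ne_zero (by omega) (by omega)))
  have r3 := coeff_sq_sub h0' hA' (n := 1) le_rfl
  have r4 := coeff_sq_sub h0 hA (n := p * 1) (by omega)
  rw [coeff_UpPS, hUUc] at r2
  rw [coeff_UpPS] at r3
  have hpZ : (p : ℂ) ∈ Zl ℓ := natCast_mem_Zl ℓ p
  have key : ((240 * ((p : ℤ) + 1) * (p : ℤ) ^ 3 : ℤ) : ℂ) ∈ Jl ℓ (k + k) := by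
    have hsum := sub_mem (add_mem (Zl_mul_mem_Jl ℓ hpZ r1) r2)
      (add_mem (Zl_mul_mem_Jl ℓ hpZ r3) r4)
    simp only [mul_one] at hsum e2
    push_cast at e1 e2
    convert hsum using 1
    push_cast
    linear_combination e2 - e1
  exact hnd ((intCast_mem_Jl_iff ℓ (k + k) _).mp key)

/-- `x² ≡ x mod 2` for `2`-integral rationals. -/
theorem sq_sub_self_mem {x : ℂ} (hx : x ∈ Zl 2) : x ^ 2 - x ∈ Jl 2 1 := by
  obtain ⟨m, s, hs, rfl⟩ := hx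
  have hs0 : (s : ℂ) ≠ 0 := by
    have : s ≠ 0 := fun h => hs (h ▸ dvd_zero 2)
    exact_mod_cast this
  have hsodd : Odd (s : ℤ) := by
    rw [← Int.not_even_iff_odd, even_iff_two_dvd]
    intro h
    exact hs (by exact_mod_cast h)
  have h2 : (2 : ℤ) ∣ m * (m - s) := by
    rcases Int.even_or_odd m with hm | hm
    · exact (even_iff_two_dvd.mp hm).mul_right _
    · exact (even_iff_two_dvd.mp (hm.sub_odd hsodd)).mul_left _
  obtain ⟨c, hc⟩ := h2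
  refine ⟨(c : ℂ) / ((s * s : ℕ) : ℂ), ⟨c, s * s, ?_, rfl⟩, ?_⟩
  · intro h
    rcases (Nat.Prime.dvd_mul Nat.prime_two).mp h with h | h <;> exact hs h
  · have hc' : (m : ℂ) * ((m : ℂ) - (s : ℂ)) = 2 * (c : ℂ) := by exact_mod_cast hc
    push_cast
    field_simp
    linear_combination hc'

/-- **Frobenius mod 2** for power series with `2`-integral coefficients:
`X² ≡ X(q²) mod 2`. -/
theorem frob_two {X : PowerSeries ℂ} (hX : PSZ 2 X) (n : ℕ) :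
    coeff n (X ^ 2) - (if 2 ∣ n then coeff (n / 2) X else 0) ∈ Jl 2 1 := by
  classical
  rw [pow_two, coeff_mul]
  set f : ℕ × ℕ → ℂ := fun x => coeff x.1 X * coeff x.2 X with hf
  rw [← Finset.sum_filter_add_sum_filter_not (Finset.HasAntidiagonal.antidiagonal n) (fun x => x.1 = x.2)]
  -- off-diagonal part
  have hoff : ∑ x ∈ (Finset.HasAntidiagonal.antidiagonal n).filter (fun x => ¬ x.1 = x.2), f x ∈ Jl 2 1 := by
    rw [← QuotientAddGroup.eq_zero_iff]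
    change QuotientAddGroup.mk' (Jl 2 1) _ = 0
    rw [map_sum]
    refine Finset.sum_involution (fun x _ => x.swap) ?_ ?_ ?_ ?_
    · intro x hx
      rw [← map_add]
      change ((f x + f x.swap : ℂ) : ℂ ⧸ Jl 2 1) = 0
      rw [QuotientAddGroup.eq_zero_iff]
      refine ⟨f x, mul_mem (hX _) (hX _), ?_⟩
      simp only [hf, Prod.fst_swap, Prod.snd_swap]
      ring
    · intro x hx _ h
      rw [Finset.mem_filter] at hx
      apply hx.2
      have := congrArg Prod.fst h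
      simpa using this.symm
    · intro x hx
      rw [Finset.mem_filter] at hx ⊢
      refine ⟨?_, ?_⟩
      · have h1 := hx.1
        rw [Finset.HasAntidiagonal.mem_antidiagonal] at h1 ⊢
        simp only [Prod.fst_swap, Prod.snd_swap]
        omega
      simp only [Prod.fst_swap, Prod.snd_swap]
      exact fun h => hx.2 h.symm
    · intro x hx
      exact Prod.swap_swap x
  -- diagonal part
  have hdiag : ∑ x ∈ (Finset.HasAntidiagonal.antidiagonal n).filter (fun x => x.1 = x.2), f x -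
      (if 2 ∣ n then coeff (n / 2) X else 0) ∈ Jl 2 1 := by
    by_cases h2 : 2 ∣ n
    · have hfil : (Finset.HasAntidiagonal.antidiagonal n).filter (fun x => x.1 = x.2) = {(n / 2, n / 2)} := by
        ext ⟨i, j⟩
        simp only [Finset.mem_filter, Finset.HasAntidiagonal.mem_antidiagonal, Finset.mem_singleton,
          Prod.mk.injEq]
        omega
      rw [hfil, Finset.sum_singleton, if_pos h2]
      have := sq_sub_self_mem (hX (n / 2))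
      simpa [hf, pow_two] using this
    · have hfil : (Finset.HasAntidiagonal.antidiagonal n).filter (fun x => x.1 = x.2) = ∅ := by
        ext ⟨i, j⟩
        simp only [Finset.mem_filter, Finset.HasAntidiagonal.mem_antidiagonal, Finset.notMem_empty, iff_false,
          not_and]
        omega
      rw [hfil, Finset.sum_empty, if_neg h2, sub_zero]
      exact zero_mem _
  have := add_mem hdiag hoff
  convert this using 1
  ring

/-- From `A ≡ 1 mod 4` to `A ≡ 1 mod 8` (case `ℓ = 2`, `p ≡ 1 mod 4`), using (I2) and the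
Frobenius congruence. -/
theorem c2a_step (p : ℕ) [hp : Fact p.Prime] (hp4 : p % 4 = 1) (A : PowerSeries ℂ)
    (h0 : coeff 0 A = 1) (hA : ∀ n : ℕ, 1 ≤ n → coeff n A ∈ Jl 2 2)
    (hUU : UpPS p (UpPS p A) = A)
    (hI1 : (p : ℂ) • A ^ 2 + UpPS p ((UpPS p A) ^ 2) =
      (((p : ℂ) + 1) * (coeff 0 A) ^ 2) • (1 + (240 : ℂ) • SJ 3)) :
    ∀ n : ℕ, 1 ≤ n → coeff n A ∈ Jl 2 3 := by
  have hp1 : 1 ≤ p := hp.out.one_lt.le
  have hp0 : p ≠ 0 := hp.out.ne_zero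
  have hUUc : ∀ n, coeff (p * (p * n)) A = coeff n A := fun n => by
    conv_rhs => rw [← hUU]
    rw [coeff_UpPS, coeff_UpPS]
  -- the series `X = (A - 1)/4`
  set X : PowerSeries ℂ := PowerSeries.mk fun n => if n = 0 then 0 else coeff n A / 4 with hXdef
  have hX0 : coeff 0 X = 0 := by simp [hXdef]
  have hXn : ∀ n, 1 ≤ n → coeff n X = coeff n A / 4 := fun n hn => by
    simp [hXdef, Nat.pos_iff_ne_zero.mp hn]
  have hXZ : PSZ 2 X := by
    intro n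
    rcases Nat.eq_zero_or_pos n with rfl | hn
    · rw [hX0]; exact zero_mem _
    · rw [hXn n hn]
      obtain ⟨y, hy, h⟩ := hA n hn
      rw [h]
      have : ((2 : ℕ) : ℂ) ^ 2 * y / 4 = y := by push_cast; ring
      rw [this]; exact hy
  have hAX : A = 1 + (4 : ℂ) • X := by
    ext n
    rcases Nat.eq_zero_or_pos n with rfl | hn
    · rw [map_add, coeff_smul, hX0, coeff_zero_one, h0]; simp
    · rw [map_add, coeff_smul, hXn n hn, coeff_one, if_neg (Nat.pos_iff_ne_zero.mp hn)]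
      simp only [smul_eq_mul]
      ring
  have hAX' : UpPS p A = 1 + (4 : ℂ) • UpPS p X := by
    ext n
    rcases Nat.eq_zero_or_pos n with rfl | hn
    · rw [map_add, coeff_smul, coeff_UpPS, coeff_UpPS, mul_zero, hX0, coeff_zero_one, h0]; simp
    · have hpn : 1 ≤ p * n := Nat.one_le_iff_ne_zero.mpr (Nat.mul_ne_zero hp0 (by omega))
      rw [map_add, coeff_smul, coeff_UpPS, coeff_UpPS, hXn _ hpn, coeff_one,
        if_neg (Nat.pos_iff_ne_zero.mp hn)]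
      simp only [smul_eq_mul]
      ring
  have hsq : ∀ Z : PowerSeries ℂ, (1 + (4 : ℂ) • Z) ^ 2 = 1 + (8 : ℂ) • Z + (16 : ℂ) • Z ^ 2 := by
    intro Z
    simp only [Algebra.smul_def, map_ofNat]
    ring
  have hXUU : ∀ n, 1 ≤ n → coeff (p * (p * n)) X = coeff n X := fun n hn => by
    have hpn : 1 ≤ p * (p * n) := Nat.one_le_iff_ne_zero.mpr
      (Nat.mul_ne_zero hp0 (Nat.mul_ne_zero hp0 (by omega)))
    rw [hXn _ hpn, hXn _ hn, hUUc]
  intro n hn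
  have hn0 : n ≠ 0 := Nat.pos_iff_ne_zero.mp hn
  have hpn0 : p * n ≠ 0 := Nat.mul_ne_zero hp0 hn0
  -- coefficient `n` of (I2)
  have e1 := congrArg (coeff n) hI1
  rw [h0, hAX', hsq, map_add, coeff_smul, coeff_UpPS, coeff_rhs _ _ hn, smul_eq_mul] at e1
  nth_rewrite 1 [hAX] at e1
  rw [hsq] at e1
  simp only [map_add, coeff_smul, coeff_one, if_neg hn0, if_neg hpn0, smul_eq_mul, zero_add,
    coeff_UpPS] at e1
  rw [hXUU n hn] at e1
  -- Frobenius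
  have f1 := frob_two hXZ n
  have f2 := frob_two (hXZ.UpPS p) (p * n)
  have hodd : p % 2 = 1 := by omega
  have hF : (if 2 ∣ p * n then coeff (p * n / 2) (UpPS p X) else 0) =
      (if 2 ∣ n then coeff (n / 2) X else 0) := by
    have hiff : 2 ∣ p * n ↔ 2 ∣ n := by
      constructor
      · intro h
        rcases (Nat.Prime.dvd_mul Nat.prime_two).mp h with h | h
        · omega
        · exact h
      · exact fun h => Dvd.dvd.mul_left h p
    by_cases h2 : 2 ∣ n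
    · rw [if_pos h2, if_pos (hiff.mpr h2)]
      obtain ⟨m, rfl⟩ := h2
      have hm : 1 ≤ m := by omega
      have e : p * (2 * m) / 2 = p * m := by
        rw [show p * (2 * m) = 2 * (p * m) by ring, Nat.mul_div_cancel_left _ (by norm_num)]
      rw [e, coeff_UpPS, hXUU m hm, Nat.mul_div_cancel_left _ (by norm_num)]
    · rw [if_neg h2, if_neg (fun h => h2 (hiff.mp h))]
  rw [hF] at f2
  set F : ℂ := if 2 ∣ n then coeff (n / 2) X else 0 with hFdef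
  have hFZ : F ∈ Zl 2 := by
    rw [hFdef]; split_ifs
    · exact hXZ _
    · exact zero_mem _
  -- `p + 1 = 2 u`, `u` odd
  obtain ⟨u, hu⟩ : ∃ u : ℕ, p + 1 = 2 * u := ⟨(p + 1) / 2, by omega⟩
  have huodd : ¬ 2 ∣ u := by omega
  have huC : (p : ℂ) + 1 = 2 * (u : ℂ) := by exact_mod_cast hu
  have hpZ : (p : ℂ) ∈ Zl 2 := natCast_mem_Zl 2 p
  have huZ : (u : ℂ) ∈ Zl 2 := natCast_mem_Zl 2 u
  have h2J : (2 : ℂ) ∈ Jl 2 1 := ⟨1, one_mem _, by norm_num⟩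
  have key : (u : ℂ) * coeff n X ∈ Jl 2 1 := by
    have t1 : (2 : ℂ) * (15 * (u : ℂ) * (sigmaJ 3 n : ℂ)) ∈ Jl 2 1 := by
      have : (15 * (u : ℂ) * (sigmaJ 3 n : ℂ)) ∈ Zl 2 :=
        mul_mem (mul_mem (by exact_mod_cast natCast_mem_Zl 2 15) huZ) (natCast_mem_Zl 2 _)
      rw [mul_comm]; exact Zl_mul_mem_Jl 2 this h2J
    have t2 : (2 : ℂ) * ((u : ℂ) * F) ∈ Jl 2 1 := by
      rw [mul_comm]; exact Zl_mul_mem_Jl 2 (mul_mem huZ hFZ) h2J
    have t3 := add_mem (Zl_mul_mem_Jl 2 hpZ f1) f2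
    have := sub_mem (sub_mem t1 t2) t3
    convert this using 1
    have hp' : (p : ℂ) = 2 * (u : ℂ) - 1 := by rw [← huC]; ring
    rw [huC] at e1
    rw [hp'] at e1 ⊢
    linear_combination (1 / 16 : ℂ) * e1
  have hXJ : coeff n X ∈ Jl 2 1 := div_natCast_mem_Jl 2 huodd key
  have h4J : (4 : ℂ) ∈ Jl 2 2 := ⟨1, one_mem _, by norm_num⟩
  have := mul_mem_Jl 2 h4J hXJ
  rw [hXn n hn] at this
  convert this using 1
  ring

/-- **Interface bridge**: from the interfaces `IfaceExp`, `IfaceT0`, `IfaceI2`, `IfaceLV1` to the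
power-series identities used by the case files: `U_p² A = A` and the two instances of (I2). -/
theorem ci2_setup (p : ℕ) [hp : Fact p.Prime] (hE : IfaceExp p) (h0 : IfaceT0 p) (hI : IfaceI2 p)
    (hL : IfaceLV1) (H : ModularForm (Gamma0 p) 2) :
    UpPS p (UpPS p (qExpansion 1 H)) = qExpansion 1 H ∧
    ((p : ℂ) • (qExpansion 1 H) ^ 2 + UpPS p ((UpPS p (qExpansion 1 H)) ^ 2) =
      (((p : ℂ) + 1) * (coeff 0 (qExpansion 1 H)) ^ 2) • (1 + (240 : ℂ) • SJ 3)) ∧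
    ((p : ℂ) • (UpPS p (qExpansion 1 H)) ^ 2 +
        UpPS p ((UpPS p (UpPS p (qExpansion 1 H))) ^ 2) =
      (((p : ℂ) + 1) * (coeff 0 (UpPS p (qExpansion 1 H))) ^ 2) • (1 + (240 : ℂ) • SJ 3)) := by
  obtain ⟨B, hB⟩ := hE 2 H
  have hFP : FormPair p 2 (qExpansion 1 H) B := ⟨H, rfl, hB⟩
  obtain ⟨-, H', hH', hB'⟩ := h0 _ _ hFP
  obtain ⟨hB2, -⟩ := h0 _ _ ⟨H', hH', hB'⟩
  have hp0 : (p : ℂ) ≠ 0 := by exact_mod_cast hp.out.ne_zero
  have hc : (-(p : ℂ)⁻¹) ≠ 0 := neg_ne_zero.mpr (inv_ne_zero hp0)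
  have hUU : UpPS p (UpPS p (qExpansion 1 H)) = qExpansion 1 H :=
    (smul_right_injective _ hc hB2).symm
  refine ⟨hUU, ?_, ?_⟩
  · have := hI H
    rwa [hL.1] at this
  · have := hI H'
    rw [hH', hL.1] at this
    exact this

end Fermat.Agent.S16.CI2
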