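import Fermat.Agent.S16.Iface
import Fermat.Agent.S16.PSCalc

/-!
# P-EIS (S16), FP-I2: the quadratic trace identity

`p A² + U_p((U_p A)²) = (p + 1) a₀² E₄` for the `q`-expansion `A` of every
`H ∈ M₂(Γ₀(p))`, from the interfaces `IfaceExp`, `IfaceAlg`, `IfaceTrace`, `IfaceT0`, `IfaceLV1`.
-/

set_option autoImplicit false

namespace Fermat.Agent.S16

open UpperHalfPlane ModularForm ModularFormClass MatrixGroups CongruenceSubgroup

noncomputable section

theorem I2_coeff_zero_UpPS (p : ℕ) (A : PowerSeries ℂ) :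
    PowerSeries.coeff 0 (UpPS p A) = PowerSeries.coeff 0 A := by
  rw [UpPS, PowerSeries.coeff_mk, mul_zero]

theorem I2_coeff_zero_sq (A : PowerSeries ℂ) :
    PowerSeries.coeff 0 (A ^ 2) = (PowerSeries.coeff 0 A) ^ 2 := by
  rw [PowerSeries.coeff_zero_eq_constantCoeff_apply, map_pow,
    ← PowerSeries.coeff_zero_eq_constantCoeff_apply]

/-- **FP-I2**: the quadratic trace identity. -/
theorem ifaceI2 (p : ℕ) [Fact p.Prime] (hE : IfaceExp p) (hA : IfaceAlg p) (hT : IfaceTrace p)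
    (h0 : IfaceT0 p) (hL : IfaceLV1) : IfaceI2 p := by
  have hp : p.Prime := Fact.out
  have hp0 : p ≠ 0 := hp.ne_zero
  have hpC : (p : ℂ) ≠ 0 := Nat.cast_ne_zero.mpr hp0
  intro H
  set A : PowerSeries ℂ := qExpansion 1 H with hAdef
  obtain ⟨B, hB⟩ := hE 2 H
  have hpair : FormPair p 2 A B := ⟨H, rfl, hB⟩
  obtain ⟨hBeq, -⟩ := h0 A B hpair
  -- the pair of the square
  have hpair2 : FormPair p (2 + 2) (A * A) (B * B) := hA.1 2 2 A B A B hpair hpair
  obtain ⟨N, hN1, hN⟩ := hT (2 + 2) (A * A) (B * B) hpair2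
  rw [sum_rescale_zeta p hp0, ← expandPS_smul, ← expandPS_add] at hN
  have hNeq : N = A * A + (p : ℂ) • UpPS p (B * B) := expandPS_injective p hp.pos hN
  -- `B * B = p⁻² (U_p A)²`
  have hBB : B * B = (((p : ℂ) ^ 2)⁻¹) • (UpPS p A) ^ 2 := by
    rw [hBeq, smul_mul_smul_comm, pow_two, pow_two]
    congr 1
    field_simp
  have hN' : N = A ^ 2 + ((p : ℂ)⁻¹) • UpPS p ((UpPS p A) ^ 2) := by
    rw [hNeq, hBB, UpPS_smul, smul_smul, pow_two A]
    congr 2
    field_simp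
  -- `M₄ = ℂ E₄`
  have hN4 : N = (PowerSeries.coeff 0 N) • qExpansion 1 E₄ :=
    hL.2.2.2 N (by simpa using hN1)
  have hc0 : PowerSeries.coeff 0 N =
      (PowerSeries.coeff 0 A) ^ 2 + (p : ℂ)⁻¹ * (PowerSeries.coeff 0 A) ^ 2 := by
    rw [hN', map_add, PowerSeries.coeff_smul, I2_coeff_zero_UpPS, I2_coeff_zero_sq,
      I2_coeff_zero_sq, I2_coeff_zero_UpPS, smul_eq_mul]
  -- conclude
  have key : (p : ℂ) • A ^ 2 + UpPS p ((UpPS p A) ^ 2) = (p : ℂ) • N := by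
    rw [hN', smul_add, smul_smul, mul_inv_cancel₀ hpC, one_smul]
  rw [key, hN4, smul_smul, hc0]
  congr 1
  field_simp
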