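import Mathlib
import Fermat.Prelude.Thm_UpperHalfPlane_qExpansion_prod
import Fermat.Prelude.Thm_UpperHalfPlane_qExpansion_coeff_nat_mul
import Fermat.Agent.S16.LevelOneSturm

/-!
# P-EIS (S16), upper bound: the abstract norm trick

`NA_core`: let `N` be a level-one modular form of weight `K < 12 (p + 1)` which is, as a
function, the product of `p + 1` functions `f i` (the conjugates of a form of level `Γ₀(p)`),
each having a `q^{1/p}`-expansion which is congruent, modulo `ℓ R` (`R` a subring of `ℂ` in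
which `ℓ` is not invertible), to `s(q)` for one and the same integral power series `s` with
`s(0) = 0` and `s ≢ 0 mod ℓ`.  Then we get a contradiction: the norm `N ≡ s^{p+1}` has
`q`-order `≥ p + 1 > K / 12` modulo `ℓ`, so `N ≡ 0` by the level-one Sturm bound, but
`s^{p+1} ≢ 0`.
-/

set_option autoImplicit false

open UpperHalfPlane ModularForm ModularFormClass MatrixGroups

namespace Fermat.Agent.S16.UBNorm

noncomputable section

/-- The additive subgroup `ℓ • R` of `ℂ`. -/
def NA_lR (R : Subring ℂ) (l : ℕ) : AddSubgroup ℂ where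
  carrier := {x | ∃ r ∈ R, x = (l : ℂ) * r}
  zero_mem' := ⟨0, R.zero_mem, by simp⟩
  add_mem' := by
    rintro x y ⟨r, hr, rfl⟩ ⟨t, ht, rfl⟩
    exact ⟨r + t, R.add_mem hr ht, by ring⟩
  neg_mem' := by
    rintro x ⟨r, hr, rfl⟩
    exact ⟨-r, R.neg_mem hr, by ring⟩

theorem NA_mem_lR {R : Subring ℂ} {l : ℕ} {x : ℂ} :
    x ∈ NA_lR R l ↔ ∃ r ∈ R, x = (l : ℂ) * r := Iff.rfl

/-- In a commutative ring, a product of elements all congruent to `S` modulo `ℓ` is congruent
to the corresponding power of `S`. -/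
theorem NA_prod_congr {A : Type*} [CommRing A] {ι : Type*} (t : Finset ι) (l S : A)
    (F : ι → A) (hF : ∀ i ∈ t, ∃ G, F i = S + l * G) :
    ∃ H, ∏ i ∈ t, F i = S ^ t.card + l * H := by
  classical
  induction t using Finset.induction_on with
  | empty => exact ⟨0, by simp⟩
  | insert a t ha ih =>
    obtain ⟨H, hH⟩ := ih (fun i hi => hF i (Finset.mem_insert_of_mem hi))
    obtain ⟨G, hG⟩ := hF a (Finset.mem_insert_self a t)
    refine ⟨S * H + G * S ^ t.card + l * G * H, ?_⟩
    rw [Finset.prod_insert ha, Finset.card_insert_of_notMem ha, hH, hG]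
    ring

/-- Low coefficients of a power of a power series without constant term vanish. -/
theorem NA_coeff_pow_of_lt {A : Type*} [CommRing A] (s : PowerSeries A)
    (hs0 : PowerSeries.constantCoeff s = 0) (m n : ℕ) (hn : n < m) :
    PowerSeries.coeff n (s ^ m) = 0 := by
  obtain ⟨t, rfl⟩ := PowerSeries.X_dvd_iff.mpr hs0
  rw [mul_pow, PowerSeries.coeff_X_pow_mul', if_neg (by omega)]

/-- A power of an integral power series which is nonzero mod `ℓ` is nonzero mod `ℓ`. -/
theorem NA_exists_coeff_pow_not_dvd (l : ℕ) (hl : l.Prime) (s : PowerSeries ℤ)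
    (hs : ∃ n, ¬ (l : ℤ) ∣ PowerSeries.coeff n s) (m : ℕ) :
    ∃ n, ¬ (l : ℤ) ∣ PowerSeries.coeff n (s ^ m) := by
  have : Fact l.Prime := ⟨hl⟩
  have h1 : PowerSeries.map (Int.castRingHom (ZMod l)) s ≠ 0 := by
    obtain ⟨n, hn⟩ := hs
    intro h0
    apply hn
    have := congrArg (PowerSeries.coeff n) h0
    rw [PowerSeries.coeff_map] at this
    simpa [ZMod.intCast_zmod_eq_zero_iff_dvd] using this
  have h2 : PowerSeries.map (Int.castRingHom (ZMod l)) (s ^ m) ≠ 0 := by
    rw [map_pow]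
    exact pow_ne_zero _ h1
  by_contra hcon
  push Not at hcon
  apply h2
  ext n
  rw [PowerSeries.coeff_map]
  simpa [ZMod.intCast_zmod_eq_zero_iff_dvd] using hcon n

/-- `ℓ` not invertible in `R`: an integer prime to `ℓ` is not in `ℓ R`. -/
theorem NA_int_not_mem_lR (R : Subring ℂ) (l : ℕ) (hl : l.Prime)
    (hlR : ∀ c ∈ R, (l : ℂ) * c ≠ 1) (c : ℤ) (hc : ¬ (l : ℤ) ∣ c) :
    ((c : ℤ) : ℂ) ∉ NA_lR R l := by
  rintro ⟨r, hr, hcr⟩
  have hcop : IsCoprime (l : ℤ) c := by
    have hp : Prime (l : ℤ) := Nat.prime_iff_prime_int.mp hl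
    exact (Prime.coprime_iff_not_dvd hp).mpr hc
  obtain ⟨u, v, huv⟩ := hcop
  apply hlR (u + v * r) (R.add_mem (intCast_mem R u) (R.mul_mem (intCast_mem R v) hr))
  have : ((u * (l : ℤ) + v * c : ℤ) : ℂ) = 1 := by rw [huv]; simp
  push_cast at this
  rw [hcr] at this
  linear_combination this

/-- **The abstract norm trick.** -/
theorem NA_core {p : ℕ} (hp : 0 < p) {K : ℤ} (N : ModularForm 𝒮ℒ K)
    (hK : K < 12 * ((p : ℤ) + 1))
    {ι : Type*} [Fintype ι] (hι : Fintype.card ι = p + 1)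
    (f : ι → ℍ → ℂ) (hN : (⇑N : ℍ → ℂ) = ∏ i, f i)
    (hfan : ∀ i, AnalyticAt ℂ (cuspFunction (p : ℝ) (f i)) 0)
    (R : Subring ℂ) (l : ℕ) (hl : l.Prime) (hlR : ∀ c ∈ R, (l : ℂ) * c ≠ 1)
    (s : PowerSeries ℤ) (hs0 : PowerSeries.constantCoeff s = 0)
    (hs : ∃ n, ¬ (l : ℤ) ∣ PowerSeries.coeff n s)
    (hc : ∀ i m, ∃ r ∈ R, PowerSeries.coeff m (qExpansion (p : ℝ) (f i)) =
      (if p ∣ m then ((PowerSeries.coeff (m / p) s : ℤ) : ℂ) else 0) + (l : ℂ) * r) :
    False := by
  classical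
  have hp0 : p ≠ 0 := hp.ne'
  -- the `q^{1/p}`-expansion of `N`
  have h1 : qExpansion (p : ℝ) (⇑N : ℍ → ℂ) = ∏ i, qExpansion (p : ℝ) (f i) := by
    rw [hN]
    exact UpperHalfPlane.qExpansion_prod Finset.univ (fun i _ => hfan i)
  have h2 : ∀ n : ℕ, PowerSeries.coeff (p * n) (qExpansion (p : ℝ) (⇑N : ℍ → ℂ)) =
      PowerSeries.coeff n (qExpansion 1 N) := by
    intro n
    have h := UpperHalfPlane.qExpansion_coeff_nat_mul (h := 1) one_pos (F := (⇑N : ℍ → ℂ))
      (SlashInvariantFormClass.periodic_comp_ofComplex N one_mem_strictPeriods_SL)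
      (ModularFormClass.holo N) (ModularFormClass.bdd_at_infty N) hp (p * n)
    rw [mul_one] at h
    rw [h, if_pos (dvd_mul_right p n), Nat.mul_div_cancel_left n hp]
  -- lift everything to power series over `R`
  choose r hrR hr using hc
  let S' : PowerSeries R := PowerSeries.expand p hp0 (PowerSeries.map (Int.castRingHom R) s)
  let G' : ι → PowerSeries R := fun i => PowerSeries.mk (fun m => (⟨r i m, hrR i m⟩ : R))
  let F' : ι → PowerSeries R := fun i => S' + (l : PowerSeries R) * G' i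
  have hF' : ∀ i, PowerSeries.map R.subtype (F' i) = qExpansion (p : ℝ) (f i) := by
    intro i
    ext m
    rw [hr i m]
    simp only [F', S', G', map_add, map_mul, map_natCast, PowerSeries.coeff_map,
      PowerSeries.coeff_expand, PowerSeries.coeff_mk]
    have hnat : ((l : PowerSeries ℂ)) = PowerSeries.C (l : ℂ) := by simp
    rw [hnat, PowerSeries.coeff_C_mul, PowerSeries.coeff_map, PowerSeries.coeff_mk]
    split_ifs <;> simp
  obtain ⟨H', hH'⟩ := NA_prod_congr Finset.univ (l : PowerSeries R) S' F'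
    (fun i _ => ⟨G' i, rfl⟩)
  rw [Finset.card_univ, hι] at hH'
  have h3 : ∀ n : ℕ, PowerSeries.coeff n (qExpansion 1 N) =
      ((PowerSeries.coeff n (s ^ (p + 1)) : ℤ) : ℂ) +
        (l : ℂ) * (PowerSeries.coeff (p * n) H' : R) := by
    intro n
    rw [← h2 n, h1]
    have : ∏ i, qExpansion (p : ℝ) (f i) = PowerSeries.map R.subtype (∏ i, F' i) := by
      rw [map_prod]
      exact Finset.prod_congr rfl (fun i _ => (hF' i).symm)
    rw [this, hH']
    simp only [S', map_add, map_mul, map_natCast, PowerSeries.coeff_map, ← map_pow,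
      PowerSeries.coeff_expand_mul]
    have hnat : ((l : PowerSeries ℂ)) = PowerSeries.C (l : ℂ) := by simp
    rw [hnat, PowerSeries.coeff_C_mul, PowerSeries.coeff_map]
    simp
  -- low coefficients
  have hlow : ∀ n : ℕ, 12 * (n : ℤ) ≤ K → PowerSeries.coeff n (qExpansion 1 N) ∈ NA_lR R l := by
    intro n hn
    have hn' : n < p + 1 := by
      have : 12 * (n : ℤ) < 12 * ((p : ℤ) + 1) := lt_of_le_of_lt hn hK
      omega
    rw [h3 n, NA_coeff_pow_of_lt s hs0 (p + 1) n hn']
    exact ⟨_, (PowerSeries.coeff (p * n) H').2, by simp⟩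
  have hall := Fermat.Agent.S16.levelOne_coeff_mem_of_low (NA_lR R l) K N hlow
  obtain ⟨n, hn⟩ := NA_exists_coeff_pow_not_dvd l hl s hs (p + 1)
  apply NA_int_not_mem_lR R l hl hlR _ hn
  have hmem : (l : ℂ) * (PowerSeries.coeff (p * n) H' : R) ∈ NA_lR R l :=
    ⟨_, (PowerSeries.coeff (p * n) H').2, rfl⟩
  have := (NA_lR R l).sub_mem (hall n) hmem
  rwa [h3 n, add_sub_cancel_right] at this

end

end Fermat.Agent.S16.UBNorm
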